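/-
S05 helper library, task "Inertia": elements of the inertia group of a valuation subring `A`
preserve `A` and move integral elements by elements of the maximal ideal.
-/
import Mathlib
import Fermat.Prelude.Def_FLTPrelim_Ramification

set_option autoImplicit false

namespace Fermat.Agent.S05

open IsLocalRing

namespace Inertia

variable {F K : Type*} [Field F] [Field K] [Algebra F K]

/-- Membership form: an element of the inertia group preserves `A` and acts trivially on the
residue field. -/
theorem mem_and_sub_mem_nonunits (A : ValuationSubring K)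
    (σ : K ≃ₐ[F] K) (hσ : σ ∈ A.inertiaSubgroupIn F) :
    (∀ x ∈ A, σ x ∈ A) ∧ (∀ x ∈ A, σ x - x ∈ A.nonunits) := by
  obtain ⟨g, hg, rfl⟩ := hσ
  have hmem : ∀ x ∈ A, (g : K ≃ₐ[F] K) x ∈ A := fun x hx => ((g • (⟨x, hx⟩ : A) : A)).2
  refine ⟨hmem, fun x hx => ?_⟩
  have h1 : MulSemiringAction.toRingAut (A.decompositionSubgroup F) (ResidueField A) g = 1 := hg
  have h2 : g • residue A ⟨x, hx⟩ = residue A ⟨x, hx⟩ := by
    have := congrArg (fun f : RingAut (ResidueField A) => f (residue A ⟨x, hx⟩)) h1
    simpa using this
  rw [← ResidueField.residue_smul] at h2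
  have h3 : (g • (⟨x, hx⟩ : A) : A) - ⟨x, hx⟩ ∈ maximalIdeal A := by
    rw [← Ideal.Quotient.eq]
    exact h2
  rw [ValuationSubring.mem_nonunits_iff_exists_mem_maximalIdeal]
  exact ⟨A.sub_mem (hmem x hx) hx, h3⟩

/-- An element of the inertia group maps integral elements to integral elements. -/
theorem map_le_one (A : ValuationSubring K) (σ : K ≃ₐ[F] K) (hσ : σ ∈ A.inertiaSubgroupIn F)
    (x : K) (hx : A.valuation x ≤ 1) : A.valuation (σ x) ≤ 1 := by
  rw [ValuationSubring.valuation_le_one_iff] at hx ⊢
  exact (mem_and_sub_mem_nonunits A σ hσ).1 x hx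

/-- The inverse of an element of the inertia group is in the inertia group. -/
theorem symm_mem (A : ValuationSubring K) (σ : K ≃ₐ[F] K) (hσ : σ ∈ A.inertiaSubgroupIn F) :
    σ.symm ∈ A.inertiaSubgroupIn F :=
  (A.inertiaSubgroupIn F).inv_mem hσ

end Inertia

/-- Elements of the inertia group move integral elements by elements of the maximal ideal. -/
theorem inertia_spec {F K : Type*} [Field F] [Field K] [Algebra F K] (A : ValuationSubring K)
    (σ : K ≃ₐ[F] K) (hσ : σ ∈ A.inertiaSubgroupIn F) (x : K) (hx : A.valuation x ≤ 1) :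
    A.valuation (σ x - x) < 1 := by
  rw [ValuationSubring.valuation_le_one_iff] at hx
  exact (A.mem_nonunits_iff).mp ((Inertia.mem_and_sub_mem_nonunits A σ hσ).2 x hx)

namespace Inertia

variable {F K : Type*} [Field F] [Field K] [Algebra F K]

/-- An element of the inertia group maps the maximal ideal into itself. -/
theorem map_lt_one (A : ValuationSubring K) (σ : K ≃ₐ[F] K) (hσ : σ ∈ A.inertiaSubgroupIn F)
    (x : K) (hx : A.valuation x < 1) : A.valuation (σ x) < 1 := by
  have h := inertia_spec A σ hσ x hx.le
  have : σ x = (σ x - x) + x := by ring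
  rw [this]
  exact Valuation.map_add_lt _ h hx

/-- An element of the inertia group maps units to units. -/
theorem map_eq_one (A : ValuationSubring K) (σ : K ≃ₐ[F] K) (hσ : σ ∈ A.inertiaSubgroupIn F)
    (x : K) (hx : A.valuation x = 1) : A.valuation (σ x) = 1 := by
  have h := inertia_spec A σ hσ x hx.le
  have : σ x = x + (σ x - x) := by ring
  rw [this, Valuation.map_add_eq_of_lt_left _ (by rw [hx]; exact h), hx]

/-- An element of the inertia group preserves the valuation of any element which is a unit times
a fixed element: if `σ t = t` and `v x = v t` then `v (σ x - x) < v x` (for `t ≠ 0`). -/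
theorem sub_lt_of_fixed (A : ValuationSubring K) (σ : K ≃ₐ[F] K)
    (hσ : σ ∈ A.inertiaSubgroupIn F) {t x : K} (ht : σ t = t) (ht0 : t ≠ 0)
    (hx : A.valuation x = A.valuation t) : A.valuation (σ x - x) < A.valuation x := by
  have hw : A.valuation (x / t) = 1 := by
    rw [map_div₀, hx, div_self ((Valuation.ne_zero_iff _).mpr ht0)]
  have h := inertia_spec A σ hσ (x / t) hw.le
  have e : σ x - x = t * (σ (x / t) - x / t) := by
    rw [map_div₀, ht]; field_simp
  rw [e, map_mul, hx]
  have ht' : (0 : A.ValueGroup) < A.valuation t :=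
    zero_lt_iff.mpr ((Valuation.ne_zero_iff _).mpr ht0)
  calc A.valuation t * A.valuation (σ (x / t) - x / t) < A.valuation t * 1 := by
        exact mul_lt_mul_of_pos_left h ht'
    _ = A.valuation t := mul_one _

end Inertia

end Fermat.Agent.S05
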