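/-
S05 helper library, layer F: Legendre-type Weierstrass curves `y² = x³ + a x² + b x`
(`a₁ = a₃ = a₆ = 0`) and the "Vieta" description of the group law.
-/
import Mathlib

set_option autoImplicit false

namespace Fermat.Agent.S05

open WeierstrassCurve WeierstrassCurve.Affine

variable {K : Type*} [Field K]

/-- The Weierstrass curve has the shape `y² = x³ + a₂ x² + a₄ x`. -/
structure IsLeg (W : Affine K) : Prop where
  a₁ : W.a₁ = 0
  a₃ : W.a₃ = 0
  a₆ : W.a₆ = 0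

/-- The affine equation `y² = x³ + a x² + b x`. -/
def LegEq (a b x y : K) : Prop := y ^ 2 = x ^ 3 + a * x ^ 2 + b * x

/-- `(x₁,y₁)`, `(x₂,y₂)`, `(x₃,-y₃)` are the three intersection points (with multiplicity) of the
line `y = l x + n` with the cubic `y² = x³ + a x² + b x`; so `(x₃, y₃) = (x₁,y₁) + (x₂,y₂)`. -/
structure Vieta (a b x₁ y₁ x₂ y₂ x₃ y₃ l n : K) : Prop where
  line₁ : y₁ = l * x₁ + n
  line₂ : y₂ = l * x₂ + n
  line₃ : -y₃ = l * x₃ + n
  e₁ : x₁ + x₂ + x₃ = l ^ 2 - a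
  e₂ : x₁ * x₂ + x₁ * x₃ + x₂ * x₃ = b - 2 * l * n
  e₃ : x₁ * x₂ * x₃ = n ^ 2

namespace Vieta

variable {a b x₁ y₁ x₂ y₂ x₃ y₃ l n : K}

theorem l_mul_sub (h : Vieta a b x₁ y₁ x₂ y₂ x₃ y₃ l n) : l * (x₁ - x₂) = y₁ - y₂ := by
  rw [h.line₁, h.line₂]; ring

theorem n_mul_sub (h : Vieta a b x₁ y₁ x₂ y₂ x₃ y₃ l n) : n * (x₂ - x₁) = y₁ * x₂ - y₂ * x₁ := by
  rw [h.line₁, h.line₂]; ring

theorem n_mul_add (h : Vieta a b x₁ y₁ x₂ y₂ x₃ y₃ l n) :
    n * (y₁ * x₂ + y₂ * x₁) = x₁ * x₂ * (b - x₁ * x₂) := by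
  have h1 := h.line₁; have h2 := h.line₂; have e2 := h.e₂; have e3 := h.e₃
  subst h1 h2
  linear_combination x₁ * x₂ * e2 - (x₁ + x₂) * e3

theorem l_mul_add (h : Vieta a b x₁ y₁ x₂ y₂ x₃ y₃ l n) :
    l * (y₁ + y₂) = x₁ ^ 2 + x₁ * x₂ + x₂ ^ 2 + a * (x₁ + x₂) + b := by
  have h1 := h.line₁; have h2 := h.line₂; have e1 := h.e₁; have e2 := h.e₂
  subst h1 h2
  linear_combination e2 - (x₁ + x₂) * e1

/-- `(x₃, y₃)` lies on the curve. -/
theorem legEq₃ (h : Vieta a b x₁ y₁ x₂ y₂ x₃ y₃ l n) : LegEq a b x₃ y₃ := by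
  have h3 := h.line₃; have e1 := h.e₁; have e2 := h.e₂; have e3 := h.e₃
  have hy : y₃ = -(l * x₃ + n) := by linear_combination -h3
  subst hy
  unfold LegEq
  linear_combination (-x₃ ^ 2) * e1 + x₃ * e2 - e3

theorem symm (h : Vieta a b x₁ y₁ x₂ y₂ x₃ y₃ l n) : Vieta a b x₂ y₂ x₁ y₁ x₃ y₃ l n where
  line₁ := h.line₂
  line₂ := h.line₁
  line₃ := h.line₃
  e₁ := by linear_combination h.e₁
  e₂ := by linear_combination h.e₂
  e₃ := by linear_combination h.e₃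

/-- The three "slopes from the origin" `ρᵢ = yᵢ/xᵢ` : `ρ₃' = ρ₁ + n/x₃ - n/x₁` in polynomial form
(recall the third point of the line is `(x₃, -y₃)`). -/
theorem rho_rel (h : Vieta a b x₁ y₁ x₂ y₂ x₃ y₃ l n) :
    -y₃ * x₁ - y₁ * x₃ = n * (x₁ - x₃) := by
  have h1 := h.line₁; have h3 := h.line₃
  linear_combination x₁ * h3 - x₃ * h1

/-- Sum of the three `x/y`-values of the collinear points, in polynomial form. -/
theorem z_sum (h : Vieta a b x₁ y₁ x₂ y₂ x₃ y₃ l n) :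
    (x₁ * y₂ * (-y₃) + x₂ * y₁ * (-y₃) + x₃ * y₁ * y₂) = n * (2 * b * l - a * n) ∧
    y₁ * y₂ * (-y₃) = n * (n ^ 2 - a * l * n + b * l ^ 2) := by
  have h1 := h.line₁; have h2 := h.line₂; have h3 := h.line₃
  have e1 := h.e₁; have e2 := h.e₂; have e3 := h.e₃
  rw [h3]
  subst h1 h2
  constructor
  · linear_combination (3 * l ^ 2) * e3 + (2 * l * n) * e2 + n ^ 2 * e1
  · linear_combination l ^ 3 * e3 + (l ^ 2 * n) * e2 + (l * n ^ 2) * e1

end Vieta

section Curve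

variable {W : Affine K}

theorem IsLeg.equation_iff (hW : IsLeg W) (x y : K) :
    W.Equation x y ↔ LegEq W.a₂ W.a₄ x y := by
  rw [WeierstrassCurve.Affine.equation_iff, hW.a₁, hW.a₃, hW.a₆, LegEq]
  constructor <;> intro h <;> linear_combination h

theorem IsLeg.nonsingular_iff (hW : IsLeg W) (x y : K) :
    W.Nonsingular x y ↔
      LegEq W.a₂ W.a₄ x y ∧ (3 * x ^ 2 + 2 * W.a₂ * x + W.a₄ ≠ 0 ∨ 2 * y ≠ 0) := by
  rw [WeierstrassCurve.Affine.nonsingular_iff', hW.equation_iff, hW.a₁, hW.a₃]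
  refine and_congr_right fun _ => or_congr ?_ ?_
  · rw [ne_eq, ne_eq, not_iff_not]
    constructor <;> intro h <;> linear_combination -h
  · rw [ne_eq, ne_eq, not_iff_not]
    constructor <;> intro h <;> linear_combination h

theorem IsLeg.negY (hW : IsLeg W) (x y : K) : W.negY x y = -y := by
  simp [WeierstrassCurve.Affine.negY, hW.a₁, hW.a₃]

theorem IsLeg.nonsingular_neg (hW : IsLeg W) {x y : K} (h : W.Nonsingular x y) :
    W.Nonsingular x (-y) := by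
  have := (WeierstrassCurve.Affine.nonsingular_neg (W' := W) x y).mpr h
  rwa [hW.negY] at this

theorem IsLeg.neg_some (hW : IsLeg W) {x y : K} (h : W.Nonsingular x y) :
    -Point.some x y h = Point.some x (-y) (hW.nonsingular_neg h) := by
  rw [Point.neg_some]
  congr 1
  exact hW.negY x y

variable [DecidableEq K]

/-- The group law in "Vieta form": if `P₁ ≠ -P₂` then `P₁ + P₂ = (x₃, y₃)` where `(x₃, -y₃)` is the
third intersection point of the line through `P₁`, `P₂` (tangent if `P₁ = P₂`). -/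
theorem IsLeg.add_vieta (hW : IsLeg W) {x₁ y₁ x₂ y₂ : K} (h₁ : W.Nonsingular x₁ y₁)
    (h₂ : W.Nonsingular x₂ y₂) (hne : ¬(x₁ = x₂ ∧ y₁ = -y₂)) :
    ∃ (l n x₃ y₃ : K) (h₃ : W.Nonsingular x₃ y₃),
      Point.some x₁ y₁ h₁ + Point.some x₂ y₂ h₂ = Point.some x₃ y₃ h₃ ∧
      Vieta W.a₂ W.a₄ x₁ y₁ x₂ y₂ x₃ y₃ l n := by
  have hxy : ¬(x₁ = x₂ ∧ y₁ = W.negY x₂ y₂) := by rwa [hW.negY]
  have hpoly := addPolynomial_slope h₁.1 h₂.1 hxy
  rw [addPolynomial_eq, neg_inj, Cubic.prod_X_sub_C_eq, Cubic.toPoly_injective] at hpoly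
  have hb := congrArg Cubic.b hpoly
  have hc := congrArg Cubic.c hpoly
  have hd := congrArg Cubic.d hpoly
  simp only [hW.a₁, hW.a₃, hW.a₆] at hb hc hd
  set l := W.slope x₁ x₂ y₁ y₂ with hl
  have hx₃ : W.addX x₁ x₂ l = l ^ 2 - W.a₂ - x₁ - x₂ := by
    simp [WeierstrassCurve.Affine.addX, hW.a₁]
  have hy₃ : W.addY x₁ x₂ y₁ l = -(l * (W.addX x₁ x₂ l - x₁) + y₁) := by
    simp [WeierstrassCurve.Affine.addY, WeierstrassCurve.Affine.negAddY, hW.a₁, hW.a₃]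
  have hline₂ : y₂ = l * x₂ + (y₁ - l * x₁) := by
    by_cases hx : x₁ = x₂
    · have hy : y₁ ≠ W.negY x₂ y₂ := fun h => hxy ⟨hx, h⟩
      have := Y_eq_of_Y_ne h₁.1 h₂.1 hx hy
      rw [← hx, ← this]; ring
    · rw [hl, slope_of_X_ne hx]
      have hx' : x₁ - x₂ ≠ 0 := sub_ne_zero.mpr hx
      field_simp
      ring
  refine ⟨l, y₁ - l * x₁, _, _, nonsingular_add h₁ h₂ hxy, Point.add_some hxy, ?_⟩
  rw [← hl]
  refine ⟨by ring, hline₂, ?_, ?_, ?_, ?_⟩
  · rw [hy₃]; ring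
  · rw [hx₃]; ring
  · rw [hx₃] at hc ⊢
    linear_combination -hc
  · rw [hx₃] at hd ⊢
    linear_combination hd

/-- `P + (-P) = 0` in coordinates. -/
theorem IsLeg.add_neg_eq_zero (hW : IsLeg W) {x y : K} (h₁ : W.Nonsingular x y)
    (h₂ : W.Nonsingular x (-y)) : Point.some x y h₁ + Point.some x (-y) h₂ = 0 := by
  apply Point.add_of_Y_eq rfl
  rw [hW.negY]; ring

omit [DecidableEq K] in
/-- The 2-torsion point `T = (0,0)`. -/
theorem IsLeg.nonsingular_T (hW : IsLeg W) (hb : W.a₄ ≠ 0) : W.Nonsingular 0 0 := by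
  rw [hW.nonsingular_iff]
  refine ⟨by simp [LegEq], Or.inl ?_⟩
  simpa using hb

/-- Translation by `T = (0,0)`: `(x,y) + T = (b/x, -b y/x²)` for `x ≠ 0`. -/
theorem IsLeg.add_T (hW : IsLeg W) {x y : K} (h : W.Nonsingular x y) (hT : W.Nonsingular 0 0)
    (hx : x ≠ 0) :
    ∃ h₃ : W.Nonsingular (W.a₄ / x) (-(W.a₄ * y) / x ^ 2),
      Point.some x y h + Point.some 0 0 hT = Point.some (W.a₄ / x) (-(W.a₄ * y) / x ^ 2) h₃ := by
  obtain ⟨l, n, x₃, y₃, h₃, hadd, hV⟩ := hW.add_vieta h hT (fun hh => hx hh.1)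
  have hn : n = 0 := by have := hV.line₂; simpa using this.symm
  have e2 := hV.e₂
  have l1 := hV.line₁
  have l3 := hV.line₃
  subst hn
  have hx₃ : x₃ = W.a₄ / x := by
    rw [eq_div_iff hx]; linear_combination e2
  have hy₃ : y₃ = -(W.a₄ * y) / x ^ 2 := by
    rw [eq_div_iff (pow_ne_zero 2 hx)]
    have hl : l = y / x := by rw [eq_div_iff hx]; linear_combination -l1
    have : y₃ = -(l * x₃) := by linear_combination -l3
    rw [this, hl, hx₃]
    field_simp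
  subst hx₃ hy₃
  exact ⟨h₃, hadd⟩

theorem IsLeg.T_add_T (hW : IsLeg W) (hT : W.Nonsingular 0 0) :
    Point.some 0 0 hT + Point.some 0 0 hT = 0 := by
  apply Point.add_of_Y_eq rfl
  rw [hW.negY]; ring

/-- The kernel of reduction: the point at infinity and the affine points with non-integral `x`. -/
def InE1 {Γ₀ : Type*} [LinearOrderedCommGroupWithZero Γ₀] (v : Valuation K Γ₀) :
    W.Point → Prop
  | .zero => True
  | .some x _ _ => 1 < v x

end Curve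

end Fermat.Agent.S05
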