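/-
S05 helper library: Vieta-level "type rules" in the multiplicative case.
`Z` = affine points with `1 ≤ v x`, `S` = affine points with `v b < v x < 1`.
* `vieta_Z_add_Z` : `Z + Z ⊆ Z ∪ {0}` (at the level of Vieta relations),
* `vieta_Z_add_S` : adding a `Z`-point to an `S`-point does not change `v x`.
-/
import Fermat.Agent.S05.Leg

set_option autoImplicit false

namespace Fermat.Agent.S05

variable {K : Type*} [Field K] {Γ₀ : Type*} [LinearOrderedCommGroupWithZero Γ₀]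
  (v : Valuation K Γ₀) {a b x₁ y₁ x₂ y₂ x₃ y₃ l n : K}

namespace VComp

/-- On `y² = x³ + a x² + b x` with `a`, `b` integral and `1 ≤ v x`: `v(y)² ≤ v(x)³`. -/
theorem sq_le_cube (ha : v a ≤ 1) (hb : v b ≤ 1) {x y : K} (h : LegEq a b x y)
    (hx : 1 ≤ v x) : v y ^ 2 ≤ v x ^ 3 := by
  unfold LegEq at h
  rw [← map_pow, h]
  have h1 : v (x ^ 3) ≤ v x ^ 3 := by rw [map_pow]
  have h2 : v (a * x ^ 2) ≤ v x ^ 3 := by
    rw [map_mul, map_pow]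
    calc v a * v x ^ 2 ≤ 1 * v x ^ 2 := by gcongr
      _ = v x ^ 2 := one_mul _
      _ ≤ v x ^ 3 := pow_le_pow_right' hx (by norm_num)
  have h3 : v (b * x) ≤ v x ^ 3 := by
    rw [map_mul]
    calc v b * v x ≤ 1 * v x := by gcongr
      _ = v x ^ 1 := by rw [one_mul, pow_one]
      _ ≤ v x ^ 3 := pow_le_pow_right' hx (by norm_num)
  exact v.map_add_le (v.map_add_le h1 h2) h3

/-- On `y² = x³ + a x² + b x` with `a` integral and `v b ≤ v x ≤ 1`: `v(y)² ≤ v(x)²`. -/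
theorem sq_le_sq_of_small (ha : v a ≤ 1) {x y : K} (h : LegEq a b x y)
    (hx : v x ≤ 1) (hbx : v b ≤ v x) : v y ^ 2 ≤ v x ^ 2 := by
  unfold LegEq at h
  rw [← map_pow, h]
  have h1 : v (x ^ 3) ≤ v x ^ 2 := by
    rw [map_pow]
    exact pow_le_pow_right_of_le_one' hx (by norm_num)
  have h2 : v (a * x ^ 2) ≤ v x ^ 2 := by
    rw [map_mul, map_pow]
    calc v a * v x ^ 2 ≤ 1 * v x ^ 2 := by gcongr
      _ = v x ^ 2 := one_mul _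
  have h3 : v (b * x) ≤ v x ^ 2 := by
    rw [map_mul, pow_two]
    gcongr
  exact v.map_add_le (v.map_add_le h1 h2) h3

/-- Pure ordered-group computation behind `vieta_Z_add_Z`. -/
theorem aux_ZZ {P S N X₃ : Γ₀} (hP : 1 ≤ P) (hS : S ^ 2 ≤ P ^ 3) (hNS : N * S = P * P)
    (h3 : P * X₃ = N ^ 2) : 1 ≤ X₃ := by
  have hP0 : 0 < P := lt_of_lt_of_le zero_lt_one hP
  have h4 : P * P ^ 3 ≤ N ^ 2 * P ^ 3 := by
    calc P * P ^ 3 = (P * P) ^ 2 := by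
          rw [← pow_two, ← pow_mul, ← pow_succ']
      _ = (N * S) ^ 2 := by rw [hNS]
      _ = N ^ 2 * S ^ 2 := mul_pow _ _ _
      _ ≤ N ^ 2 * P ^ 3 := by gcongr
  have h5 : P ≤ N ^ 2 := le_of_mul_le_mul_right h4 (pow_pos hP0 3)
  rw [← h3] at h5
  exact le_of_mul_le_mul_left (by rwa [mul_one]) hP0

/-- Pure ordered-group computation behind `vieta_Z_add_S`. -/
theorem aux_ZS {V₁ V₂ A B N X₃ : Γ₀} (h1 : 0 < V₁) (h2 : 0 < V₂)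
    (hF1 : A * B = V₁ ^ 3 * V₂ ^ 2) (hA : A ^ 2 ≤ V₁ ^ 3 * V₂ ^ 2)
    (hB : B ^ 2 ≤ V₁ ^ 3 * V₂ ^ 2) (hF3 : N * A = (V₁ * V₂) * (V₁ * V₂))
    (hF4 : V₁ * V₂ * X₃ = N ^ 2) : X₃ = V₂ := by
  have hM0 : 0 < V₁ ^ 3 * V₂ ^ 2 := mul_pos (pow_pos h1 3) (pow_pos h2 2)
  have hA2 : A ^ 2 = V₁ ^ 3 * V₂ ^ 2 := by
    refine le_antisymm hA (le_of_not_gt fun hlt => ?_)
    have : (A * B) ^ 2 < (V₁ ^ 3 * V₂ ^ 2) * (V₁ ^ 3 * V₂ ^ 2) := by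
      calc (A * B) ^ 2 = A ^ 2 * B ^ 2 := mul_pow _ _ _
        _ ≤ A ^ 2 * (V₁ ^ 3 * V₂ ^ 2) := by gcongr
        _ < (V₁ ^ 3 * V₂ ^ 2) * (V₁ ^ 3 * V₂ ^ 2) := mul_lt_mul_of_pos_right hlt hM0
    rw [hF1, pow_two] at this
    exact lt_irrefl _ this
  have hN : N ^ 2 * (V₁ ^ 3 * V₂ ^ 2) = (V₁ * V₂ ^ 2) * (V₁ ^ 3 * V₂ ^ 2) := by
    calc N ^ 2 * (V₁ ^ 3 * V₂ ^ 2) = N ^ 2 * A ^ 2 := by rw [hA2]
      _ = (N * A) ^ 2 := (mul_pow _ _ _).symm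
      _ = ((V₁ * V₂) * (V₁ * V₂)) ^ 2 := by rw [hF3]
      _ = (V₁ * V₂ ^ 2) * (V₁ ^ 3 * V₂ ^ 2) := by
        simp only [pow_succ, pow_zero, one_mul, mul_assoc, mul_left_comm, mul_comm]
  have hN' : N ^ 2 = V₁ * V₂ ^ 2 := mul_right_cancel₀ hM0.ne' hN
  have h5 : V₁ * V₂ * X₃ = V₁ * V₂ * V₂ := by rw [hF4, hN', pow_two, mul_assoc]
  exact mul_left_cancel₀ (mul_pos h1 h2).ne' h5

end VComp

/-- `Z + Z`: if both summands have `1 ≤ v x` then so does the sum (multiplicative case). -/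
theorem vieta_Z_add_Z (ha : v a ≤ 1) (hb : v b < 1)
    (hV : Vieta a b x₁ y₁ x₂ y₂ x₃ y₃ l n) (h₁ : LegEq a b x₁ y₁) (h₂ : LegEq a b x₂ y₂)
    (hx₁ : 1 ≤ v x₁) (hx₂ : 1 ≤ v x₂) : 1 ≤ v x₃ := by
  have hP1 : 1 ≤ v x₁ * v x₂ := Left.one_le_mul hx₁ hx₂
  have hbx : v (b - x₁ * x₂) = v x₁ * v x₂ := by
    rw [v.map_sub_eq_of_lt_right (by rw [map_mul]; exact lt_of_lt_of_le hb hP1), map_mul]
  have hNS : v n * v (y₁ * x₂ + y₂ * x₁) = (v x₁ * v x₂) * (v x₁ * v x₂) := by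
    rw [← map_mul, hV.n_mul_add, map_mul, map_mul, hbx]
  have hU₁ := VComp.sq_le_cube v ha hb.le h₁ hx₁
  have hU₂ := VComp.sq_le_cube v ha hb.le h₂ hx₂
  have hS : v (y₁ * x₂ + y₂ * x₁) ^ 2 ≤ (v x₁ * v x₂) ^ 3 := by
    have hA : v (y₁ * x₂) ^ 2 ≤ (v x₁ * v x₂) ^ 3 := by
      rw [map_mul, mul_pow, mul_pow]
      have : v x₂ ^ 2 ≤ v x₂ ^ 3 := pow_le_pow_right' hx₂ (by norm_num)
      gcongr
    have hB : v (y₂ * x₁) ^ 2 ≤ (v x₁ * v x₂) ^ 3 := by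
      rw [map_mul, mul_pow, mul_pow, mul_comm (v x₁ ^ 3)]
      have : v x₁ ^ 2 ≤ v x₁ ^ 3 := pow_le_pow_right' hx₁ (by norm_num)
      gcongr
    rcases v.map_add' (y₁ * x₂) (y₂ * x₁) with h | h
    · exact le_trans (pow_le_pow_left' h 2) hA
    · exact le_trans (pow_le_pow_left' h 2) hB
  have h3 : v x₁ * v x₂ * v x₃ = v n ^ 2 := by
    rw [← map_mul, ← map_mul, hV.e₃, map_pow]
  exact VComp.aux_ZZ hP1 hS hNS h3

/-- `Z + S`: adding a point with `1 ≤ v x₁` to a point with `v b < v x₂ < 1` gives a point with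
the same `v x` as the second one (multiplicative case, `v a = 1`). -/
theorem vieta_Z_add_S (ha : v a = 1) (hb : v b < 1)
    (hV : Vieta a b x₁ y₁ x₂ y₂ x₃ y₃ l n) (h₁ : LegEq a b x₁ y₁) (h₂ : LegEq a b x₂ y₂)
    (hx₁ : 1 ≤ v x₁) (hx₂ : v x₂ < 1) (hx₂' : v b < v x₂) : v x₃ = v x₂ := by
  have hV₁0 : 0 < v x₁ := lt_of_lt_of_le zero_lt_one hx₁
  have hV₂0 : 0 < v x₂ := lt_of_le_of_lt zero_le hx₂'
  have hP : v x₂ ≤ v x₁ * v x₂ := by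
    calc v x₂ = 1 * v x₂ := (one_mul _).symm
      _ ≤ v x₁ * v x₂ := by gcongr
  have hid : (y₁ * x₂ + y₂ * x₁) * (y₁ * x₂ - y₂ * x₁)
      = x₁ * x₂ * (x₁ - x₂) * (x₁ * x₂ - b) := by
    unfold LegEq at h₁ h₂
    linear_combination x₂ ^ 2 * h₁ - x₁ ^ 2 * h₂
  have hsub : v (x₁ - x₂) = v x₁ := v.map_sub_eq_of_lt_left (lt_of_lt_of_le hx₂ hx₁)
  have hxb : v (x₁ * x₂ - b) = v x₁ * v x₂ := by
    rw [v.map_sub_eq_of_lt_left (by rw [map_mul]; exact lt_of_lt_of_le hx₂' hP), map_mul]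
  have hbx : v (b - x₁ * x₂) = v x₁ * v x₂ := by
    rw [v.map_sub_swap, hxb]
  have hF1 : v (y₁ * x₂ + y₂ * x₁) * v (y₁ * x₂ - y₂ * x₁) = v x₁ ^ 3 * v x₂ ^ 2 := by
    rw [← map_mul, hid, map_mul, map_mul, map_mul, hsub, hxb]
    simp only [pow_succ, pow_zero, one_mul, mul_left_comm, mul_comm]
  have hU₁ := VComp.sq_le_cube v ha.le hb.le h₁ hx₁
  have hU₂ := VComp.sq_le_sq_of_small v ha.le h₂ hx₂.le hx₂'.le
  have hT1 : v (y₁ * x₂) ^ 2 ≤ v x₁ ^ 3 * v x₂ ^ 2 := by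
    rw [map_mul, mul_pow]
    gcongr
  have hT2 : v (y₂ * x₁) ^ 2 ≤ v x₁ ^ 3 * v x₂ ^ 2 := by
    rw [map_mul, mul_pow, mul_comm (v x₁ ^ 3)]
    have : v x₁ ^ 2 ≤ v x₁ ^ 3 := pow_le_pow_right' hx₁ (by norm_num)
    gcongr
  have hA : v (y₁ * x₂ + y₂ * x₁) ^ 2 ≤ v x₁ ^ 3 * v x₂ ^ 2 := by
    rcases v.map_add' (y₁ * x₂) (y₂ * x₁) with h | h
    · exact le_trans (pow_le_pow_left' h 2) hT1
    · exact le_trans (pow_le_pow_left' h 2) hT2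
  have hB : v (y₁ * x₂ - y₂ * x₁) ^ 2 ≤ v x₁ ^ 3 * v x₂ ^ 2 := by
    rcases le_max_iff.mp (v.map_sub (y₁ * x₂) (y₂ * x₁)) with h | h
    · exact le_trans (pow_le_pow_left' h 2) hT1
    · exact le_trans (pow_le_pow_left' h 2) hT2
  have hF3 : v n * v (y₁ * x₂ + y₂ * x₁) = (v x₁ * v x₂) * (v x₁ * v x₂) := by
    rw [← map_mul, hV.n_mul_add, map_mul, map_mul, hbx]
  have hF4 : v x₁ * v x₂ * v x₃ = v n ^ 2 := by
    rw [← map_mul, ← map_mul, hV.e₃, map_pow]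
  exact VComp.aux_ZS hV₁0 hV₂0 hF1 hA hB hF3 hF4

end Fermat.Agent.S05
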