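/-
S05 helper library: translation by the 2-torsion point `T = (0,0)` on the curve
`y² = x³ + a x² + b x` (`v a = 1`, `v 2 = 1`, `0 < v b < 1`, `β² = a`) multiplies the class
function `cls` by `v b` up to even powers of `v b`, and the points of type `Z` or `S+` form a
fundamental domain for this translation.
-/
import Fermat.Agent.S05.Leg
import Fermat.Agent.S05.ClsDef

set_option autoImplicit false
set_option linter.unusedSectionVars false

namespace Fermat.Agent.S05

open WeierstrassCurve WeierstrassCurve.Affine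

variable {K : Type*} [Field K] {Γ₀ : Type*} [LinearOrderedCommGroupWithZero Γ₀]
  (v : Valuation K Γ₀) {W : Affine K} [DecidableEq K]

namespace ClsT

omit [DecidableEq K] in
theorem v_beta (ha : v W.a₂ = 1) {β : K} (hβ : β ^ 2 = W.a₂) : v β = 1 := by
  have h : v β ^ 2 = 1 := by rw [← map_pow, hβ, ha]
  exact (pow_eq_one_iff_of_nonneg zero_le two_ne_zero).mp h

omit [DecidableEq K] in
/-- For a point with `v b < v x < 1` exactly one of `y - β x`, `y + β x` has valuation `< v x`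
(and the other one has valuation `v x`). -/
theorem side (hW : IsLeg W) (ha : v W.a₂ = 1) (h2 : v 2 = 1) {β : K} (hβ : β ^ 2 = W.a₂)
    {x y : K} (h : W.Nonsingular x y) (hx1 : v x < 1) (hbx : v W.a₄ < v x) :
    (v (y - β * x) < v x → v (y + β * x) = v x) ∧
      (¬ v (y - β * x) < v x → v (y + β * x) < v x) := by
  have hvβ := v_beta v ha hβ
  have hvx0 : v x ≠ 0 := fun h0 => by rw [h0] at hbx; exact not_lt_zero hbx
  have hxpos : 0 < v x := zero_lt_iff.mpr hvx0
  have heq : LegEq W.a₂ W.a₄ x y := ((hW.nonsingular_iff x y).mp h).1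
  have hprod : (y - β * x) * (y + β * x) = x * (x ^ 2 + W.a₄) := by
    unfold LegEq at heq
    linear_combination heq - x ^ 2 * hβ
  have hsum : v (x ^ 2 + W.a₄) < v x := by
    apply Valuation.map_add_lt
    · rw [map_pow, sq]; exact mul_lt_of_lt_one_right hxpos hx1
    · exact hbx
  have hlt : v (y - β * x) * v (y + β * x) < v x * v x := by
    rw [← map_mul, hprod, map_mul]
    exact mul_lt_mul_of_pos_left hsum hxpos
  have h2βx : v (2 * β * x) = v x := by rw [map_mul, map_mul, h2, hvβ, one_mul, one_mul]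
  constructor
  · intro hs
    have hdec : y + β * x = (y - β * x) + 2 * β * x := by ring
    rw [hdec, Valuation.map_add_eq_of_lt_right _ (by rw [h2βx]; exact hs), h2βx]
  · intro hs
    by_contra ht
    rw [not_lt] at hs ht
    exact absurd (mul_le_mul' hs ht) (not_le.mpr hlt)

omit [DecidableEq K] in
theorem transl_key {β b x y : K} (hx : x ≠ 0) :
    -(b * y) / x ^ 2 - β * (b / x) = -(b / x ^ 2) * (y + β * x) := by
  field_simp
  ring

omit [DecidableEq K] in
theorem zpow_aux {c : Γ₀} (hc : c ≠ 0) (Y : Γ₀) : Y * c * c ^ (2 * (-1 : ℤ)) = Y / c := by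
  have h1 : c ^ (2 * (-1 : ℤ)) = (c * c)⁻¹ := by
    rw [show (2 * (-1 : ℤ)) = -2 by norm_num, zpow_neg, zpow_ofNat, sq]
  rw [h1, mul_inv, mul_assoc, ← mul_assoc c, mul_inv_cancel₀ hc, one_mul, div_eq_mul_inv]

omit [DecidableEq K] in
/-- The types of `(x', y') = (b/x, -b y/x²) = (x,y) + T` in terms of the type of `(x,y)`. -/
theorem add_T_types (hW : IsLeg W) (ha : v W.a₂ = 1) (h2 : v 2 = 1) (hb : v W.a₄ < 1)
    (hb0 : W.a₄ ≠ 0) {β : K} (hβ : β ^ 2 = W.a₂) {x y : K} (h : W.Nonsingular x y)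
    (hx : x ≠ 0) :
    (1 ≤ v x → v (W.a₄ / x) ≤ v W.a₄ ∧ v (W.a₄ / x) < 1) ∧
    (v x ≤ v W.a₄ → 1 ≤ v (W.a₄ / x)) ∧
    (v W.a₄ < v x → v x < 1 → v W.a₄ < v (W.a₄ / x) ∧ v (W.a₄ / x) < 1 ∧
       (v (y - β * x) < v x →
          ¬ v (-(W.a₄ * y) / x ^ 2 - β * (W.a₄ / x)) < v (W.a₄ / x)) ∧
       (¬ v (y - β * x) < v x →
          v (-(W.a₄ * y) / x ^ 2 - β * (W.a₄ / x)) < v (W.a₄ / x))) := by
  have hvb0 : v W.a₄ ≠ 0 := v.ne_zero_iff.mpr hb0
  have hvx0 : v x ≠ 0 := v.ne_zero_iff.mpr hx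
  have hbpos : 0 < v W.a₄ := zero_lt_iff.mpr hvb0
  have hxpos : 0 < v x := zero_lt_iff.mpr hvx0
  have hvx' : v (W.a₄ / x) = v W.a₄ / v x := map_div₀ v _ _
  refine ⟨fun h1 => ?_, fun hM => ?_, fun hbx hx1 => ?_⟩
  · have hle : v (W.a₄ / x) ≤ v W.a₄ := by
      rw [hvx', div_le_iff₀ hxpos]
      exact le_mul_of_one_le_right' h1
    exact ⟨hle, lt_of_le_of_lt hle hb⟩
  · rw [hvx', one_le_div₀ hxpos]
    exact hM
  · have hkey : v (-(W.a₄ * y) / x ^ 2 - β * (W.a₄ / x))
        = v W.a₄ / v x ^ 2 * v (y + β * x) := by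
      rw [transl_key hx, map_mul, Valuation.map_neg, map_div₀, map_pow]
    have hxx : v W.a₄ / v x ^ 2 * v x = v W.a₄ / v x := by
      rw [sq, div_mul_eq_mul_div, mul_div_mul_right _ _ hvx0]
    obtain ⟨hs1, hs2⟩ := side v hW ha h2 hβ h hx1 hbx
    refine ⟨?_, ?_, fun hs => ?_, fun hs => ?_⟩
    · rw [hvx', lt_div_iff₀ hxpos]
      exact mul_lt_of_lt_one_right hbpos hx1
    · rw [hvx', div_lt_one₀ hxpos]
      exact hbx
    · rw [hkey, hs1 hs, hxx, hvx']
      exact lt_irrefl _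
    · rw [hkey, hvx', ← hxx]
      exact mul_lt_mul_of_pos_left (hs2 hs) (div_pos hbpos (pow_pos hxpos 2))

end ClsT

omit [DecidableEq K] in
theorem cls_ne_zero (hb0 : W.a₄ ≠ 0) (β : K) (P : W.Point) : cls v β P ≠ 0 := by
  have hvb0 : v W.a₄ ≠ 0 := v.ne_zero_iff.mpr hb0
  rcases P with _ | ⟨x, y, h⟩
  · exact one_ne_zero
  · simp only [cls]
    split_ifs with h1 h2 h3
    · exact one_ne_zero
    · exact hvb0
    · intro h0
      rw [h0] at h2
      exact h2 zero_le
    · have hvx0 : v x ≠ 0 := by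
        intro h0
        rw [h0] at h2
        exact h2 zero_le
      exact div_ne_zero (pow_ne_zero 2 hvb0) hvx0

theorem cls_add_T (hW : IsLeg W) (ha : v W.a₂ = 1) (h2 : v 2 = 1) (hb : v W.a₄ < 1)
    (hb0 : W.a₄ ≠ 0) {β : K} (hβ : β ^ 2 = W.a₂) (hT : W.Nonsingular 0 0) (P : W.Point) :
    ∃ k : ℤ, cls v β (P + Point.some 0 0 hT) = cls v β P * v W.a₄ * v W.a₄ ^ (2 * k) := by
  have hvb0 : v W.a₄ ≠ 0 := v.ne_zero_iff.mpr hb0
  have hclsT : cls v β (Point.some 0 0 hT) = v W.a₄ := by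
    simp only [cls, map_zero]
    rw [if_neg (not_le.mpr zero_lt_one), if_pos zero_le]
  rcases P with _ | ⟨x, y, h⟩
  · refine ⟨0, ?_⟩
    have h0 : (Point.zero : W.Point) + Point.some 0 0 hT = Point.some 0 0 hT := zero_add _
    rw [h0, hclsT]
    simp [cls]
  · by_cases hx : x = 0
    · subst hx
      have hy : y = 0 := by
        have heq : LegEq W.a₂ W.a₄ 0 y := ((hW.nonsingular_iff 0 y).mp h).1
        unfold LegEq at heq
        have : y ^ 2 = 0 := by rw [heq]; ring
        exact pow_eq_zero_iff (two_ne_zero) |>.mp this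
      subst hy
      refine ⟨-1, ?_⟩
      have e : Point.some 0 0 h + Point.some 0 0 hT = 0 := hW.T_add_T hT
      rw [e, ClsT.zpow_aux hvb0, hclsT, div_self hvb0]
      rfl
    · obtain ⟨h₃, hadd⟩ := hW.add_T h hT hx
      rw [hadd]
      obtain ⟨hZ, hM, hS⟩ := ClsT.add_T_types v hW ha h2 hb hb0 hβ h hx
      have hvx0 : v x ≠ 0 := v.ne_zero_iff.mpr hx
      have hvx' : v (W.a₄ / x) = v W.a₄ / v x := map_div₀ v _ _
      by_cases h1 : 1 ≤ v x
      · -- type Z
        refine ⟨0, ?_⟩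
        obtain ⟨hle, hlt⟩ := hZ h1
        simp only [cls]
        rw [if_pos h1, if_neg (not_le.mpr hlt), if_pos hle]
        simp
      · by_cases hM' : v x ≤ v W.a₄
        · -- type M
          refine ⟨-1, ?_⟩
          simp only [cls]
          rw [if_neg h1, if_pos hM', if_pos (hM hM'), ClsT.zpow_aux hvb0, div_self hvb0]
        · -- type S
          obtain ⟨hS1, hS2, hSp, hSm⟩ := hS (not_le.mp hM') (not_le.mp h1)
          by_cases hs : v (y - β * x) < v x
          · -- S+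
            refine ⟨0, ?_⟩
            simp only [cls]
            rw [if_neg h1, if_neg hM', if_pos hs, if_neg (not_le.mpr hS2),
              if_neg (not_le.mpr hS1), if_neg (hSp hs), hvx']
            simp only [mul_zero, zpow_zero, mul_one]
            rw [sq, div_div_eq_mul_div, mul_assoc, mul_div_assoc, mul_div_cancel_left₀ _ hvb0,
              mul_comm]
          · -- S-
            refine ⟨-1, ?_⟩
            simp only [cls]
            rw [if_neg h1, if_neg hM', if_neg hs, if_neg (not_le.mpr hS2),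
              if_neg (not_le.mpr hS1), if_pos (hSm hs), hvx', ClsT.zpow_aux hvb0]
            rw [sq, div_div, mul_div_mul_right _ _ hvb0]

theorem exists_decomp (hW : IsLeg W) (ha : v W.a₂ = 1) (h2 : v 2 = 1) (hb : v W.a₄ < 1)
    (hb0 : W.a₄ ≠ 0) {β : K} (hβ : β ^ 2 = W.a₂) (hT : W.Nonsingular 0 0) (P : W.Point) :
    ∃ P₀ : W.Point, IsZS v β P₀ ∧ (P = P₀ ∨ P = P₀ + Point.some 0 0 hT) := by
  have hTT : Point.some 0 0 hT + Point.some 0 0 hT = 0 := hW.T_add_T hT
  have hback : ∀ Q : W.Point, Q = Q + Point.some 0 0 hT + Point.some 0 0 hT := by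
    intro Q
    rw [add_assoc, hTT, add_zero]
  rcases P with _ | ⟨x, y, h⟩
  · exact ⟨Point.zero, trivial, Or.inl rfl⟩
  · by_cases hx : x = 0
    · subst hx
      have hy : y = 0 := by
        have heq : LegEq W.a₂ W.a₄ 0 y := ((hW.nonsingular_iff 0 y).mp h).1
        unfold LegEq at heq
        have : y ^ 2 = 0 := by rw [heq]; ring
        exact pow_eq_zero_iff (two_ne_zero) |>.mp this
      subst hy
      exact ⟨Point.zero, trivial, Or.inr (zero_add _).symm⟩
    · obtain ⟨h₃, hadd⟩ := hW.add_T h hT hx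
      obtain ⟨hZ, hM, hS⟩ := ClsT.add_T_types v hW ha h2 hb hb0 hβ h hx
      by_cases h1 : 1 ≤ v x
      · exact ⟨Point.some x y h, Or.inl h1, Or.inl rfl⟩
      · by_cases hM' : v x ≤ v W.a₄
        · refine ⟨Point.some x y h + Point.some 0 0 hT, ?_, Or.inr (hback _)⟩
          rw [hadd]
          exact Or.inl (hM hM')
        · obtain ⟨hS1, hS2, hSp, hSm⟩ := hS (not_le.mp hM') (not_le.mp h1)
          by_cases hs : v (y - β * x) < v x
          · exact ⟨Point.some x y h, Or.inr ⟨not_le.mp hM', not_le.mp h1, hs⟩, Or.inl rfl⟩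
          · refine ⟨Point.some x y h + Point.some 0 0 hT, ?_, Or.inr (hback _)⟩
            rw [hadd]
            exact Or.inr ⟨hS1, hS2, hSm hs⟩

end Fermat.Agent.S05
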