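/-
S05, task VSS: the Vieta-level type rule `S + S` (same side) in the multiplicative case.
-/
import Mathlib
import Fermat.Agent.S05.Leg

set_option autoImplicit false

namespace Fermat.Agent.S05

variable {K : Type*} [Field K] {Γ₀ : Type*} [LinearOrderedCommGroupWithZero Γ₀]
  (v : Valuation K Γ₀) {a b x₁ y₁ x₂ y₂ x₃ y₃ l n : K}

namespace VSS

/-- For a point with `v b < v x < 1` on `y² = x³ + a x² + b x` with `v a = 1`: `v y = v x`. -/
theorem val_y_eq (ha : v a = 1) {x y : K} (h : LegEq a b x y) (hx : v x < 1)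
    (hx' : v b < v x) : v y = v x := by
  have hx0 : 0 < v x := lt_of_le_of_lt zero_le hx'
  have h1 : v (x + a) = 1 := by
    rw [v.map_add_eq_of_lt_right (by rw [ha]; exact hx), ha]
  have e : y ^ 2 = x ^ 2 * (x + a) + b * x := by unfold LegEq at h; linear_combination h
  have h2 : v (y ^ 2) = v x ^ 2 := by
    have hlt : v (b * x) < v (x ^ 2 * (x + a)) := by
      rw [map_mul, map_mul, map_pow, h1, mul_one, sq]
      exact mul_lt_mul_of_pos_right hx' hx0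
    rw [e, v.map_add_eq_of_lt_left hlt, map_mul, map_pow, h1, mul_one]
  rw [map_pow] at h2
  exact (pow_left_inj₀ zero_le zero_le two_ne_zero).mp h2

end VSS

theorem vieta_S_add_S (ha : v a = 1) (h2 : v 2 = 1) (hb : v b < 1)
    (hV : Vieta a b x₁ y₁ x₂ y₂ x₃ y₃ l n) (h₁ : LegEq a b x₁ y₁) (h₂ : LegEq a b x₂ y₂)
    (hx₁ : v x₁ < 1) (hx₁' : v b < v x₁) (hx₂ : v x₂ < 1) (hx₂' : v b < v x₂)
    (hside : v (y₁ * x₂ - y₂ * x₁) < v (x₁ * x₂)) :
    (v b < v (x₁ * x₂) → v x₃ = v (x₁ * x₂) ∧ v (y₃ * x₁ - y₁ * x₃) < v (x₁ * x₃)) ∧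
    (v (x₁ * x₂) < v b → v x₃ * v (x₁ * x₂) = v b ^ 2 ∧ v (y₃ * x₁ + y₁ * x₃) < v (x₁ * x₃)) ∧
    (v (x₁ * x₂) = v b → v x₃ ≤ v b) := by
  have hx₁0 : 0 < v x₁ := lt_of_le_of_lt zero_le hx₁'
  have hx₂0 : 0 < v x₂ := lt_of_le_of_lt zero_le hx₂'
  have hX0 : 0 < v (x₁ * x₂) := by rw [map_mul]; exact mul_pos hx₁0 hx₂0
  have hy₁ : v y₁ = v x₁ := VSS.val_y_eq v ha h₁ hx₁ hx₁'
  -- the sum `S = y₁ x₂ + y₂ x₁` has the valuation of `x₁ x₂`
  have hS : v (y₁ * x₂ + y₂ * x₁) = v (x₁ * x₂) := by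
    have e : y₁ * x₂ + y₂ * x₁ = 2 * y₁ * x₂ - (y₁ * x₂ - y₂ * x₁) := by ring
    have h2y : v (2 * y₁ * x₂) = v (x₁ * x₂) := by
      rw [map_mul, map_mul, h2, one_mul, hy₁, map_mul]
    rw [e, v.map_sub_eq_of_lt_left (by rw [h2y]; exact hside), h2y]
  -- `v n = v (b - x₁ x₂)`
  have hn : v n = v (b - x₁ * x₂) := by
    have e := congrArg v hV.n_mul_add
    rw [map_mul, map_mul, hS, mul_comm] at e
    exact mul_left_cancel₀ hX0.ne' e
  -- `v x₃ * v (x₁ x₂) = v n ^ 2`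
  have hx₃ : v x₃ * v (x₁ * x₂) = v n ^ 2 := by
    have e := congrArg v hV.e₃
    rw [map_mul, map_pow, mul_comm] at e
    exact e
  refine ⟨fun hlt => ?_, fun hlt => ?_, fun heq => ?_⟩
  · -- case (i): `v b < v (x₁ x₂)`
    have hn' : v n = v (x₁ * x₂) := by rw [hn, v.map_sub_eq_of_lt_right hlt]
    have hx₃' : v x₃ = v (x₁ * x₂) := by
      rw [hn', sq] at hx₃
      exact mul_right_cancel₀ hX0.ne' hx₃
    refine ⟨hx₃', ?_⟩
    -- `A = 2 y₁ n + x₁ x₂ x₁` is small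
    have hA : v (2 * y₁ * n + x₁ * x₂ * x₁) < v x₁ * v (x₁ * x₂) := by
      have e : (y₁ * x₂ + y₂ * x₁) * (2 * y₁ * n + x₁ * x₂ * x₁) =
          x₁ * x₂ * (2 * y₁ * b - x₁ * (y₁ * x₂ - y₂ * x₁)) := by
        linear_combination (2 * y₁) * hV.n_mul_add
      have e' := congrArg v e
      rw [map_mul, map_mul, hS] at e'
      have hsmall : v (2 * y₁ * b - x₁ * (y₁ * x₂ - y₂ * x₁)) < v x₁ * v (x₁ * x₂) := by
        apply v.map_sub_lt
        · rw [map_mul, map_mul, h2, one_mul, hy₁]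
          exact mul_lt_mul_of_pos_left hlt hx₁0
        · rw [map_mul]
          exact mul_lt_mul_of_pos_left hside hx₁0
      rw [mul_left_cancel₀ hX0.ne' e']
      exact hsmall
    have hXx₃ : v (x₁ * x₂ * x₃) < v x₁ * v (x₁ * x₂) := by
      rw [map_mul, hx₃', mul_comm (v x₁)]
      apply mul_lt_mul_of_pos_left _ hX0
      rw [map_mul]
      calc v x₁ * v x₂ < v x₁ * 1 := mul_lt_mul_of_pos_left hx₂ hx₁0
        _ = v x₁ := mul_one _
    have e : n * (y₃ * x₁ - y₁ * x₃) =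
        x₃ * (x₁ * x₂ * x₃ - (2 * y₁ * n + x₁ * x₂ * x₁)) := by
      linear_combination (-n) * hV.rho_rel + (x₁ - x₃) * hV.e₃
    have e' := congrArg v e
    rw [map_mul, map_mul, hn'] at e'
    have hlt2 : v (x₁ * x₂ * x₃ - (2 * y₁ * n + x₁ * x₂ * x₁)) < v x₁ * v (x₁ * x₂) :=
      v.map_sub_lt hXx₃ hA
    have h3 : v (x₁ * x₂) * v (y₃ * x₁ - y₁ * x₃) < v (x₁ * x₂) * (v x₁ * v x₃) := by
      rw [e', hx₃']
      exact mul_lt_mul_of_pos_left hlt2 hX0
    rw [map_mul]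
    exact lt_of_mul_lt_mul_left h3 zero_le
  · -- case (ii): `v (x₁ x₂) < v b`
    have hb0 : 0 < v b := lt_of_le_of_lt zero_le hlt
    have hn' : v n = v b := by rw [hn, v.map_sub_eq_of_lt_left hlt]
    have hx₃' : v x₃ * v (x₁ * x₂) = v b ^ 2 := by rw [hx₃, hn']
    refine ⟨hx₃', ?_⟩
    have hx₃0 : 0 < v x₃ := by
      rcases eq_or_lt_of_le (zero_le : 0 ≤ v x₃) with h0 | h0
      · rw [← h0, zero_mul] at hx₃'
        exact absurd hx₃'.symm (pow_ne_zero 2 hb0.ne')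
      · exact h0
    have hbx₃ : v b < v x₃ := by
      by_contra hcon
      have hle : v x₃ ≤ v b := not_lt.mp hcon
      have : v x₃ * v (x₁ * x₂) < v b ^ 2 := by
        rw [sq]
        calc v x₃ * v (x₁ * x₂) ≤ v b * v (x₁ * x₂) := mul_le_mul_of_nonneg_right hle zero_le
          _ < v b * v b := mul_lt_mul_of_pos_left hlt hb0
      exact this.ne hx₃'
    have e : y₃ * x₁ + y₁ * x₃ = n * x₃ - n * x₁ := by
      linear_combination (-1 : K) * hV.rho_rel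
    rw [e, map_mul]
    apply v.map_sub_lt
    · rw [map_mul, hn']
      exact mul_lt_mul_of_pos_right hx₁' hx₃0
    · rw [map_mul, hn', mul_comm]
      exact mul_lt_mul_of_pos_left hbx₃ hx₁0
  · -- case (iii): `v (x₁ x₂) = v b`
    have hn' : v n ≤ v b := by
      rw [hn]
      refine le_trans (v.map_sub_le (le_refl _) heq.le) (le_refl _)
    have h3 : v x₃ * v (x₁ * x₂) ≤ v b * v (x₁ * x₂) := by
      rw [hx₃, sq, heq]
      exact mul_le_mul' hn' hn'
    exact le_of_mul_le_mul_right h3 hX0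

end Fermat.Agent.S05
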