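/-
S05 helper library (task ClsZS): the class function `cls` is multiplicative on the
fundamental domain `Z ∪ S+` of the multiplicative case.
-/
import Fermat.Agent.S05.Leg
import Fermat.Agent.S05.ClsDef
import Fermat.Agent.S05.VComp
import Fermat.Agent.S05.VSS

set_option autoImplicit false

namespace Fermat.Agent.S05

open WeierstrassCurve WeierstrassCurve.Affine

namespace ClsZS

variable {K : Type*} [Field K] {Γ₀ : Type*} [LinearOrderedCommGroupWithZero Γ₀]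
variable (v : Valuation K Γ₀) {W : Affine K}

theorem cls_zero (β : K) : cls v β (0 : W.Point) = 1 := rfl

theorem cls_some_Z {β x y : K} (h : W.Nonsingular x y) (hx : 1 ≤ v x) :
    cls v β (Point.some x y h) = 1 := by
  simp only [cls]
  rw [if_pos hx]

theorem cls_some_M {β x y : K} (h : W.Nonsingular x y) (hb : v W.a₄ < 1) (hx : v x ≤ v W.a₄) :
    cls v β (Point.some x y h) = v W.a₄ := by
  simp only [cls]
  rw [if_neg (not_le.mpr (lt_of_le_of_lt hx hb)), if_pos hx]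

theorem cls_some_Sp {β x y : K} (h : W.Nonsingular x y) (hx' : v W.a₄ < v x) (hx : v x < 1)
    (hs : v (y - β * x) < v x) : cls v β (Point.some x y h) = v x := by
  simp only [cls]
  rw [if_neg (not_le.mpr hx), if_neg (not_le.mpr hx'), if_pos hs]

theorem cls_some_Sm {β x y : K} (h : W.Nonsingular x y) (hx' : v W.a₄ < v x) (hx : v x < 1)
    (hs : ¬ v (y - β * x) < v x) : cls v β (Point.some x y h) = v W.a₄ ^ 2 / v x := by
  simp only [cls]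
  rw [if_neg (not_le.mpr hx), if_neg (not_le.mpr hx'), if_neg hs]

/-- `v β = 1` when `β² = a` and `v a = 1`. -/
theorem v_beta {a β : K} (ha : v a = 1) (hβ : β ^ 2 = a) : v β = 1 := by
  have h : v β ^ 2 = 1 := by rw [← map_pow, hβ, ha]
  rcases lt_trichotomy (v β) 1 with h1 | h1 | h1
  · exfalso
    have : v β ^ 2 < 1 := by
      rw [pow_two]; exact mul_lt_one' h1 h1
    exact absurd h this.ne
  · exact h1
  · exfalso
    have : 1 < v β ^ 2 := by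
      rw [pow_two]; exact one_lt_mul'' h1 h1
    exact absurd h this.ne'

theorem v_two_beta {a β : K} (ha : v a = 1) (h2 : v 2 = 1) (hβ : β ^ 2 = a) :
    v (2 * β) = 1 := by
  rw [map_mul, h2, v_beta v ha hβ, one_mul]

/-- The two sides `S+`, `S-` are disjoint. -/
theorem not_both {β x y : K} (h2β : v (2 * β) = 1)
    (hm : v (y - β * x) < v x) (hp : v (y + β * x) < v x) : False := by
  have e : 2 * β * x = (y + β * x) - (y - β * x) := by ring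
  have h : v (2 * β * x) < v x := by
    rw [e]; exact Valuation.map_sub_lt v hp hm
  rw [map_mul, h2β, one_mul] at h
  exact lt_irrefl _ h

/-- A point with `v b < v x < 1` which is not on the side `S+` is on the side `S-`. -/
theorem side_or {a b β x y : K} (hβ : β ^ 2 = a) (hL : LegEq a b x y)
    (hx' : v b < v x) (hx : v x < 1) (hm : ¬ v (y - β * x) < v x) : v (y + β * x) < v x := by
  have hx0 : 0 < v x := lt_of_le_of_lt zero_le hx'
  have e : (y - β * x) * (y + β * x) = x ^ 3 + b * x := by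
    unfold LegEq at hL
    rw [← hβ] at hL
    linear_combination hL
  have hlt : v ((y - β * x) * (y + β * x)) < v x * v x := by
    rw [e]
    apply Valuation.map_add_lt
    · rw [map_pow, pow_succ, pow_two]
      calc v x * v x * v x < v x * v x * 1 :=
            mul_lt_mul_of_pos_left hx (mul_pos hx0 hx0)
        _ = v x * v x := mul_one _
    · rw [map_mul]; exact mul_lt_mul_of_pos_right hx' hx0
  rw [map_mul] at hlt
  have hle : v x * v (y + β * x) ≤ v (y - β * x) * v (y + β * x) :=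
    mul_le_mul_left (not_lt.mp hm) _
  exact lt_of_mul_lt_mul_left (lt_of_le_of_lt hle hlt) zero_le

variable [DecidableEq K]

/-- `Z + Z ⊆ Z`. -/
theorem cls_add_ZZ (hW : IsLeg W) (ha : v W.a₂ = 1) (hb : v W.a₄ < 1) (β : K)
    {x₁ y₁ x₂ y₂ : K} (h₁ : W.Nonsingular x₁ y₁) (h₂ : W.Nonsingular x₂ y₂)
    (hx₁ : 1 ≤ v x₁) (hx₂ : 1 ≤ v x₂) :
    cls v β (Point.some x₁ y₁ h₁ + Point.some x₂ y₂ h₂) = 1 := by
  by_cases hne : x₁ = x₂ ∧ y₁ = -y₂
  · obtain ⟨rfl, rfl⟩ := hne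
    rw [add_comm, hW.add_neg_eq_zero h₂ h₁]
    rfl
  · obtain ⟨l, n, x₃, y₃, h₃, hadd, hV⟩ := hW.add_vieta h₁ h₂ hne
    rw [hadd]
    exact cls_some_Z v h₃ (vieta_Z_add_Z v ha.le hb hV ((hW.equation_iff _ _).1 h₁.1)
      ((hW.equation_iff _ _).1 h₂.1) hx₁ hx₂)

/-- `S+(e₁) + S+(e₂)` has class `e₁ e₂`. -/
theorem cls_add_SS (hW : IsLeg W) (ha : v W.a₂ = 1) (h2 : v 2 = 1) (hb : v W.a₄ < 1)
    {β : K} (hβ : β ^ 2 = W.a₂)
    {x₁ y₁ x₂ y₂ : K} (h₁ : W.Nonsingular x₁ y₁) (h₂ : W.Nonsingular x₂ y₂)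
    (hx₁' : v W.a₄ < v x₁) (hx₁ : v x₁ < 1) (hs₁ : v (y₁ - β * x₁) < v x₁)
    (hx₂' : v W.a₄ < v x₂) (hx₂ : v x₂ < 1) (hs₂ : v (y₂ - β * x₂) < v x₂) :
    cls v β (Point.some x₁ y₁ h₁ + Point.some x₂ y₂ h₂) = v x₁ * v x₂ := by
  have h2β : v (2 * β) = 1 := v_two_beta v ha h2 hβ
  have hx₁0 : 0 < v x₁ := lt_of_le_of_lt zero_le hx₁'
  have hx₂0 : 0 < v x₂ := lt_of_le_of_lt zero_le hx₂'
  have hne : ¬(x₁ = x₂ ∧ y₁ = -y₂) := by
    rintro ⟨rfl, rfl⟩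
    have hp : v (y₂ + β * x₁) < v x₁ := by
      have e : y₂ + β * x₁ = -(-y₂ - β * x₁) := by ring
      rw [e, Valuation.map_neg]; exact hs₁
    exact not_both v h2β hs₂ hp
  obtain ⟨l, n, x₃, y₃, h₃, hadd, hV⟩ := hW.add_vieta h₁ h₂ hne
  have L₁ := (hW.equation_iff _ _).1 h₁.1
  have L₂ := (hW.equation_iff _ _).1 h₂.1
  have L₃ := hV.legEq₃
  have hside : v (y₁ * x₂ - y₂ * x₁) < v (x₁ * x₂) := by
    have e : y₁ * x₂ - y₂ * x₁ = (y₁ - β * x₁) * x₂ - (y₂ - β * x₂) * x₁ := by ring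
    rw [e, map_mul]
    apply Valuation.map_sub_lt
    · rw [map_mul]; exact mul_lt_mul_of_pos_right hs₁ hx₂0
    · rw [map_mul, mul_comm (v x₁)]; exact mul_lt_mul_of_pos_right hs₂ hx₁0
  obtain ⟨hi, hii, hiii⟩ := vieta_S_add_S v ha h2 hb hV L₁ L₂ hx₁ hx₁' hx₂ hx₂' hside
  have h12 : v (x₁ * x₂) = v x₁ * v x₂ := map_mul _ _ _
  have h12lt : v x₁ * v x₂ < 1 := mul_lt_one' hx₁ hx₂
  have h12pos : 0 < v x₁ * v x₂ := mul_pos hx₁0 hx₂0
  rw [hadd]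
  rcases lt_trichotomy (v W.a₄) (v (x₁ * x₂)) with hlt | heq | hgt
  · -- case (i): the sum is of type S+
    obtain ⟨hv3, hs3⟩ := hi hlt
    have hx₃0 : 0 < v x₃ := by rw [hv3, h12]; exact h12pos
    have h3 : v (y₃ - β * x₃) < v x₃ := by
      have e : x₁ * (y₃ - β * x₃) = (y₃ * x₁ - y₁ * x₃) + (y₁ - β * x₁) * x₃ := by ring
      have h : v (x₁ * (y₃ - β * x₃)) < v x₁ * v x₃ := by
        rw [e]
        apply Valuation.map_add_lt
        · rwa [map_mul] at hs3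
        · rw [map_mul]; exact mul_lt_mul_of_pos_right hs₁ hx₃0
      rw [map_mul] at h
      exact lt_of_mul_lt_mul_left h zero_le
    rw [cls_some_Sp v h₃ (by rw [hv3]; exact hlt) (by rw [hv3, h12]; exact h12lt) h3, hv3, h12]
  · -- case (iii): the sum is of type M
    have hv3 : v x₃ ≤ v W.a₄ := hiii heq.symm
    rw [cls_some_M v h₃ hb hv3, heq, h12]
  · -- case (ii): the sum is of type S-
    obtain ⟨hv3, hs3⟩ := hii hgt
    rw [h12] at hv3 hgt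
    have hb0 : 0 < v W.a₄ := lt_of_le_of_lt zero_le hgt
    have hx₃0 : 0 < v x₃ := by
      rcases eq_or_lt_of_le (zero_le : (0 : Γ₀) ≤ v x₃) with h0 | h0
      · exfalso
        rw [← h0, zero_mul] at hv3
        exact absurd hv3.symm (pow_pos hb0 2).ne'
      · exact h0
    have hb3 : v W.a₄ < v x₃ := by
      have h : v W.a₄ * (v x₁ * v x₂) < v x₃ * (v x₁ * v x₂) := by
        rw [hv3, pow_two]; exact mul_lt_mul_of_pos_left hgt hb0
      exact lt_of_mul_lt_mul_right h zero_le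
    have h31 : v x₃ < 1 := by
      have h : v x₃ * (v x₁ * v x₂) < 1 * (v x₁ * v x₂) := by
        rw [hv3, one_mul, pow_two]
        exact mul_lt_mul'' hx₁' hx₂' zero_le zero_le
      exact lt_of_mul_lt_mul_right h zero_le
    have h3p : v (y₃ + β * x₃) < v x₃ := by
      have e : x₁ * (y₃ + β * x₃) = (y₃ * x₁ + y₁ * x₃) - (y₁ - β * x₁) * x₃ := by ring
      have h : v (x₁ * (y₃ + β * x₃)) < v x₁ * v x₃ := by
        rw [e]
        apply Valuation.map_sub_lt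
        · rwa [map_mul] at hs3
        · rw [map_mul]; exact mul_lt_mul_of_pos_right hs₁ hx₃0
      rw [map_mul] at h
      exact lt_of_mul_lt_mul_left h zero_le
    have h3 : ¬ v (y₃ - β * x₃) < v x₃ := fun hm => not_both v h2β hm h3p
    rw [cls_some_Sm v h₃ hb3 h31 h3, div_eq_iff hx₃0.ne', ← hv3, mul_comm]

/-- `Z + S+(e) ⊆ S+(e)`. -/
theorem cls_add_ZS' (hW : IsLeg W) (ha : v W.a₂ = 1) (h2 : v 2 = 1) (hb : v W.a₄ < 1)
    {β : K} (hβ : β ^ 2 = W.a₂)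
    {x₁ y₁ x₂ y₂ : K} (h₁ : W.Nonsingular x₁ y₁) (h₂ : W.Nonsingular x₂ y₂)
    (hx₁ : 1 ≤ v x₁)
    (hx₂' : v W.a₄ < v x₂) (hx₂ : v x₂ < 1) (hs₂ : v (y₂ - β * x₂) < v x₂) :
    cls v β (Point.some x₁ y₁ h₁ + Point.some x₂ y₂ h₂) = v x₂ := by
  have hne : ¬(x₁ = x₂ ∧ y₁ = -y₂) := by
    rintro ⟨rfl, -⟩
    exact absurd hx₁ (not_le.mpr hx₂)
  obtain ⟨l, n, x₃, y₃, h₃, hadd, hV⟩ := hW.add_vieta h₁ h₂ hne
  have L₁ := (hW.equation_iff _ _).1 h₁.1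
  have L₂ := (hW.equation_iff _ _).1 h₂.1
  have L₃ := hV.legEq₃
  have hv3 : v x₃ = v x₂ := vieta_Z_add_S v ha hb hV L₁ L₂ hx₁ hx₂ hx₂'
  by_cases h3 : v (y₃ - β * x₃) < v x₃
  · rw [hadd, cls_some_Sp v h₃ (by rw [hv3]; exact hx₂') (by rw [hv3]; exact hx₂) h3, hv3]
  · exfalso
    have h3p : v (y₃ + β * x₃) < v x₃ :=
      side_or v hβ L₃ (by rw [hv3]; exact hx₂') (by rw [hv3]; exact hx₂) h3
    have h3m : v (-y₃ - β * x₃) < v x₃ := by
      have e : -y₃ - β * x₃ = -(y₃ + β * x₃) := by ring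
      rw [e, Valuation.map_neg]; exact h3p
    have hneg : Point.some x₃ (-y₃) (hW.nonsingular_neg h₃) + Point.some x₂ y₂ h₂ =
        Point.some x₁ (-y₁) (hW.nonsingular_neg h₁) := by
      rw [← hW.neg_some h₃, ← hW.neg_some h₁, ← hadd]
      abel
    have hc := cls_add_SS v hW ha h2 hb hβ (hW.nonsingular_neg h₃) h₂
      (by rw [hv3]; exact hx₂') (by rw [hv3]; exact hx₂) h3m hx₂' hx₂ hs₂
    rw [hneg, cls_some_Z v _ hx₁] at hc
    have hlt : v x₃ * v x₂ < 1 := mul_lt_one' (by rw [hv3]; exact hx₂) hx₂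
    rw [← hc] at hlt
    exact lt_irrefl _ hlt

end ClsZS

variable {K : Type*} [Field K] {Γ₀ : Type*} [LinearOrderedCommGroupWithZero Γ₀]
  (v : Valuation K Γ₀) {W : Affine K} [DecidableEq K]

/-- The class function is multiplicative on the fundamental domain `Z ∪ S+`. -/
theorem cls_add_ZS (hW : IsLeg W) (ha : v W.a₂ = 1) (h2 : v 2 = 1) (hb : v W.a₄ < 1)
    (_hb0 : W.a₄ ≠ 0) {β : K} (hβ : β ^ 2 = W.a₂) {P Q : W.Point} (hP : IsZS v β P)
    (hQ : IsZS v β Q) : cls v β (P + Q) = cls v β P * cls v β Q := by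
  have h0 : (Point.zero : W.Point) = 0 := rfl
  rcases P with _ | ⟨x₁, y₁, h₁⟩
  · rw [h0, zero_add, ClsZS.cls_zero, one_mul]
  rcases Q with _ | ⟨x₂, y₂, h₂⟩
  · rw [h0, add_zero, ClsZS.cls_zero, mul_one]
  have hP' : 1 ≤ v x₁ ∨ (v W.a₄ < v x₁ ∧ v x₁ < 1 ∧ v (y₁ - β * x₁) < v x₁) := hP
  have hQ' : 1 ≤ v x₂ ∨ (v W.a₄ < v x₂ ∧ v x₂ < 1 ∧ v (y₂ - β * x₂) < v x₂) := hQ
  rcases hP' with hz₁ | ⟨hb₁, hx₁, hs₁⟩ <;> rcases hQ' with hz₂ | ⟨hb₂, hx₂, hs₂⟩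
  · rw [ClsZS.cls_add_ZZ v hW ha hb β h₁ h₂ hz₁ hz₂, ClsZS.cls_some_Z v h₁ hz₁,
      ClsZS.cls_some_Z v h₂ hz₂, one_mul]
  · rw [ClsZS.cls_add_ZS' v hW ha h2 hb hβ h₁ h₂ hz₁ hb₂ hx₂ hs₂, ClsZS.cls_some_Z v h₁ hz₁,
      ClsZS.cls_some_Sp v h₂ hb₂ hx₂ hs₂, one_mul]
  · rw [add_comm, ClsZS.cls_add_ZS' v hW ha h2 hb hβ h₂ h₁ hz₂ hb₁ hx₁ hs₁,
      ClsZS.cls_some_Z v h₂ hz₂, ClsZS.cls_some_Sp v h₁ hb₁ hx₁ hs₁, mul_one]
  · rw [ClsZS.cls_add_SS v hW ha h2 hb hβ h₁ h₂ hb₁ hx₁ hs₁ hb₂ hx₂ hs₂,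
      ClsZS.cls_some_Sp v h₁ hb₁ hx₁ hs₁, ClsZS.cls_some_Sp v h₂ hb₂ hx₂ hs₂]

end Fermat.Agent.S05
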