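/-
S05 helper library: the class function `cls` is a homomorphism modulo even powers of `v b`
(`cls_add`, `cls_nsmul`), and the consequence for torsion points (`torsion_val`).
-/
import Fermat.Agent.S05.Leg
import Fermat.Agent.S05.ClsDef
import Fermat.Agent.S05.ClsT
import Fermat.Agent.S05.ClsZS

set_option autoImplicit false

namespace Fermat.Agent.S05

open WeierstrassCurve WeierstrassCurve.Affine

section Rel

variable {Γ₀ : Type*} [LinearOrderedCommGroupWithZero Γ₀]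

/-- `x` and `y` differ by an even power of `c`. -/
def ClsRel (c x y : Γ₀) : Prop := ∃ k : ℤ, x = y * c ^ (2 * k)

namespace ClsRel

variable {c x y z x' y' : Γ₀}

theorem refl (c x : Γ₀) : ClsRel c x x := ⟨0, by simp⟩

theorem of_eq (h : x = y) : ClsRel c x y := h ▸ refl c x

theorem symm (hc : c ≠ 0) (h : ClsRel c x y) : ClsRel c y x := by
  obtain ⟨k, rfl⟩ := h
  refine ⟨-k, ?_⟩
  rw [mul_assoc, ← zpow_add₀ hc]
  simp

theorem trans (hc : c ≠ 0) (h₁ : ClsRel c x y) (h₂ : ClsRel c y z) : ClsRel c x z := by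
  obtain ⟨k, rfl⟩ := h₁
  obtain ⟨l, rfl⟩ := h₂
  refine ⟨l + k, ?_⟩
  rw [mul_assoc, ← zpow_add₀ hc, mul_add]

theorem mul (hc : c ≠ 0) (h₁ : ClsRel c x y) (h₂ : ClsRel c x' y') :
    ClsRel c (x * x') (y * y') := by
  obtain ⟨k, rfl⟩ := h₁
  obtain ⟨l, rfl⟩ := h₂
  refine ⟨k + l, ?_⟩
  rw [mul_add, zpow_add₀ hc, mul_mul_mul_comm]

theorem mul_self (c : Γ₀) : ClsRel c (c * c) 1 := by
  refine ⟨1, ?_⟩
  rw [one_mul, mul_one, zpow_ofNat, sq]

theorem pow (hc : c ≠ 0) (h : ClsRel c x y) (m : ℕ) : ClsRel c (x ^ m) (y ^ m) := by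
  induction m with
  | zero => simpa using refl c 1
  | succ m ih => rw [pow_succ, pow_succ]; exact ih.mul hc h

end ClsRel

end Rel

variable {K : Type*} [Field K] {Γ₀ : Type*} [LinearOrderedCommGroupWithZero Γ₀]
  (v : Valuation K Γ₀) {W : Affine K} [DecidableEq K]

/-- `cls` is additive up to even powers of `v b`. -/
theorem cls_add (hW : IsLeg W) (ha : v W.a₂ = 1) (h2 : v 2 = 1) (hb : v W.a₄ < 1)
    (hb0 : W.a₄ ≠ 0) {β : K} (hβ : β ^ 2 = W.a₂) (P Q : W.Point) :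
    ∃ k : ℤ, cls v β (P + Q) = cls v β P * cls v β Q * v W.a₄ ^ (2 * k) := by
  have hc : v W.a₄ ≠ 0 := (Valuation.ne_zero_iff v).mpr hb0
  have hT := hW.nonsingular_T hb0
  have hTT : Point.some 0 0 hT + Point.some 0 0 hT = 0 := hW.T_add_T hT
  have hAT : ∀ R : W.Point,
      ClsRel (v W.a₄) (cls v β (R + Point.some 0 0 hT)) (cls v β R * v W.a₄) :=
    fun R => cls_add_T v hW ha h2 hb hb0 hβ hT R
  obtain ⟨P₀, hP₀, hP⟩ := exists_decomp v hW ha h2 hb hb0 hβ hT P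
  obtain ⟨Q₀, hQ₀, hQ⟩ := exists_decomp v hW ha h2 hb hb0 hβ hT Q
  have h00 : cls v β (P₀ + Q₀) = cls v β P₀ * cls v β Q₀ :=
    cls_add_ZS v hW ha h2 hb hb0 hβ hP₀ hQ₀
  change ClsRel (v W.a₄) _ _
  rcases hP with rfl | rfl <;> rcases hQ with rfl | rfl
  · exact .of_eq h00
  · rw [← add_assoc]
    refine (hAT _).trans hc ?_
    rw [h00, mul_assoc]
    exact (ClsRel.refl _ _).mul hc ((hAT Q₀).symm hc)
  · rw [add_right_comm]
    refine (hAT _).trans hc ?_
    rw [h00, mul_right_comm]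
    exact ((hAT P₀).symm hc).mul hc (.refl _ _)
  · have hsum : P₀ + Point.some 0 0 hT + (Q₀ + Point.some 0 0 hT) = P₀ + Q₀ := by
      rw [add_add_add_comm, hTT, add_zero]
    rw [hsum, h00]
    refine ClsRel.symm hc (((hAT P₀).mul hc (hAT Q₀)).trans hc ?_)
    rw [mul_mul_mul_comm]
    have := (ClsRel.refl (v W.a₄) (cls v β P₀ * cls v β Q₀)).mul hc (ClsRel.mul_self _)
    rwa [mul_one] at this

/-- `cls (m • P) = cls P ^ m` up to even powers of `v b`. -/
theorem cls_nsmul (hW : IsLeg W) (ha : v W.a₂ = 1) (h2 : v 2 = 1) (hb : v W.a₄ < 1)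
    (hb0 : W.a₄ ≠ 0) {β : K} (hβ : β ^ 2 = W.a₂) (m : ℕ) (P : W.Point) :
    ∃ k : ℤ, cls v β (m • P) = cls v β P ^ m * v W.a₄ ^ (2 * k) := by
  have hc : v W.a₄ ≠ 0 := (Valuation.ne_zero_iff v).mpr hb0
  change ClsRel (v W.a₄) _ _
  induction m with
  | zero =>
    rw [zero_smul, pow_zero]
    exact .of_eq rfl
  | succ m ih =>
    rw [succ_nsmul, pow_succ]
    exact ClsRel.trans hc (cls_add v hW ha h2 hb hb0 hβ (m • P) P) (ih.mul hc (.refl _ _))

/-- A `p`-torsion point (`p` odd) whose `x`-coordinate has `v x < 1`, on a curve with `b = t ^ p`: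
then `v b < v x` and `v x` is a power of `v t`. -/
theorem torsion_val (hW : IsLeg W) (ha : v W.a₂ = 1) (h2 : v 2 = 1) (hb : v W.a₄ < 1)
    (hb0 : W.a₄ ≠ 0) {β : K} (hβ : β ^ 2 = W.a₂) {p : ℕ} (hp : p.Prime) (hp2 : p ≠ 2)
    {t : K} (ht : W.a₄ = t ^ p) {x y : K} (h : W.Nonsingular x y)
    (hP : p • Point.some x y h = 0) (hx : v x < 1) :
    v W.a₄ < v x ∧ ∃ m : ℤ, v x = v t ^ m := by
  have hc : v W.a₄ ≠ 0 := (Valuation.ne_zero_iff v).mpr hb0
  have hvb : v W.a₄ = v t ^ p := by rw [ht, map_pow]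
  have ht0 : v t ≠ 0 := by
    intro h0
    rw [hvb, h0, zero_pow hp.ne_zero] at hc
    exact hc rfl
  have ht1 : v t < 1 := by
    by_contra hcon
    have h1 : 1 ≤ v t ^ p := one_le_pow₀ (not_lt.mp hcon)
    rw [← hvb] at h1
    exact absurd hb (not_lt.mpr h1)
  -- injectivity of integer powers of `v t`
  have hinj : ∀ n : ℤ, v t ^ n = 1 → n = 0 := by
    intro n hn
    exact (zpow_eq_one_iff_right₀ zero_le ht1.ne).mp hn
  obtain ⟨k, hk⟩ := cls_nsmul v hW ha h2 hb hb0 hβ p (Point.some x y h)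
  rw [hP] at hk
  have hcls0 : cls v β (0 : W.Point) = 1 := rfl
  rw [hcls0, hvb] at hk
  have hk' : (cls v β (Point.some x y h) * v t ^ (2 * k)) ^ p = 1 := by
    rw [mul_pow, ← zpow_natCast (v t ^ (2 * k)) p, ← zpow_mul, mul_comm (2 * k) (p : ℤ),
      zpow_mul, zpow_natCast]
    exact hk.symm
  have hcl : cls v β (Point.some x y h) * v t ^ (2 * k) = 1 :=
    (pow_eq_one_iff.mp hk').resolve_right hp.ne_zero
  have hcl' : cls v β (Point.some x y h) = v t ^ (-(2 * k)) := by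
    rw [zpow_neg]
    exact eq_inv_of_mul_eq_one_left hcl
  have hunf : cls v β (Point.some x y h) =
      if 1 ≤ v x then 1 else if v x ≤ v W.a₄ then v W.a₄
        else if v (y - β * x) < v x then v x else v W.a₄ ^ 2 / v x := rfl
  rw [hunf, if_neg (not_le.mpr hx)] at hcl'
  by_cases hM : v x ≤ v W.a₄
  · exfalso
    rw [if_pos hM, hvb] at hcl'
    have h1 : v t ^ ((p : ℤ) + 2 * k) = 1 := by
      rw [zpow_add₀ ht0, zpow_natCast, hcl', ← zpow_add₀ ht0, neg_add_cancel, zpow_zero]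
    have h2' : (2 : ℤ) ∣ (p : ℤ) := ⟨-k, by have := hinj _ h1; omega⟩
    have h3 : 2 ∣ p := Int.natCast_dvd_natCast.mp h2'
    exact hp2 ((Nat.prime_dvd_prime_iff_eq Nat.prime_two hp).mp h3).symm
  · rw [if_neg hM] at hcl'
    refine ⟨not_le.mp hM, ?_⟩
    by_cases hS : v (y - β * x) < v x
    · rw [if_pos hS] at hcl'
      exact ⟨_, hcl'⟩
    · rw [if_neg hS] at hcl'
      have hvx0 : v x ≠ 0 := ne_of_gt (lt_of_le_of_lt zero_le (not_le.mp hM))
      rw [div_eq_iff hvx0] at hcl'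
      refine ⟨2 * (p : ℤ) + 2 * k, ?_⟩
      rw [zpow_add₀ ht0, mul_comm 2 (p : ℤ), zpow_mul, zpow_natCast, ← hvb, zpow_ofNat, hcl',
        mul_right_comm, ← zpow_add₀ ht0, neg_add_cancel, zpow_zero, one_mul]

end Fermat.Agent.S05
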