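import Mathlib

/-!
# Transfer of points along a change of variables of Weierstrass curves

If `C • W₂ = W₁` for a variable change `C = (u, r, s, t)` over a field `F`, then
`(X, Y) ↦ (u² X + r, u³ Y + u² s X + t)` is a group isomorphism `W₁(F) ≃+ W₂(F)`.
-/

namespace Fermat.Agent.S05.Transfer

open WeierstrassCurve WeierstrassCurve.Affine

variable {F : Type*} [Field F]

/-- The `X`-coordinate of the image of `(x, y)` under the variable change `C`. -/
def vcX (C : VariableChange F) (x : F) : F := (C.u : F) ^ 2 * x + C.r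

/-- The `Y`-coordinate of the image of `(x, y)` under the variable change `C`. -/
def vcY (C : VariableChange F) (x y : F) : F := (C.u : F) ^ 3 * y + (C.u : F) ^ 2 * C.s * x + C.t

section Basic

variable (W : WeierstrassCurve F) (C : VariableChange F)

lemma u_ne_zero : (C.u : F) ≠ 0 := C.u.ne_zero

lemma vcX_injective : Function.Injective (vcX C) := by
  intro x₁ x₂ h
  have hu := u_ne_zero C
  simp only [vcX] at h
  have h2 : (C.u : F) ^ 2 * (x₁ - x₂) = 0 := by linear_combination h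
  rcases mul_eq_zero.mp h2 with h3 | h3
  · exact absurd (pow_eq_zero_iff (two_ne_zero)|>.mp h3) hu
  · exact sub_eq_zero.mp h3

lemma vcY_injective (x : F) : Function.Injective (vcY C x) := by
  intro y₁ y₂ h
  have hu := u_ne_zero C
  simp only [vcY] at h
  have h2 : (C.u : F) ^ 3 * (y₁ - y₂) = 0 := by linear_combination h
  rcases mul_eq_zero.mp h2 with h3 | h3
  · exact absurd (pow_eq_zero_iff (three_ne_zero)|>.mp h3) hu
  · exact sub_eq_zero.mp h3

lemma equation_iff (x y : F) :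
    (C • W).toAffine.Equation x y ↔ W.toAffine.Equation (vcX C x) (vcY C x y) := by
  have hu := u_ne_zero C
  rw [Affine.equation_iff', Affine.equation_iff']
  simp only [variableChange_a₁, variableChange_a₂, variableChange_a₃, variableChange_a₄,
    variableChange_a₆, Units.val_inv_eq_inv_val, vcX, vcY]
  constructor
  · intro h
    have h6 : (C.u : F) ^ 6 * (y ^ 2 + (C.u : F)⁻¹ * (W.a₁ + 2 * C.s) * x * y +
        (C.u : F)⁻¹ ^ 3 * (W.a₃ + C.r * W.a₁ + 2 * C.t) * y -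
        (x ^ 3 + (C.u : F)⁻¹ ^ 2 * (W.a₂ - C.s * W.a₁ + 3 * C.r - C.s ^ 2) * x ^ 2 +
          (C.u : F)⁻¹ ^ 4 * (W.a₄ - C.s * W.a₃ + 2 * C.r * W.a₂ - (C.t + C.r * C.s) * W.a₁ +
            3 * C.r ^ 2 - 2 * C.s * C.t) * x +
          (C.u : F)⁻¹ ^ 6 * (W.a₆ + C.r * W.a₄ + C.r ^ 2 * W.a₂ + C.r ^ 3 - C.t * W.a₃ - C.t ^ 2 -
            C.r * C.t * W.a₁))) = 0 := by rw [h, mul_zero]
    rw [← h6]
    field_simp
    ring
  · intro h
    have h6 : (C.u : F) ^ 6 * (y ^ 2 + (C.u : F)⁻¹ * (W.a₁ + 2 * C.s) * x * y +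
        (C.u : F)⁻¹ ^ 3 * (W.a₃ + C.r * W.a₁ + 2 * C.t) * y -
        (x ^ 3 + (C.u : F)⁻¹ ^ 2 * (W.a₂ - C.s * W.a₁ + 3 * C.r - C.s ^ 2) * x ^ 2 +
          (C.u : F)⁻¹ ^ 4 * (W.a₄ - C.s * W.a₃ + 2 * C.r * W.a₂ - (C.t + C.r * C.s) * W.a₁ +
            3 * C.r ^ 2 - 2 * C.s * C.t) * x +
          (C.u : F)⁻¹ ^ 6 * (W.a₆ + C.r * W.a₄ + C.r ^ 2 * W.a₂ + C.r ^ 3 - C.t * W.a₃ - C.t ^ 2 -
            C.r * C.t * W.a₁))) = 0 := by
      rw [← h]
      field_simp
      ring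
    exact (mul_eq_zero.mp h6).resolve_left (pow_ne_zero 6 hu)

/-- `W_Y` transforms by the factor `u⁻³`. -/
lemma polyY_eq (x y : F) :
    2 * y + (C • W).a₁ * x + (C • W).a₃ =
      (C.u : F)⁻¹ ^ 3 * (2 * vcY C x y + W.a₁ * vcX C x + W.a₃) := by
  have hu := u_ne_zero C
  simp only [variableChange_a₁, variableChange_a₃, Units.val_inv_eq_inv_val, vcX, vcY]
  field_simp
  ring

/-- `W_X` transforms by the factor `u⁻⁴`, up to a multiple of `W_Y`. -/
lemma polyX_eq (x y : F) :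
    (C • W).a₁ * y - (3 * x ^ 2 + 2 * (C • W).a₂ * x + (C • W).a₄) =
      (C.u : F)⁻¹ ^ 4 * ((W.a₁ * vcY C x y - (3 * vcX C x ^ 2 + 2 * W.a₂ * vcX C x + W.a₄)) +
        C.s * (2 * vcY C x y + W.a₁ * vcX C x + W.a₃)) := by
  have hu := u_ne_zero C
  simp only [variableChange_a₁, variableChange_a₂, variableChange_a₄, Units.val_inv_eq_inv_val,
    vcX, vcY]
  field_simp
  ring

lemma nonsingular_iff (x y : F) :
    (C • W).toAffine.Nonsingular x y ↔ W.toAffine.Nonsingular (vcX C x) (vcY C x y) := by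
  have hu := u_ne_zero C
  have hu3 : (C.u : F)⁻¹ ^ 3 ≠ 0 := pow_ne_zero 3 (inv_ne_zero hu)
  have hu4 : (C.u : F)⁻¹ ^ 4 ≠ 0 := pow_ne_zero 4 (inv_ne_zero hu)
  rw [Affine.nonsingular_iff', Affine.nonsingular_iff', equation_iff W C, polyY_eq W C,
    polyX_eq W C]
  refine and_congr_right fun _ => ?_
  by_cases hY : 2 * vcY C x y + W.a₁ * vcX C x + W.a₃ = 0
  · rw [hY, mul_zero, add_zero, mul_zero]
    simp only [ne_eq, not_true_eq_false, or_false, mul_eq_zero, hu4, false_or]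
  · have h1 : (C.u : F)⁻¹ ^ 3 * (2 * vcY C x y + W.a₁ * vcX C x + W.a₃) ≠ 0 :=
      mul_ne_zero hu3 hY
    exact ⟨fun _ => Or.inr hY, fun _ => Or.inr h1⟩

lemma negY_eq (x y : F) :
    vcY C x ((C • W).toAffine.negY x y) = W.toAffine.negY (vcX C x) (vcY C x y) := by
  have hu := u_ne_zero C
  simp only [Affine.negY, variableChange_a₁, variableChange_a₃, Units.val_inv_eq_inv_val, vcX, vcY]
  field_simp
  ring

lemma addX_eq (x₁ x₂ ℓ : F) :
    W.toAffine.addX (vcX C x₁) (vcX C x₂) ((C.u : F) * ℓ + C.s) =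
      vcX C ((C • W).toAffine.addX x₁ x₂ ℓ) := by
  have hu := u_ne_zero C
  simp only [Affine.addX, variableChange_a₁, variableChange_a₂, Units.val_inv_eq_inv_val, vcX]
  field_simp
  ring

lemma negAddY_eq (x₁ x₂ y₁ ℓ : F) :
    W.toAffine.negAddY (vcX C x₁) (vcX C x₂) (vcY C x₁ y₁) ((C.u : F) * ℓ + C.s) =
      vcY C ((C • W).toAffine.addX x₁ x₂ ℓ) ((C • W).toAffine.negAddY x₁ x₂ y₁ ℓ) := by
  rw [Affine.negAddY, addX_eq W C, Affine.negAddY]
  simp only [vcX, vcY]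
  ring

lemma addY_eq (x₁ x₂ y₁ ℓ : F) :
    W.toAffine.addY (vcX C x₁) (vcX C x₂) (vcY C x₁ y₁) ((C.u : F) * ℓ + C.s) =
      vcY C ((C • W).toAffine.addX x₁ x₂ ℓ) ((C • W).toAffine.addY x₁ x₂ y₁ ℓ) := by
  rw [Affine.addY, Affine.addY, negY_eq W C, negAddY_eq W C, addX_eq W C]

variable [DecidableEq F]

lemma slope_eq {x₁ x₂ y₁ y₂ : F} (h₁ : (C • W).toAffine.Equation x₁ y₁)
    (h₂ : (C • W).toAffine.Equation x₂ y₂)
    (hxy : ¬(x₁ = x₂ ∧ y₁ = (C • W).toAffine.negY x₂ y₂)) :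
    W.toAffine.slope (vcX C x₁) (vcX C x₂) (vcY C x₁ y₁) (vcY C x₂ y₂) =
      (C.u : F) * (C • W).toAffine.slope x₁ x₂ y₁ y₂ + C.s := by
  have hu := u_ne_zero C
  by_cases hx : x₁ = x₂
  · have hy : y₁ ≠ (C • W).toAffine.negY x₂ y₂ := fun h => hxy ⟨hx, h⟩
    obtain rfl := hx
    obtain rfl := Affine.Y_eq_of_Y_ne h₁ h₂ rfl hy
    have hy' : vcY C x₁ y₁ ≠ W.toAffine.negY (vcX C x₁) (vcY C x₁ y₁) := by
      rw [← negY_eq W C]
      exact fun h => hy (vcY_injective C x₁ h)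
    rw [Affine.slope_of_Y_ne rfl hy, Affine.slope_of_Y_ne rfl hy']
    have hd : y₁ - (C • W).toAffine.negY x₁ y₁ ≠ 0 := sub_ne_zero.mpr hy
    have hd' : vcY C x₁ y₁ - W.toAffine.negY (vcX C x₁) (vcY C x₁ y₁) ≠ 0 := sub_ne_zero.mpr hy'
    have e1 : y₁ - (C • W).toAffine.negY x₁ y₁ =
        (C.u : F)⁻¹ ^ 3 * (vcY C x₁ y₁ - W.toAffine.negY (vcX C x₁) (vcY C x₁ y₁)) := by
      have := polyY_eq W C x₁ y₁
      simp only [Affine.negY] at this ⊢
      linear_combination this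
    have e2 : 3 * x₁ ^ 2 + 2 * (C • W).a₂ * x₁ + (C • W).a₄ - (C • W).a₁ * y₁ =
        (C.u : F)⁻¹ ^ 4 * ((3 * vcX C x₁ ^ 2 + 2 * W.a₂ * vcX C x₁ + W.a₄ - W.a₁ * vcY C x₁ y₁) -
          C.s * (vcY C x₁ y₁ - W.toAffine.negY (vcX C x₁) (vcY C x₁ y₁))) := by
      have := polyX_eq W C x₁ y₁
      simp only [Affine.negY] at this ⊢
      linear_combination -this
    rw [e1, e2]
    field_simp
    ring
  · have hx' : vcX C x₁ ≠ vcX C x₂ := fun h => hx (vcX_injective C h)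
    rw [Affine.slope_of_X_ne hx, Affine.slope_of_X_ne hx']
    have hd : x₁ - x₂ ≠ 0 := sub_ne_zero.mpr hx
    have hd' : vcX C x₁ - vcX C x₂ ≠ 0 := sub_ne_zero.mpr hx'
    have e1 : vcX C x₁ - vcX C x₂ = (C.u : F) ^ 2 * (x₁ - x₂) := by simp only [vcX]; ring
    have e2 : vcY C x₁ y₁ - vcY C x₂ y₂ =
        (C.u : F) ^ 3 * (y₁ - y₂) + (C.u : F) ^ 2 * C.s * (x₁ - x₂) := by simp only [vcY]; ring
    rw [e1, e2]
    field_simp

end Basic

section PointMap

variable {W₁ W₂ : WeierstrassCurve F} (C : VariableChange F) (h : C • W₂ = W₁)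

/-- The map on points induced by a change of variables `C` with `C • W₂ = W₁`:
`(X, Y) ↦ (u² X + r, u³ Y + u² s X + t)`. -/
def vcFun : W₁.toAffine.Point → W₂.toAffine.Point
  | .zero => .zero
  | .some x y hxy => .some (vcX C x) (vcY C x y) ((nonsingular_iff W₂ C x y).mp (h ▸ hxy))

@[simp] lemma vcFun_zero : vcFun C h (0 : W₁.toAffine.Point) = 0 := rfl

lemma vcFun_some {x y : F} (hxy : W₁.toAffine.Nonsingular x y) :
    vcFun C h (.some x y hxy) =
      .some (vcX C x) (vcY C x y) ((nonsingular_iff W₂ C x y).mp (h ▸ hxy)) := rfl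

lemma vcFun_injective : Function.Injective (vcFun C h) := by
  rintro (_ | ⟨x₁, y₁, h₁⟩) (_ | ⟨x₂, y₂, h₂⟩) hPQ
  · rfl
  · exact absurd hPQ.symm (Point.some_ne_zero _)
  · exact absurd hPQ (Point.some_ne_zero _)
  · rw [vcFun_some, vcFun_some, Point.some.injEq] at hPQ
    obtain ⟨hx, hy⟩ := hPQ
    have hx' := vcX_injective C hx
    subst hx'
    have hy' := vcY_injective C x₁ hy
    subst hy'
    rfl

lemma vcFun_surjective : Function.Surjective (vcFun C h) := by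
  subst h
  have hu := u_ne_zero C
  rintro (_ | ⟨X, Y, hXY⟩)
  · exact ⟨0, rfl⟩
  · have hX : vcX C ((C.u : F)⁻¹ ^ 2 * (X - C.r)) = X := by
      simp only [vcX]; field_simp; ring
    have hY : vcY C ((C.u : F)⁻¹ ^ 2 * (X - C.r))
        ((C.u : F)⁻¹ ^ 3 * (Y - C.s * (X - C.r) - C.t)) = Y := by
      simp only [vcY]; field_simp; ring
    have hns : (C • W₂).toAffine.Nonsingular ((C.u : F)⁻¹ ^ 2 * (X - C.r))
        ((C.u : F)⁻¹ ^ 3 * (Y - C.s * (X - C.r) - C.t)) := by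
      rw [nonsingular_iff W₂ C, hX, hY]; exact hXY
    refine ⟨.some _ _ hns, ?_⟩
    rw [vcFun_some, Point.some.injEq]
    exact ⟨hX, hY⟩

variable [DecidableEq F]

lemma vcFun_add (P Q : W₁.toAffine.Point) : vcFun C h (P + Q) = vcFun C h P + vcFun C h Q := by
  subst h
  rcases P with _ | ⟨x₁, y₁, h₁⟩
  · change vcFun C rfl (0 + Q) = 0 + vcFun C rfl Q
    rw [zero_add, zero_add]
  rcases Q with _ | ⟨x₂, y₂, h₂⟩
  · change vcFun C rfl (Point.some x₁ y₁ h₁ + 0) = vcFun C rfl (Point.some x₁ y₁ h₁) + 0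
    rw [add_zero, add_zero]
  by_cases hxy : x₁ = x₂ ∧ y₁ = (C • W₂).toAffine.negY x₂ y₂
  · rw [Point.add_of_Y_eq hxy.1 hxy.2, vcFun_some, vcFun_some,
      Point.add_of_Y_eq (congrArg (vcX C) hxy.1) (by rw [hxy.2, hxy.1, negY_eq W₂ C])]
    rfl
  · have hxy' : ¬(vcX C x₁ = vcX C x₂ ∧
        vcY C x₁ y₁ = W₂.toAffine.negY (vcX C x₂) (vcY C x₂ y₂)) := by
      rintro ⟨hx, hy⟩
      have hx' := vcX_injective C hx
      subst hx'
      rw [← negY_eq W₂ C] at hy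
      exact hxy ⟨rfl, vcY_injective C x₁ hy⟩
    rw [Point.add_some hxy, vcFun_some, vcFun_some, vcFun_some, Point.add_some hxy']
    have hs := slope_eq W₂ C h₁.1 h₂.1 hxy
    congr 1
    · rw [hs, addX_eq W₂ C]
    · rw [hs, addY_eq W₂ C]

/-- `vcFun` as an additive monoid homomorphism. -/
def vcHom : W₁.toAffine.Point →+ W₂.toAffine.Point where
  toFun := vcFun C h
  map_zero' := rfl
  map_add' := vcFun_add C h

/-- The isomorphism of groups of points induced by a change of variables `C` with `C • W₂ = W₁`: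
`(X, Y) ↦ (u² X + r, u³ Y + u² s X + t)`. -/
noncomputable def vcEquiv : W₁.toAffine.Point ≃+ W₂.toAffine.Point :=
  AddEquiv.ofBijective (vcHom C h) ⟨vcFun_injective C h, vcFun_surjective C h⟩

@[simp] lemma vcEquiv_zero : vcEquiv C h (0 : W₁.toAffine.Point) = 0 := rfl

lemma vcEquiv_some {x y : F} (hxy : W₁.toAffine.Nonsingular x y) :
    vcEquiv C h (.some x y hxy) =
      .some (vcX C x) (vcY C x y) ((nonsingular_iff W₂ C x y).mp (h ▸ hxy)) := rfl

lemma vcEquiv_apply (P : W₁.toAffine.Point) : vcEquiv C h P = vcFun C h P := rfl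

end PointMap

end Fermat.Agent.S05.Transfer
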