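/-
S05 helper library: the change of variables `(x, y) ↦ (4 x + r, 8 y + 4 x)` from a Weierstrass
curve `y² + x y = x³ + α x² + β x` to a Legendre-type curve `Y² = X³ + a X² + b X` is an
injective homomorphism of the groups of nonsingular points.
-/
import Fermat.Agent.S05.Leg

set_option autoImplicit false

namespace Fermat.Agent.S05

open WeierstrassCurve WeierstrassCurve.Affine

namespace TransferLeg

variable {K : Type*} [Field K]

/-- The hypotheses of the transfer, bundled. -/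
structure Hyp (E W : Affine K) (r : K) : Prop where
  hE₁ : E.a₁ = 1
  hE₃ : E.a₃ = 0
  hE₆ : E.a₆ = 0
  hW : IsLeg W
  h₂ : W.a₂ = 4 * E.a₂ + 1 - 3 * r
  h₄ : W.a₄ = 16 * E.a₄ - 2 * r * (4 * E.a₂ + 1) + 3 * r ^ 2
  h₆ : r ^ 3 - (4 * E.a₂ + 1) * r ^ 2 + 16 * E.a₄ * r = 0
  h2 : (2 : K) ≠ 0

variable {E W : Affine K} {r : K}

theorem Hyp.four_ne (H : Hyp E W r) : (4 : K) ≠ 0 := by
  have h : (4 : K) = 2 * 2 := by norm_num
  rw [h]; exact mul_ne_zero H.h2 H.h2

theorem Hyp.eight_ne (H : Hyp E W r) : (8 : K) ≠ 0 := by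
  have h : (8 : K) = 2 * 4 := by norm_num
  rw [h]; exact mul_ne_zero H.h2 H.four_ne

theorem Hyp.sixteen_ne (H : Hyp E W r) : (16 : K) ≠ 0 := by
  have h : (16 : K) = 4 * 4 := by norm_num
  rw [h]; exact mul_ne_zero H.four_ne H.four_ne

theorem Hyp.equation (H : Hyp E W r) {x y : K} (h : E.Equation x y) :
    W.Equation (4 * x + r) (8 * y + 4 * x) := by
  rw [H.hW.equation_iff, LegEq, H.h₂, H.h₄]
  rw [WeierstrassCurve.Affine.equation_iff, H.hE₁, H.hE₃, H.hE₆] at h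
  linear_combination 64 * h - H.h₆

theorem Hyp.nonsingular (H : Hyp E W r) {x y : K} (h : E.Nonsingular x y) :
    W.Nonsingular (4 * x + r) (8 * y + 4 * x) := by
  have heq := H.equation h.1
  rw [H.hW.nonsingular_iff]
  refine ⟨(H.hW.equation_iff _ _).1 heq, ?_⟩
  have h' := (WeierstrassCurve.Affine.nonsingular_iff' (W := E) x y).1 h
  rw [H.hE₁, H.hE₃] at h'
  by_cases hy : 2 * y + x = 0
  · left
    have h1 : (1 : K) * y - (3 * x ^ 2 + 2 * E.a₂ * x + E.a₄) ≠ 0 := by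
      rcases h'.2 with h1 | h1
      · exact h1
      · exact absurd (by linear_combination hy) h1
    intro h0
    apply h1
    have h16 := H.sixteen_ne
    apply mul_left_cancel₀ h16
    rw [H.h₂, H.h₄] at h0
    linear_combination -h0 + 8 * hy
  · right
    intro h0
    apply hy
    apply mul_left_cancel₀ H.eight_ne
    linear_combination h0

theorem Hyp.negY (H : Hyp E W r) (x y : K) :
    W.negY (4 * x + r) (8 * y + 4 * x) = 8 * E.negY x y + 4 * x := by
  rw [H.hW.negY, WeierstrassCurve.Affine.negY, H.hE₁, H.hE₃]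
  ring

section Add

variable [DecidableEq K]

omit [DecidableEq K] in
theorem Hyp.not_and (H : Hyp E W r) {x₁ x₂ y₁ y₂ : K}
    (hxy : ¬(x₁ = x₂ ∧ y₁ = E.negY x₂ y₂)) :
    ¬(4 * x₁ + r = 4 * x₂ + r ∧ 8 * y₁ + 4 * x₁ = W.negY (4 * x₂ + r) (8 * y₂ + 4 * x₂)) := by
  rintro ⟨hx, hy⟩
  have hx' : x₁ = x₂ := by
    apply mul_left_cancel₀ H.four_ne
    linear_combination hx
  apply hxy
  refine ⟨hx', ?_⟩
  rw [H.negY] at hy
  apply mul_left_cancel₀ H.eight_ne
  rw [hx'] at hy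
  linear_combination hy

theorem Hyp.slope (H : Hyp E W r) {x₁ x₂ y₁ y₂ : K} (h₁ : E.Equation x₁ y₁)
    (h₂ : E.Equation x₂ y₂) (hxy : ¬(x₁ = x₂ ∧ y₁ = E.negY x₂ y₂)) :
    W.slope (4 * x₁ + r) (4 * x₂ + r) (8 * y₁ + 4 * x₁) (8 * y₂ + 4 * x₂) =
      2 * E.slope x₁ x₂ y₁ y₂ + 1 := by
  have h4 := H.four_ne
  have h8 := H.eight_ne
  by_cases hx : x₁ = x₂
  · have hy : y₁ ≠ E.negY x₂ y₂ := fun h => hxy ⟨hx, h⟩
    have hyy : y₁ = y₂ := Y_eq_of_Y_ne h₁ h₂ hx hy
    have hy' : 8 * y₁ + 4 * x₁ ≠ W.negY (4 * x₂ + r) (8 * y₂ + 4 * x₂) :=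
      fun h => H.not_and hxy ⟨by rw [hx], h⟩
    rw [slope_of_Y_ne (by rw [hx]) hy', slope_of_Y_ne hx hy, H.hW.a₁, H.hE₁, H.negY,
      WeierstrassCurve.Affine.negY, H.hE₁, H.hE₃, H.h₂, H.h₄]
    have hd : 2 * y₁ + x₁ ≠ 0 := by
      intro h0
      apply hy
      rw [WeierstrassCurve.Affine.negY, H.hE₁, H.hE₃, ← hx, ← hyy]
      linear_combination h0
    have e1 : y₁ - (-y₁ - 1 * x₁ - 0) = 2 * y₁ + x₁ := by ring
    have e2 : 8 * y₁ + 4 * x₁ - (8 * (-y₁ - 1 * x₁ - 0) + 4 * x₁) = 8 * (2 * y₁ + x₁) := by ring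
    rw [e1, e2]
    field_simp
    ring
  · have hx' : 4 * x₁ + r ≠ 4 * x₂ + r := by
      intro h; apply hx; apply mul_left_cancel₀ h4; linear_combination h
    rw [slope_of_X_ne hx', slope_of_X_ne hx]
    have hd1 : x₁ - x₂ ≠ 0 := sub_ne_zero.mpr hx
    have hd2 : 4 * x₁ + r - (4 * x₂ + r) ≠ 0 := sub_ne_zero.mpr hx'
    rw [div_eq_iff hd2]
    field_simp
    ring

omit [DecidableEq K] in
theorem Hyp.addX (H : Hyp E W r) (x₁ x₂ l : K) :
    W.addX (4 * x₁ + r) (4 * x₂ + r) (2 * l + 1) = 4 * E.addX x₁ x₂ l + r := by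
  simp only [WeierstrassCurve.Affine.addX, H.hW.a₁, H.hE₁, H.h₂]
  ring

omit [DecidableEq K] in
theorem Hyp.addY (H : Hyp E W r) (x₁ x₂ y₁ l : K) :
    W.addY (4 * x₁ + r) (4 * x₂ + r) (8 * y₁ + 4 * x₁) (2 * l + 1) =
      8 * E.addY x₁ x₂ y₁ l + 4 * E.addX x₁ x₂ l := by
  simp only [WeierstrassCurve.Affine.addY, WeierstrassCurve.Affine.negAddY,
    WeierstrassCurve.Affine.negY, WeierstrassCurve.Affine.addX, H.hW.a₁, H.hW.a₃, H.hE₁, H.hE₃,
    H.h₂]
  ring

end Add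

/-- The map on points. -/
def toFun (H : Hyp E W r) : E.Point → W.Point
  | .zero => 0
  | .some x y h => .some (4 * x + r) (8 * y + 4 * x) (H.nonsingular h)

theorem toFun_zero (H : Hyp E W r) : toFun H 0 = 0 := rfl

theorem toFun_some (H : Hyp E W r) {x y : K} (h : E.Nonsingular x y) :
    toFun H (.some x y h) = .some (4 * x + r) (8 * y + 4 * x) (H.nonsingular h) := rfl

theorem some_congr {W : Affine K} {x y x' y' : K} (hx : x = x') (hy : y = y')
    (h : W.Nonsingular x y) (h' : W.Nonsingular x' y') :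
    Point.some x y h = Point.some x' y' h' := by
  subst hx hy; rfl

variable [DecidableEq K]

theorem toFun_add (H : Hyp E W r) (P Q : E.Point) : toFun H (P + Q) = toFun H P + toFun H Q := by
  rcases P with _ | ⟨x₁, y₁, h₁⟩
  · change toFun H (0 + Q) = 0 + toFun H Q
    rw [zero_add, zero_add]
  rcases Q with _ | ⟨x₂, y₂, h₂⟩
  · change toFun H (_ + 0) = _ + 0
    rw [add_zero, add_zero]
  by_cases hxy : x₁ = x₂ ∧ y₁ = E.negY x₂ y₂
  · rw [Point.add_of_Y_eq hxy.1 hxy.2, toFun_zero, toFun_some, toFun_some]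
    symm
    apply Point.add_of_Y_eq
    · rw [hxy.1]
    · rw [H.negY, hxy.2, hxy.1]
  · rw [Point.add_some hxy, toFun_some, toFun_some, toFun_some, Point.add_some (H.not_and hxy)]
    apply some_congr
    · rw [H.slope h₁.1 h₂.1 hxy, H.addX]
    · rw [H.slope h₁.1 h₂.1 hxy, H.addY]

/-- The transfer homomorphism. -/
def hom (H : Hyp E W r) : E.Point →+ W.Point where
  toFun := toFun H
  map_zero' := rfl
  map_add' := toFun_add H

theorem hom_some (H : Hyp E W r) {x y : K} (h : E.Nonsingular x y) :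
    hom H (.some x y h) = .some (4 * x + r) (8 * y + 4 * x) (H.nonsingular h) := rfl

theorem hom_injective (H : Hyp E W r) : Function.Injective (hom H) := by
  rw [injective_iff_map_eq_zero]
  intro P hP
  rcases P with _ | ⟨x, y, h⟩
  · rfl
  · rw [hom_some] at hP
    exact absurd hP (Point.some_ne_zero _)

end TransferLeg

/-- The change of variables `(x, y) ↦ (4 x + r, 8 y + 4 x)` from `y² + x y = x³ + α x² + β x` to a
Legendre-type curve is an injective group homomorphism on nonsingular points. -/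
theorem exists_transfer {K : Type*} [Field K] [DecidableEq K] (E W : Affine K) (r : K)
    (hE₁ : E.a₁ = 1) (hE₃ : E.a₃ = 0) (hE₆ : E.a₆ = 0) (hW : IsLeg W)
    (h₂ : W.a₂ = 4 * E.a₂ + 1 - 3 * r)
    (h₄ : W.a₄ = 16 * E.a₄ - 2 * r * (4 * E.a₂ + 1) + 3 * r ^ 2)
    (h₆ : r ^ 3 - (4 * E.a₂ + 1) * r ^ 2 + 16 * E.a₄ * r = 0) (h2 : (2 : K) ≠ 0) :
    ∃ φ : E.Point →+ W.Point, Function.Injective φ ∧
      ∀ (x y : K) (h : E.Nonsingular x y),
        ∃ h' : W.Nonsingular (4 * x + r) (8 * y + 4 * x),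
          φ (Point.some x y h) = Point.some (4 * x + r) (8 * y + 4 * x) h' := by
  have H : TransferLeg.Hyp E W r := ⟨hE₁, hE₃, hE₆, hW, h₂, h₄, h₆, h2⟩
  exact ⟨TransferLeg.hom H, TransferLeg.hom_injective H, fun x y h => ⟨H.nonsingular h, rfl⟩⟩

end Fermat.Agent.S05
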