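/-
S05 assembly helpers (helper5): transfer of the fixed-point property along the change of
variables, and valuations of integers in a valuation subring lying over a prime.
-/
import Fermat.Agent.S05.TransferLeg

set_option autoImplicit false

namespace Fermat.Agent.S05

open WeierstrassCurve WeierstrassCurve.Affine

section TransferFix

variable {K : Type*} [Field K] [Algebra ℚ K] [DecidableEq K]

/-- If `σ` fixes the `n`-torsion of the Legendre model, it fixes the `n`-torsion of the original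
curve. -/
theorem fixed_of_transfer (E₀ W₀ : Affine ℚ) (r₀ : ℚ)
    (hE₁ : E₀.a₁ = 1) (hE₃ : E₀.a₃ = 0) (hE₆ : E₀.a₆ = 0) (hW : IsLeg W₀)
    (h₂ : W₀.a₂ = 4 * E₀.a₂ + 1 - 3 * r₀)
    (h₄ : W₀.a₄ = 16 * E₀.a₄ - 2 * r₀ * (4 * E₀.a₂ + 1) + 3 * r₀ ^ 2)
    (h₆ : r₀ ^ 3 - (4 * E₀.a₂ + 1) * r₀ ^ 2 + 16 * E₀.a₄ * r₀ = 0)
    (h2 : (2 : K) ≠ 0) (σ : K ≃ₐ[ℚ] K) (n : ℕ)
    (hfix : ∀ Q : (W₀⁄K).Point, n • Q = 0 → Point.map (W' := W₀) σ.toAlgHom Q = Q)
    (Q : (E₀⁄K).Point) (hQ : n • Q = 0) : Point.map (W' := E₀) σ.toAlgHom Q = Q := by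
  have hWK : IsLeg (W₀⁄K) := by
    refine ⟨?_, ?_, ?_⟩
    · show algebraMap ℚ K W₀.a₁ = 0
      rw [hW.a₁, map_zero]
    · show algebraMap ℚ K W₀.a₃ = 0
      rw [hW.a₃, map_zero]
    · show algebraMap ℚ K W₀.a₆ = 0
      rw [hW.a₆, map_zero]
  obtain ⟨φ, hinj, hφ⟩ := exists_transfer (E₀⁄K) (W₀⁄K) (algebraMap ℚ K r₀)
    (by show algebraMap ℚ K E₀.a₁ = 1; rw [hE₁, map_one])
    (by show algebraMap ℚ K E₀.a₃ = 0; rw [hE₃, map_zero])
    (by show algebraMap ℚ K E₀.a₆ = 0; rw [hE₆, map_zero]) hWK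
    (by
      show algebraMap ℚ K W₀.a₂ = 4 * algebraMap ℚ K E₀.a₂ + 1 - 3 * algebraMap ℚ K r₀
      rw [h₂]; simp only [map_add, map_sub, map_mul, map_one, map_ofNat, map_pow])
    (by
      show algebraMap ℚ K W₀.a₄ = 16 * algebraMap ℚ K E₀.a₄
        - 2 * algebraMap ℚ K r₀ * (4 * algebraMap ℚ K E₀.a₂ + 1) + 3 * algebraMap ℚ K r₀ ^ 2
      rw [h₄]; simp only [map_add, map_sub, map_mul, map_one, map_ofNat, map_pow])
    (by
      show algebraMap ℚ K r₀ ^ 3 - (4 * algebraMap ℚ K E₀.a₂ + 1) * algebraMap ℚ K r₀ ^ 2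
        + 16 * algebraMap ℚ K E₀.a₄ * algebraMap ℚ K r₀ = 0
      have := congrArg (algebraMap ℚ K) h₆
      simpa only [map_add, map_sub, map_mul, map_one, map_ofNat, map_pow, map_zero] using this) h2
  have hcomm : ∀ R : (E₀⁄K).Point,
      φ (Point.map (W' := E₀) σ.toAlgHom R) = Point.map (W' := W₀) σ.toAlgHom (φ R) := by
    intro R
    rcases R with _ | ⟨x, y, h⟩
    · have h0 : (Point.zero : (E₀⁄K).Point) = 0 := rfl
      rw [h0, map_zero, map_zero, map_zero]
    · obtain ⟨h', hh'⟩ := hφ x y h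
      rw [hh', Point.map_some, Point.map_some]
      obtain ⟨h'', hh''⟩ := hφ (σ.toAlgHom x) (σ.toAlgHom y)
        ((baseChange_nonsingular (W := E₀) σ.toAlgHom.injective x y).mpr h)
      rw [hh'']
      simp only [Point.some.injEq]
      constructor
      · simp only [map_add, map_mul, map_ofNat, AlgHom.commutes]
      · simp only [map_add, map_mul, map_ofNat]
  apply hinj
  rw [hcomm]
  apply hfix
  rw [← map_nsmul, hQ, map_zero]

end TransferFix

section IntVal

variable {K : Type*} [Field K] (A : ValuationSubring K)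

theorem val_intCast_le_one (n : ℤ) : A.valuation (n : K) ≤ 1 := by
  rw [ValuationSubring.valuation_le_one_iff]
  exact intCast_mem A n

theorem val_intCast_lt_one {q : ℕ} (hqA : A.valuation (q : K) < 1) {n : ℤ} (hn : (q : ℤ) ∣ n) :
    A.valuation (n : K) < 1 := by
  obtain ⟨m, rfl⟩ := hn
  push_cast
  rw [map_mul]
  calc A.valuation (q : K) * A.valuation (m : K) ≤ A.valuation (q : K) * 1 := by
        gcongr
        exact val_intCast_le_one A m
    _ = A.valuation (q : K) := mul_one _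
    _ < 1 := hqA

theorem val_intCast_eq_one {q : ℕ} (hq : q.Prime) (hqA : A.valuation (q : K) < 1) {n : ℤ}
    (hn : ¬ (q : ℤ) ∣ n) : A.valuation (n : K) = 1 := by
  have hqi : Prime (q : ℤ) := Nat.prime_iff_prime_int.mp hq
  have hcop : IsCoprime (q : ℤ) n := (hqi.coprime_iff_not_dvd).mpr hn
  obtain ⟨u, w, huw⟩ := hcop
  have h1 : (u : K) * (q : K) + (w : K) * (n : K) = 1 := by exact_mod_cast congrArg (Int.cast : ℤ → K) huw
  apply le_antisymm (val_intCast_le_one A n)
  by_contra hlt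
  rw [not_le] at hlt
  have ha : A.valuation ((u : K) * (q : K)) < 1 := by
    rw [map_mul]
    calc A.valuation (u : K) * A.valuation (q : K) ≤ 1 * A.valuation (q : K) := by
          gcongr
          exact val_intCast_le_one A u
      _ = A.valuation (q : K) := one_mul _
      _ < 1 := hqA
  have hb : A.valuation ((w : K) * (n : K)) < 1 := by
    rw [map_mul]
    calc A.valuation (w : K) * A.valuation (n : K) ≤ 1 * A.valuation (n : K) := by
          gcongr
          exact val_intCast_le_one A w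
      _ = A.valuation (n : K) := one_mul _
      _ < 1 := hlt
  have := A.valuation.map_add_lt ha hb
  rw [h1, map_one] at this
  exact lt_irrefl _ this

end IntVal

end Fermat.Agent.S05
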