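import Fermat.Agent.S05.Leg

/-!
# Kernel of reduction for the curve `Y² = X³ + a₂X² + a₄X`

For a field `K` with a valuation subring `A` and a Weierstrass curve `W` over `K` with
`a₁ = a₃ = a₆ = 0` and `a₂, a₄ ∈ A`, the set `E₁ = {O} ∪ {(x, y) : x ∉ A}` is a subgroup of
`W.Point` (`kerRed`), the parameter `z = x / y` is additive on it up to `z(P) z(Q) A`
(`ker_add`), and `E₁` has no nonzero point killed by an integer that is a unit of `A`
(`eq_zero_of_nsmul_eq_zero`).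
-/

set_option autoImplicit false

namespace Fermat.Agent.S05.E1

variable {K : Type*} [Field K]

/-- `X`-coordinate identity for the chord addition on `Y² = X³ + aX² + bX`. -/
theorem idB_generic {x1 x2 y1 y2 a b : K} (hd : x1 ≠ x2)
    (e1 : y1 ^ 2 = x1 ^ 3 + a * x1 ^ 2 + b * x1) (e2 : y2 ^ 2 = x2 ^ 3 + a * x2 ^ 2 + b * x2) :
    (((y1 - y2) / (x1 - x2)) ^ 2 - a - x1 - x2) * (y1 * x2 + y2 * x1) ^ 2 =
      x1 * x2 * (x1 * x2 - b) ^ 2 := by
  have hd' : x1 - x2 ≠ 0 := sub_ne_zero.mpr hd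
  have h : ((y1 - y2) / (x1 - x2)) ^ 2 - a - x1 - x2 =
      ((y1 - y2) ^ 2 - (a + x1 + x2) * (x1 - x2) ^ 2) / (x1 - x2) ^ 2 := by
    field_simp
    ring
  rw [h, div_mul_eq_mul_div, div_eq_iff (pow_ne_zero 2 hd')]
  linear_combination (x1^2*x2^3 + x1^2*y2^2 + x1*x2^4 + (2)*x1*x2^3*a + x1*x2^2*b + (2)*x1*x2*y1*y2 + (-4)*x1*x2*y2^2 - x2^5 - x2^4*a + x2^2*y1^2 + (-2)*x2^2*y1*y2 + x2^2*y2^2) * e1 + ((-3)*x1^4*x2 + (2)*x1^3*x2^2 + (-2)*x1^3*x2*a + x1^3*b + x1^2*x2^2*a + (-3)*x1^2*x2*b + (-2)*x1^2*y1*y2 + x1^2*y2^2 + x1*x2^2*b + (2)*x1*x2*y1*y2) * e2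

/-- `Y`-coordinate identity for the chord addition on `Y² = X³ + aX² + bX`. -/
theorem idC_generic {x1 x2 y1 y2 a b : K} (hd : x1 ≠ x2)
    (e1 : y1 ^ 2 = x1 ^ 3 + a * x1 ^ 2 + b * x1) (e2 : y2 ^ 2 = x2 ^ 3 + a * x2 ^ 2 + b * x2) :
    (((y1 - y2) / (x1 - x2)) ^ 2 - a - x1 - x2) *
        (x1 * x2 * y1 * y2 + b * y1 * y2 + x1 * x2 * (a * x1 * x2 + 2 * b * (x1 + x2) + a * b)) =
      -((y1 - y2) / (x1 - x2) * ((((y1 - y2) / (x1 - x2)) ^ 2 - a - x1 - x2) - x1) + y1) *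
        (x1 * y2 + x2 * y1) * (x1 * x2 - b) := by
  have hd' : x1 - x2 ≠ 0 := sub_ne_zero.mpr hd
  have h : ((y1 - y2) / (x1 - x2)) ^ 2 - a - x1 - x2 =
      ((y1 - y2) ^ 2 - (a + x1 + x2) * (x1 - x2) ^ 2) / (x1 - x2) ^ 2 := by
    field_simp
    ring
  have h' : -((y1 - y2) / (x1 - x2) * ((((y1 - y2) / (x1 - x2)) ^ 2 - a - x1 - x2) - x1) + y1) =
      -((y1 - y2) * (((y1 - y2) ^ 2 - (a + x1 + x2) * (x1 - x2) ^ 2) - x1 * (x1 - x2) ^ 2)
        + y1 * (x1 - x2) ^ 3) / (x1 - x2) ^ 3 := by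
    field_simp
    ring
  rw [h', h, div_mul_eq_mul_div, div_mul_eq_mul_div, div_mul_eq_mul_div,
    div_eq_div_iff (pow_ne_zero 2 hd') (pow_ne_zero 3 hd')]
  have key : ((y1 - y2) ^ 2 - (a + x1 + x2) * (x1 - x2) ^ 2) *
      (x1 * x2 * y1 * y2 + b * y1 * y2 + x1 * x2 * (a * x1 * x2 + 2 * b * (x1 + x2) + a * b)) *
        (x1 - x2) =
      -((y1 - y2) * (((y1 - y2) ^ 2 - (a + x1 + x2) * (x1 - x2) ^ 2) - x1 * (x1 - x2) ^ 2)
        + y1 * (x1 - x2) ^ 3) * (x1 * y2 + x2 * y1) * (x1 * x2 - b) := by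
    linear_combination (x1^3*x2^2*a + (2)*x1^3*x2*b + (3)*x1^2*x2^4 + x1^2*x2^3*a + x1^2*x2^2*b + (2)*x1^2*x2*y1*y2 + (-5)*x1^2*x2*y2^2 + x1^2*x2*a*b + (-2)*x1*x2^5 - x1*x2^4*a + (-5)*x1*x2^3*b + x1*x2^2*y1^2 + (-4)*x1*x2^2*y1*y2 + (5)*x1*x2^2*y2^2 + (-3)*x1*x2^2*a*b - x1*x2*b^2 + x1*y2^2*b + (2)*x2^4*b + x2^3*a*b - x2*y1^2*b + (2)*x2*y1*y2*b - x2*y2^2*b) * e1 + ((-3)*x1^5*x2 + (2)*x1^4*x2^2 + (-4)*x1^4*x2*a - x1^4*b + (4)*x1^3*x2^2*a - x1^3*x2*b - x1^2*x2^3*a + (4)*x1^2*x2^2*b + (4)*x1^2*x2*y1*y2 - x1^2*x2*y2^2 + (2)*x1^2*x2*a*b + x1^2*b^2 + (-2)*x1*x2^3*b + (-2)*x1*x2^2*y1*y2 - x1*x2^2*a*b + (-2)*x1*y1*y2*b + x1*y2^2*b) * e2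
  linear_combination (x1 - x2) ^ 2 * key

/-- `X`-coordinate identity for the doubling on `Y² = X³ + aX² + bX`. -/
theorem idB_double {x y a b D : K} (hD : D ≠ 0) (hDy : D = y + y)
    (e : y ^ 2 = x ^ 3 + a * x ^ 2 + b * x) :
    (((3 * x ^ 2 + 2 * a * x + b) / D) ^ 2 - a - x - x) * (y * x + y * x) ^ 2 =
      x * x * (x * x - b) ^ 2 := by
  have h : ((3 * x ^ 2 + 2 * a * x + b) / D) ^ 2 - a - x - x =
      ((3 * x ^ 2 + 2 * a * x + b) ^ 2 - (a + 2 * x) * D ^ 2) / D ^ 2 := by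
    field_simp
    ring
  rw [h, div_mul_eq_mul_div, div_eq_iff (pow_ne_zero 2 hD)]
  subst hDy
  linear_combination ((-32)*x^3*y^2 + (-16)*x^2*y^2*a) * e

/-- `Y`-coordinate identity for the doubling on `Y² = X³ + aX² + bX`. -/
theorem idC_double {x y a b D : K} (hD : D ≠ 0) (hDy : D = y + y)
    (e : y ^ 2 = x ^ 3 + a * x ^ 2 + b * x) :
    (((3 * x ^ 2 + 2 * a * x + b) / D) ^ 2 - a - x - x) *
        (x * x * y * y + b * y * y + x * x * (a * x * x + 2 * b * (x + x) + a * b)) =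
      -((3 * x ^ 2 + 2 * a * x + b) / D *
          ((((3 * x ^ 2 + 2 * a * x + b) / D) ^ 2 - a - x - x) - x) + y) *
        (x * y + x * y) * (x * x - b) := by
  have h : ((3 * x ^ 2 + 2 * a * x + b) / D) ^ 2 - a - x - x =
      ((3 * x ^ 2 + 2 * a * x + b) ^ 2 - (a + 2 * x) * D ^ 2) / D ^ 2 := by
    field_simp
    ring
  have h' : -((3 * x ^ 2 + 2 * a * x + b) / D *
          ((((3 * x ^ 2 + 2 * a * x + b) / D) ^ 2 - a - x - x) - x) + y) =
      -((3 * x ^ 2 + 2 * a * x + b) *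
          (((3 * x ^ 2 + 2 * a * x + b) ^ 2 - (a + 2 * x) * D ^ 2) - x * D ^ 2) + y * D ^ 3) /
        D ^ 3 := by
    field_simp
    ring
  rw [h', h, div_mul_eq_mul_div, div_mul_eq_mul_div, div_mul_eq_mul_div,
    div_eq_div_iff (pow_ne_zero 2 hD) (pow_ne_zero 3 hD)]
  have key : ((3 * x ^ 2 + 2 * a * x + b) ^ 2 - (a + 2 * x) * D ^ 2) *
      (x * x * y * y + b * y * y + x * x * (a * x * x + 2 * b * (x + x) + a * b)) * D =
      -((3 * x ^ 2 + 2 * a * x + b) *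
          (((3 * x ^ 2 + 2 * a * x + b) ^ 2 - (a + 2 * x) * D ^ 2) - x * D ^ 2) + y * D ^ 3) *
        (x * y + x * y) * (x * x - b) := by
    subst hDy
    linear_combination ((-54)*x^6*y + (-72)*x^5*y*a + (-24)*x^4*y*a^2 + (-18)*x^4*y*b + (-8)*x^2*y^3*a + (8)*x^2*y*a^2*b + (6)*x^2*y*b^2 + (-32)*x*y^3*b + (8)*x*y*a*b^2 + (-8)*y^3*a*b + (2)*y*b^3) * e
  linear_combination D ^ 2 * key

section Valuation

variable (A : ValuationSubring K)

theorem val_mul_lt_one_of_mem {c t : K} (hc : c ∈ A) (ht : A.valuation t < 1) :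
    A.valuation (c * t) < 1 := by
  rw [map_mul]
  exact mul_lt_one_of_nonneg_of_lt_one_right ((A.valuation_le_one_iff c).mpr hc) zero_le ht

theorem val_mul_lt_one_of_mem' {c t : K} (ht : A.valuation t < 1) (hc : c ∈ A) :
    A.valuation (t * c) < 1 := by
  rw [mul_comm]; exact val_mul_lt_one_of_mem A hc ht

theorem mem_of_val_lt_one {t : K} (ht : A.valuation t < 1) : t ∈ A :=
  (A.valuation_le_one_iff t).mp ht.le

theorem val_one_add_small {t : K} (ht : A.valuation t < 1) : A.valuation (1 + t) = 1 :=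
  A.valuation.map_one_add_of_lt ht

/-- Basic facts about a point `(x, y)` of `Y² = X³ + aX² + bX` with non-integral `x`. -/
theorem ker_basic {x y a b : K} (ha : a ∈ A) (hb : b ∈ A)
    (e : y ^ 2 = x ^ 3 + a * x ^ 2 + b * x) (hx : x ∉ A) :
    x ≠ 0 ∧ y ≠ 0 ∧ A.valuation x⁻¹ < 1 ∧ A.valuation (x / y) < 1 ∧
      x⁻¹ = (x / y) ^ 2 * (1 + a * x⁻¹ + b * x⁻¹ ^ 2) := by
  have hx0 : x ≠ 0 := fun h => hx (h ▸ A.zero_mem)
  have hxv : 1 < A.valuation x := by
    rw [← not_le, A.valuation_le_one_iff]; exact hx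
  have hs : A.valuation x⁻¹ < 1 := by
    rw [map_inv₀]; exact inv_lt_one_of_one_lt₀ hxv
  have ht : A.valuation (a * x⁻¹ + b * x⁻¹ ^ 2) < 1 := by
    refine A.valuation.map_add_lt (val_mul_lt_one_of_mem A ha hs) ?_
    refine val_mul_lt_one_of_mem A hb ?_
    rw [map_pow]
    exact pow_lt_one₀ zero_le hs (by norm_num)
  have hg : A.valuation (1 + a * x⁻¹ + b * x⁻¹ ^ 2) = 1 := by
    rw [add_assoc]; exact val_one_add_small A ht
  have hy0 : y ≠ 0 := by
    rintro rfl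
    have h1 : x * (x ^ 2 + a * x + b) = 0 := by linear_combination -e
    have h2 : x ^ 2 + a * x + b = 0 := (mul_eq_zero.mp h1).resolve_left hx0
    have h0 : 1 + a * x⁻¹ + b * x⁻¹ ^ 2 = 0 := by
      field_simp
      linear_combination h2
    rw [h0, map_zero] at hg
    exact zero_ne_one hg
  have hid : x⁻¹ = (x / y) ^ 2 * (1 + a * x⁻¹ + b * x⁻¹ ^ 2) := by
    field_simp
    linear_combination e
  refine ⟨hx0, hy0, hs, ?_, hid⟩
  have h2 : A.valuation (x / y) ^ 2 < 1 := by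
    have := congrArg A.valuation hid
    rw [map_mul, hg, mul_one, map_pow] at this
    rw [← this]; exact hs
  by_contra h'
  exact absurd h2 (not_lt.mpr (one_le_pow₀ (not_lt.mp h')))

/-- Abstract form of the addition law near the origin, in the coordinates
`z = x / y`, `s = 1 / x`. -/
theorem abs_add {a b z1 z2 s1 s2 x3 y3 : K} (ha : a ∈ A) (hb : b ∈ A)
    (hz1 : A.valuation z1 < 1) (hz2 : A.valuation z2 < 1)
    (hs1 : A.valuation s1 < 1) (hs2 : A.valuation s2 < 1)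
    (hg1 : s1 = z1 ^ 2 * (1 + a * s1 + b * s1 ^ 2))
    (hg2 : s2 = z2 ^ 2 * (1 + a * s2 + b * s2 ^ 2))
    (hB : x3 * (z1 + z2) ^ 2 * (1 + a * s1 + b * s1 ^ 2) * (1 + a * s2 + b * s2 ^ 2) =
      (1 - b * s1 * s2) ^ 2)
    (hC : x3 * (1 + b * s1 * s2 + z1 * z2 * (a + 2 * b * (s1 + s2) + a * b * s1 * s2)) =
      y3 * (z1 + z2) * (1 - b * s1 * s2)) :
    x3 ∉ A ∧ y3 ≠ 0 ∧ ∃ c ∈ A, x3 / y3 = z1 + z2 + z1 * z2 * c := by
  have mz1 := mem_of_val_lt_one A hz1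
  have mz2 := mem_of_val_lt_one A hz2
  have ms1 := mem_of_val_lt_one A hs1
  have ms2 := mem_of_val_lt_one A hs2
  -- units
  have hg1v : A.valuation (1 + a * s1 + b * s1 ^ 2) = 1 := by
    rw [add_assoc]
    refine val_one_add_small A (A.valuation.map_add_lt (val_mul_lt_one_of_mem A ha hs1) ?_)
    rw [pow_two, ← mul_assoc]
    exact val_mul_lt_one_of_mem A (mul_mem hb ms1) hs1
  have hg2v : A.valuation (1 + a * s2 + b * s2 ^ 2) = 1 := by
    rw [add_assoc]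
    refine val_one_add_small A (A.valuation.map_add_lt (val_mul_lt_one_of_mem A ha hs2) ?_)
    rw [pow_two, ← mul_assoc]
    exact val_mul_lt_one_of_mem A (mul_mem hb ms2) hs2
  have hκ : A.valuation (1 - b * s1 * s2) = 1 :=
    A.valuation.map_one_sub_of_lt (val_mul_lt_one_of_mem A (mul_mem hb ms1) hs2)
  have hz12 : A.valuation (z1 + z2) < 1 := A.valuation.map_add_lt hz1 hz2
  have hU : A.valuation (1 + b * s1 * s2 + z1 * z2 * (a + 2 * b * (s1 + s2) + a * b * s1 * s2))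
      = 1 := by
    rw [add_assoc]
    refine val_one_add_small A (A.valuation.map_add_lt
      (val_mul_lt_one_of_mem A (mul_mem hb ms1) hs2) ?_)
    refine val_mul_lt_one_of_mem' A (val_mul_lt_one_of_mem A mz1 hz2) ?_
    have h2 : (2 : K) ∈ A := by
      have : (2 : K) = 1 + 1 := by norm_num
      rw [this]; exact add_mem (one_mem A) (one_mem A)
    exact add_mem (add_mem ha (mul_mem (mul_mem h2 hb) (add_mem ms1 ms2)))
      (mul_mem (mul_mem (mul_mem ha hb) ms1) ms2)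
  -- valuation of x3
  have hx3v : A.valuation x3 * A.valuation (z1 + z2) ^ 2 = 1 := by
    have := congrArg A.valuation hB
    simpa only [map_mul, map_pow, hg1v, hg2v, hκ, mul_one, one_pow] using this
  have hx3 : 1 < A.valuation x3 := by
    by_contra h
    have h1 : A.valuation x3 ≤ 1 := not_lt.mp h
    have h2 : A.valuation (z1 + z2) ^ 2 < 1 := pow_lt_one₀ zero_le hz12 (by norm_num)
    have h3 : A.valuation x3 * A.valuation (z1 + z2) ^ 2 < 1 :=
      mul_lt_one_of_nonneg_of_lt_one_right h1 zero_le h2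
    rw [hx3v] at h3
    exact lt_irrefl _ h3
  have hx3A : x3 ∉ A := fun h => absurd ((A.valuation_le_one_iff x3).mpr h) (not_le.mpr hx3)
  have hx30 : x3 ≠ 0 := fun h => hx3A (h ▸ A.zero_mem)
  have hU0 : (1 + b * s1 * s2 + z1 * z2 * (a + 2 * b * (s1 + s2) + a * b * s1 * s2)) ≠ 0 := by
    intro h
    rw [h, map_zero] at hU
    exact zero_ne_one hU
  have hy30 : y3 ≠ 0 := by
    rintro rfl
    rw [zero_mul, zero_mul] at hC
    exact (mul_ne_zero hx30 hU0) hC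
  refine ⟨hx3A, hy30, ?_⟩
  set U := 1 + b * s1 * s2 + z1 * z2 * (a + 2 * b * (s1 + s2) + a * b * s1 * s2) with hUdef
  set V := 2 * b * z1 * z2 * (1 + a * s1 + b * s1 ^ 2) * (1 + a * s2 + b * s2 ^ 2) + a +
    2 * b * (s1 + s2) + a * b * s1 * s2 with hVdef
  have h2 : (2 : K) ∈ A := by
    have : (2 : K) = 1 + 1 := by norm_num
    rw [this]; exact add_mem (one_mem A) (one_mem A)
  have hVA : V ∈ A := by
    have hg1A : (1 + a * s1 + b * s1 ^ 2) ∈ A := (A.valuation_le_one_iff _).mp hg1v.le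
    have hg2A : (1 + a * s2 + b * s2 ^ 2) ∈ A := (A.valuation_le_one_iff _).mp hg2v.le
    exact add_mem (add_mem (add_mem
      (mul_mem (mul_mem (mul_mem (mul_mem (mul_mem h2 hb) mz1) mz2) hg1A) hg2A) ha)
      (mul_mem (mul_mem h2 hb) (add_mem ms1 ms2)))
      (mul_mem (mul_mem (mul_mem ha hb) ms1) ms2)
  refine ⟨-(z1 + z2) * V / U, ?_, ?_⟩
  · rw [← A.valuation_le_one_iff, map_div₀, hU, div_one, map_mul, Valuation.map_neg]
    exact mul_le_one' hz12.le ((A.valuation_le_one_iff V).mpr hVA)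
  · rw [div_eq_iff hy30]
    field_simp
    rw [hVdef, hUdef]
    linear_combination hC + (-2 * b * y3 * (z1 + z2) * s2) * hg1 + (-2 * b * y3 * (z1 + z2) * z1 ^ 2 * (1 + a * s1 + b * s1 ^ 2)) * hg2

/-- Core of the kernel-of-reduction computation: if `(x3, y3)` satisfies the two addition
identities with respect to two points with non-integral `x`-coordinates, then `x3` is
non-integral and `z = x / y` is additive up to a multiple of `z1 * z2`. -/
theorem ker_add_core {x1 y1 x2 y2 x3 y3 a b : K} (ha : a ∈ A) (hb : b ∈ A)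
    (e1 : y1 ^ 2 = x1 ^ 3 + a * x1 ^ 2 + b * x1) (e2 : y2 ^ 2 = x2 ^ 3 + a * x2 ^ 2 + b * x2)
    (hx1 : x1 ∉ A) (hx2 : x2 ∉ A)
    (hB : x3 * (y1 * x2 + y2 * x1) ^ 2 = x1 * x2 * (x1 * x2 - b) ^ 2)
    (hC : x3 * (x1 * x2 * y1 * y2 + b * y1 * y2 +
        x1 * x2 * (a * x1 * x2 + 2 * b * (x1 + x2) + a * b)) =
      y3 * (x1 * y2 + x2 * y1) * (x1 * x2 - b)) :
    x3 ∉ A ∧ y3 ≠ 0 ∧ ∃ c ∈ A, x3 / y3 = x1 / y1 + x2 / y2 + x1 / y1 * (x2 / y2) * c := by
  obtain ⟨hx10, hy10, hs1, hz1, hid1⟩ := ker_basic A ha hb e1 hx1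
  obtain ⟨hx20, hy20, hs2, hz2, hid2⟩ := ker_basic A ha hb e2 hx2
  refine abs_add A ha hb hz1 hz2 hs1 hs2 hid1 hid2 ?_ ?_
  · field_simp
    linear_combination ((x1 ^ 2 + a * x1 + b) * (x2 ^ 2 + a * x2 + b)) * hB
      - ((x1 * x2 - b) ^ 2 * y2 ^ 2) * e1 - ((x1 * x2 - b) ^ 2 * x1 * (x1 ^ 2 + a * x1 + b)) * e2
  · field_simp
    linear_combination hC

end Valuation

section Points

open WeierstrassCurve WeierstrassCurve.Affine

variable {W : Affine K} (A : ValuationSubring K)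

/-- The local parameter `z = x / y` at the origin of a Weierstrass curve (with `z(O) = 0`). -/
def zCoord : W.Point → K
  | .zero => 0
  | .some x y _ => x / y

/-- The kernel of reduction `E₁ = {O} ∪ {(x, y) : x ∉ A}` with respect to a valuation
subring `A`, as a predicate on points. -/
def InKer : W.Point → Prop
  | .zero => True
  | .some x _ _ => x ∉ A

@[simp] theorem zCoord_zero : zCoord (0 : W.Point) = 0 := rfl

@[simp] theorem zCoord_some {x y : K} (h : W.Nonsingular x y) :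
    zCoord (Point.some x y h) = x / y := rfl

@[simp] theorem inKer_zero : InKer A (0 : W.Point) := trivial

@[simp] theorem inKer_some {x y : K} (h : W.Nonsingular x y) :
    InKer A (Point.some x y h) ↔ x ∉ A := Iff.rfl

theorem inKer_neg {P : W.Point} (hP : InKer A P) : InKer A (-P) := by
  match P, hP with
  | .zero, _ => exact trivial
  | .some x y h, hP => exact hP

theorem equation_of_special (h₁ : W.a₁ = 0) (h₃ : W.a₃ = 0) (h₆ : W.a₆ = 0) {x y : K}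
    (h : W.Nonsingular x y) : y ^ 2 = x ^ 3 + W.a₂ * x ^ 2 + W.a₄ * x := by
  have := (W.equation_iff x y).mp h.1
  rw [h₁, h₃, h₆] at this
  linear_combination this

theorem addX_of_special (h₁ : W.a₁ = 0) (x1 x2 ℓ : K) :
    W.addX x1 x2 ℓ = ℓ ^ 2 - W.a₂ - x1 - x2 := by
  simp only [Affine.addX, h₁]
  ring

theorem addY_of_special (h₁ : W.a₁ = 0) (h₃ : W.a₃ = 0) (x1 x2 y1 ℓ : K) :
    W.addY x1 x2 y1 ℓ = -(ℓ * ((ℓ ^ 2 - W.a₂ - x1 - x2) - x1) + y1) := by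
  simp only [Affine.addY, Affine.negY, Affine.negAddY, Affine.addX, h₁, h₃]
  ring

theorem zCoord_val_lt_one (h₁ : W.a₁ = 0) (h₃ : W.a₃ = 0) (h₆ : W.a₆ = 0)
    (h₂ : W.a₂ ∈ A) (h₄ : W.a₄ ∈ A) {P : W.Point} (hP : InKer A P) :
    A.valuation (zCoord P) < 1 := by
  match P, hP with
  | .zero, _ =>
    show A.valuation (0 : K) < 1
    rw [map_zero]; exact zero_lt_one
  | .some x y h, hP =>
    exact (ker_basic A h₂ h₄ (equation_of_special h₁ h₃ h₆ h) hP).2.2.2.1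

variable [DecidableEq K]

/-- Addition in the kernel of reduction of `Y² = X³ + a₂X² + a₄X`: closure and additivity
of the local parameter `z = x / y` up to `z(P) z(Q) A`. -/
theorem ker_add (h₁ : W.a₁ = 0) (h₃ : W.a₃ = 0) (h₆ : W.a₆ = 0)
    (h₂ : W.a₂ ∈ A) (h₄ : W.a₄ ∈ A) {P Q : W.Point} (hP : InKer A P) (hQ : InKer A Q) :
    InKer A (P + Q) ∧
      ∃ c ∈ A, zCoord (P + Q) = zCoord P + zCoord Q + zCoord P * zCoord Q * c := by
  match P, Q, hP, hQ with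
  | .zero, Q, _, hQ =>
    show InKer A (0 + Q) ∧ ∃ c ∈ A, zCoord (0 + Q) = zCoord (0 : W.Point) + zCoord Q +
      zCoord (0 : W.Point) * zCoord Q * c
    rw [zero_add]
    exact ⟨hQ, 0, A.zero_mem, by simp⟩
  | .some x1 y1 hn1, .zero, hP, _ =>
    show InKer A (Point.some x1 y1 hn1 + 0) ∧ ∃ c ∈ A, zCoord (Point.some x1 y1 hn1 + 0) =
      zCoord (Point.some x1 y1 hn1) + zCoord (0 : W.Point) +
        zCoord (Point.some x1 y1 hn1) * zCoord (0 : W.Point) * c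
    rw [add_zero]
    exact ⟨hP, 0, A.zero_mem, by simp⟩
  | .some x1 y1 hn1, .some x2 y2 hn2, hP, hQ =>
    have e1 := equation_of_special h₁ h₃ h₆ hn1
    have e2 := equation_of_special h₁ h₃ h₆ hn2
    have hP' : x1 ∉ A := hP
    have hQ' : x2 ∉ A := hQ
    by_cases hx : x1 = x2
    · by_cases hy : y1 = W.negY x2 y2
      · rw [Point.add_of_Y_eq hx hy]
        refine ⟨trivial, 0, A.zero_mem, ?_⟩
        have hy' : y1 = -y2 := by
          rw [hy]; simp only [Affine.negY, h₁, h₃]; ring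
        show (0 : K) = x1 / y1 + x2 / y2 + x1 / y1 * (x2 / y2) * 0
        rw [hx, hy', div_neg]
        ring
      · have hyy : y1 = y2 := Affine.Y_eq_of_Y_ne hn1.1 hn2.1 hx hy
        subst hx
        subst hyy
        have hD : y1 - W.negY x1 y1 ≠ 0 := sub_ne_zero.mpr hy
        have hDy : y1 - W.negY x1 y1 = y1 + y1 := by
          simp only [Affine.negY, h₁, h₃]; ring
        rw [Point.add_of_Y_ne hy]
        show W.addX x1 x1 (W.slope x1 x1 y1 y1) ∉ A ∧ ∃ c ∈ A,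
          W.addX x1 x1 (W.slope x1 x1 y1 y1) / W.addY x1 x1 y1 (W.slope x1 x1 y1 y1) =
            x1 / y1 + x1 / y1 + x1 / y1 * (x1 / y1) * c
        rw [Affine.slope_of_Y_ne rfl hy, addX_of_special h₁, addY_of_special h₁ h₃, h₁, zero_mul,
          sub_zero]
        obtain ⟨k1, -, k3⟩ := ker_add_core A h₂ h₄ e1 e1 hP' hP'
          (idB_double hD hDy e1) (idC_double hD hDy e1)
        exact ⟨k1, k3⟩
    · rw [Point.add_of_X_ne hx]
      show W.addX x1 x2 (W.slope x1 x2 y1 y2) ∉ A ∧ ∃ c ∈ A,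
        W.addX x1 x2 (W.slope x1 x2 y1 y2) / W.addY x1 x2 y1 (W.slope x1 x2 y1 y2) =
          x1 / y1 + x2 / y2 + x1 / y1 * (x2 / y2) * c
      rw [Affine.slope_of_X_ne hx, addX_of_special h₁, addY_of_special h₁ h₃]
      obtain ⟨k1, -, k3⟩ := ker_add_core A h₂ h₄ e1 e2 hP' hQ'
        (idB_generic hx e1 e2) (idC_generic hx e1 e2)
      exact ⟨k1, k3⟩

theorem inKer_add (h₁ : W.a₁ = 0) (h₃ : W.a₃ = 0) (h₆ : W.a₆ = 0)
    (h₂ : W.a₂ ∈ A) (h₄ : W.a₄ ∈ A) {P Q : W.Point} (hP : InKer A P) (hQ : InKer A Q) :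
    InKer A (P + Q) :=
  (ker_add A h₁ h₃ h₆ h₂ h₄ hP hQ).1

/-- The kernel of reduction as a subgroup of the group of points. -/
def kerRed (h₁ : W.a₁ = 0) (h₃ : W.a₃ = 0) (h₆ : W.a₆ = 0)
    (h₂ : W.a₂ ∈ A) (h₄ : W.a₄ ∈ A) : AddSubgroup W.Point where
  carrier := {P | InKer A P}
  zero_mem' := trivial
  add_mem' := fun hP hQ => inKer_add A h₁ h₃ h₆ h₂ h₄ hP hQ
  neg_mem' := fun hP => inKer_neg A hP

@[simp] theorem mem_kerRed (h₁ : W.a₁ = 0) (h₃ : W.a₃ = 0) (h₆ : W.a₆ = 0)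
    (h₂ : W.a₂ ∈ A) (h₄ : W.a₄ ∈ A) {P : W.Point} :
    P ∈ kerRed A h₁ h₃ h₆ h₂ h₄ ↔ InKer A P := Iff.rfl

/-- Multiples in the kernel of reduction: `z(nP) ≡ n z(P)` modulo `z(P)² A`. -/
theorem ker_nsmul (h₁ : W.a₁ = 0) (h₃ : W.a₃ = 0) (h₆ : W.a₆ = 0)
    (h₂ : W.a₂ ∈ A) (h₄ : W.a₄ ∈ A) {P : W.Point} (hP : InKer A P) (n : ℕ) :
    InKer A (n • P) ∧ ∃ c ∈ A, zCoord (n • P) = n * zCoord P + zCoord P ^ 2 * c := by
  induction n with
  | zero =>
    rw [zero_smul]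
    exact ⟨trivial, 0, A.zero_mem, by simp⟩
  | succ n ih =>
    obtain ⟨ih1, c, hc, ih2⟩ := ih
    rw [succ_nsmul]
    obtain ⟨k1, c', hc', k2⟩ := ker_add A h₁ h₃ h₆ h₂ h₄ ih1 hP
    have hz : zCoord P ∈ A := mem_of_val_lt_one A (zCoord_val_lt_one A h₁ h₃ h₆ h₂ h₄ hP)
    refine ⟨k1, c + (n + zCoord P * c) * c', ?_, ?_⟩
    · exact add_mem hc (mul_mem (add_mem (natCast_mem A n) (mul_mem hz hc)) hc')
    · rw [k2, ih2]
      push_cast
      ring

/-- The kernel of reduction of `Y² = X³ + a₂X² + a₄X` (with `a₂, a₄` integral) has no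
nonzero point killed by an integer which is a unit of the valuation ring. -/
theorem eq_zero_of_nsmul_eq_zero (h₁ : W.a₁ = 0) (h₃ : W.a₃ = 0) (h₆ : W.a₆ = 0)
    (h₂ : W.a₂ ∈ A) (h₄ : W.a₄ ∈ A) {P : W.Point} (hP : InKer A P) {n : ℕ}
    (hn : A.valuation (n : K) = 1) (h : n • P = 0) : P = 0 := by
  obtain ⟨-, c, hc, hz⟩ := ker_nsmul A h₁ h₃ h₆ h₂ h₄ hP n
  rw [h, zCoord_zero] at hz
  match P, hP with
  | .zero, _ => rfl
  | .some x y hxy, hP =>
    exfalso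
    obtain ⟨hx0, hy0, -, hzv, -⟩ := ker_basic A h₂ h₄ (equation_of_special h₁ h₃ h₆ hxy) hP
    have hz0 : x / y ≠ 0 := div_ne_zero hx0 hy0
    have hz' : (0 : K) = (n : K) * (x / y) + (x / y) ^ 2 * c := hz
    have hn' : (n : K) = -((x / y) * c) := by
      have h1 : (x / y) * ((n : K) + (x / y) * c) = 0 := by linear_combination -hz'
      have h2 := (mul_eq_zero.mp h1).resolve_left hz0
      linear_combination h2
    have : A.valuation (n : K) < 1 := by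
      rw [hn', Valuation.map_neg]
      exact val_mul_lt_one_of_mem' A hzv hc
    rw [hn] at this
    exact lt_irrefl _ this

/-- Variant of `eq_zero_of_nsmul_eq_zero` for `Submodule.torsionBy`. -/
theorem eq_zero_of_mem_torsionBy (h₁ : W.a₁ = 0) (h₃ : W.a₃ = 0) (h₆ : W.a₆ = 0)
    (h₂ : W.a₂ ∈ A) (h₄ : W.a₄ ∈ A) {P : W.Point} (hP : InKer A P) {n : ℕ}
    (hn : A.valuation (n : K) = 1) (h : P ∈ Submodule.torsionBy ℤ W.Point (n : ℤ)) : P = 0 := by
  rw [Submodule.mem_torsionBy_iff] at h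
  rw [natCast_zsmul] at h
  exact eq_zero_of_nsmul_eq_zero A h₁ h₃ h₆ h₂ h₄ hP hn h

end Points

end Fermat.Agent.S05.E1


namespace Fermat.Agent.S05

open WeierstrassCurve WeierstrassCurve.Affine

variable {K : Type*} [Field K] {Γ₀ : Type*} [LinearOrderedCommGroupWithZero Γ₀]
  (v : Valuation K Γ₀) {W : Affine K} [DecidableEq K]

namespace E1

omit [DecidableEq K] in
/-- Translation between the valuation-subring form and the valuation form of the kernel of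
reduction. -/
theorem inKer_iff_inE1 {P : W.Point} : InKer v.valuationSubring P ↔ InE1 v P := by
  match P with
  | .zero => exact Iff.rfl
  | .some x y h =>
    show x ∉ v.valuationSubring ↔ 1 < v x
    rw [Valuation.mem_valuationSubring_iff, not_le]

omit [DecidableEq K] in
theorem valuationSubring_valuation_eq_one {x : K} (hx : v x = 1) :
    v.valuationSubring.valuation x = 1 :=
  (Valuation.isEquiv_valuation_valuationSubring v).eq_one_iff_eq_one.mp hx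

end E1

/-- The kernel of reduction is stable under negation. -/
theorem inE1_neg {P : W.Point} (hP : InE1 v P) : InE1 v (-P) := by
  match P, hP with
  | .zero, _ => exact trivial
  | .some x y h, hP => exact hP

/-- The kernel of reduction of `y² = x³ + a x² + b x` (`a`, `b` integral) is stable under
addition. -/
theorem inE1_add (hW : IsLeg W) (ha : v W.a₂ ≤ 1) (hb : v W.a₄ ≤ 1) {P Q : W.Point}
    (hP : InE1 v P) (hQ : InE1 v Q) : InE1 v (P + Q) :=
  E1.inKer_iff_inE1 v |>.mp <|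
    E1.inKer_add v.valuationSubring hW.a₁ hW.a₃ hW.a₆
      ((Valuation.mem_valuationSubring_iff v _).mpr ha)
      ((Valuation.mem_valuationSubring_iff v _).mpr hb)
      ((E1.inKer_iff_inE1 v).mpr hP) ((E1.inKer_iff_inE1 v).mpr hQ)

/-- The kernel of reduction of `y² = x³ + a x² + b x` (`a`, `b` integral) has no nonzero point
killed by an integer `m` with `v m = 1`. -/
theorem E1_torsion_free (hW : IsLeg W) (ha : v W.a₂ ≤ 1) (hb : v W.a₄ ≤ 1) {m : ℕ}
    (hm : v (m : K) = 1) {P : W.Point} (hP : InE1 v P) (hmP : m • P = 0) : P = 0 :=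
  E1.eq_zero_of_nsmul_eq_zero v.valuationSubring hW.a₁ hW.a₃ hW.a₆
    ((Valuation.mem_valuationSubring_iff v _).mpr ha)
    ((Valuation.mem_valuationSubring_iff v _).mpr hb)
    ((E1.inKer_iff_inE1 v).mpr hP) (E1.valuationSubring_valuation_eq_one v hm) hmP

namespace E1

/-- First-order additivity of `z = x / y` on the kernel of reduction, valuation form. -/
theorem zCoord_add (hW : IsLeg W) (ha : v W.a₂ ≤ 1) (hb : v W.a₄ ≤ 1) {P Q : W.Point}
    (hP : InE1 v P) (hQ : InE1 v Q) :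
    ∃ c : K, v c ≤ 1 ∧ zCoord (P + Q) = zCoord P + zCoord Q + zCoord P * zCoord Q * c := by
  obtain ⟨-, c, hc, h⟩ := ker_add v.valuationSubring hW.a₁ hW.a₃ hW.a₆
    ((Valuation.mem_valuationSubring_iff v _).mpr ha)
    ((Valuation.mem_valuationSubring_iff v _).mpr hb)
    ((inKer_iff_inE1 v).mpr hP) ((inKer_iff_inE1 v).mpr hQ)
  exact ⟨c, (Valuation.mem_valuationSubring_iff v _).mp hc, h⟩

/-- The kernel of reduction as a subgroup. -/
def E1sub (hW : IsLeg W) (ha : v W.a₂ ≤ 1) (hb : v W.a₄ ≤ 1) : AddSubgroup W.Point where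
  carrier := {P | InE1 v P}
  zero_mem' := trivial
  add_mem' := fun hP hQ => inE1_add v hW ha hb hP hQ
  neg_mem' := fun hP => inE1_neg v hP

theorem mem_E1sub (hW : IsLeg W) (ha : v W.a₂ ≤ 1) (hb : v W.a₄ ≤ 1) {P : W.Point} :
    P ∈ E1sub v hW ha hb ↔ InE1 v P := Iff.rfl

end E1

end Fermat.Agent.S05
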