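/-
S05 helper library (task SameRed): two integral points with the same nonsingular reduction
differ by a point in the kernel of reduction.
-/
import Fermat.Agent.S05.Leg

set_option autoImplicit false
set_option linter.unusedVariables false

namespace Fermat.Agent.S05

open WeierstrassCurve WeierstrassCurve.Affine

variable {K : Type*} [Field K] {Γ₀ : Type*} [LinearOrderedCommGroupWithZero Γ₀]
  (v : Valuation K Γ₀)

namespace SameRed

/-- `v 2 ≤ 1` for every valuation. -/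
theorem val_two_le : v (2 : K) ≤ 1 := by
  have h : (2 : K) = 1 + 1 := by norm_num
  rw [h]
  exact v.map_add_le (le_of_eq v.map_one) (le_of_eq v.map_one)

/-- In a linearly ordered group with zero, `g * h = 1` and `h < 1` force `1 < g`. -/
theorem one_lt_of_mul_eq_one {g h : Γ₀} (hgh : g * h = 1) (hh : h < 1) : 1 < g := by
  by_contra hg
  have hg' : g ≤ 1 := not_lt.mp hg
  have h1 : g * h ≤ 1 * h := mul_le_mul' hg' le_rfl
  rw [one_mul, hgh] at h1
  exact absurd hh (not_lt.mpr h1)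

end SameRed

/-- Vieta-level statement: if `(x₁,y₁)` is integral with nonsingular reduction and `(x₂,y₂)`
reduces to its negative, then the sum `(x₃,y₃)` lies in the kernel of reduction. -/
theorem vieta_same_red {a b x₁ y₁ x₂ y₂ x₃ y₃ l n : K} (ha : v a ≤ 1) (hb : v b ≤ 1)
    (hV : Vieta a b x₁ y₁ x₂ y₂ x₃ y₃ l n) (h₁ : LegEq a b x₁ y₁) (h₂ : LegEq a b x₂ y₂)
    (hx₁ : v x₁ ≤ 1) (hy₁ : v y₁ ≤ 1) (hx : v (x₁ - x₂) < 1) (hy : v (y₁ + y₂) < 1)
    (hns : v (2 * y₁) = 1 ∨ v (3 * x₁ ^ 2 + 2 * a * x₁ + b) = 1) : 1 < v x₃ := by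
  have h2 : v (2 : K) ≤ 1 := SameRed.val_two_le v
  have hx₂ : v x₂ ≤ 1 := by
    have h : x₂ = x₁ - (x₁ - x₂) := by ring
    rw [h]
    exact v.map_sub_le hx₁ hx.le
  have hl : 1 < v l := by
    rcases hns with hns | hns
    · have e : l * (x₁ - x₂) = 2 * y₁ - (y₁ + y₂) := by
        rw [hV.l_mul_sub]; ring
      have hv : v (2 * y₁ - (y₁ + y₂)) = 1 := by
        rw [← hns]
        exact v.map_sub_eq_of_lt_left (by rw [hns]; exact hy)
      rw [← e, map_mul] at hv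
      exact SameRed.one_lt_of_mul_eq_one hv hx
    · have e : l * (y₁ + y₂) =
          (3 * x₁ ^ 2 + 2 * a * x₁ + b) - (x₁ - x₂) * (x₂ + 2 * x₁ + a) := by
        rw [hV.l_mul_add]; ring
      have hsmall : v ((x₁ - x₂) * (x₂ + 2 * x₁ + a)) < 1 := by
        rw [map_mul]
        have h3 : v (x₂ + 2 * x₁ + a) ≤ 1 := by
          refine v.map_add_le (v.map_add_le hx₂ ?_) ha
          rw [map_mul]
          exact mul_le_one' h2 hx₁
        calc v (x₁ - x₂) * v (x₂ + 2 * x₁ + a) ≤ v (x₁ - x₂) * 1 := mul_le_mul' le_rfl h3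
          _ = v (x₁ - x₂) := mul_one _
          _ < 1 := hx
      have hv : v ((3 * x₁ ^ 2 + 2 * a * x₁ + b) - (x₁ - x₂) * (x₂ + 2 * x₁ + a)) = 1 := by
        rw [← hns]
        exact v.map_sub_eq_of_lt_left (by rw [hns]; exact hsmall)
      rw [← e, map_mul] at hv
      exact SameRed.one_lt_of_mul_eq_one hv hy
  have hl2 : 1 < v (l ^ 2) := by
    rw [map_pow]
    exact one_lt_pow' hl (by norm_num)
  have e : x₃ = l ^ 2 - (a + x₁ + x₂) := by linear_combination hV.e₁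
  rw [e]
  have hsm : v (a + x₁ + x₂) ≤ 1 := v.map_add_le (v.map_add_le ha hx₁) hx₂
  rw [v.map_sub_eq_of_lt_left (lt_of_le_of_lt hsm hl2)]
  exact hl2

/-- Point-level statement: two integral points with the same nonsingular reduction differ by a
point in the kernel of reduction. -/
theorem sub_inE1_of_same_red {W : Affine K} [DecidableEq K] (hW : IsLeg W) (ha : v W.a₂ ≤ 1)
    (hb : v W.a₄ ≤ 1) {x₁ y₁ x₂ y₂ : K} (h₁ : W.Nonsingular x₁ y₁) (h₂ : W.Nonsingular x₂ y₂)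
    (hx₁ : v x₁ ≤ 1) (hy₁ : v y₁ ≤ 1) (hx : v (x₁ - x₂) < 1) (hy : v (y₁ - y₂) < 1)
    (hns : v (2 * y₁) = 1 ∨ v (3 * x₁ ^ 2 + 2 * W.a₂ * x₁ + W.a₄) = 1) :
    InE1 v (Point.some x₁ y₁ h₁ - Point.some x₂ y₂ h₂) := by
  rw [sub_eq_add_neg, hW.neg_some h₂]
  by_cases hne : x₁ = x₂ ∧ y₁ = -(-y₂)
  · obtain ⟨rfl, hyy⟩ := hne
    rw [neg_neg] at hyy
    subst hyy
    rw [hW.add_neg_eq_zero]
    trivial
  · obtain ⟨l, n, x₃, y₃, h₃, hadd, hV⟩ := hW.add_vieta h₁ (hW.nonsingular_neg h₂) hne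
    rw [hadd]
    show 1 < v x₃
    have e₁ := (hW.nonsingular_iff x₁ y₁).mp h₁
    have e₂ := (hW.nonsingular_iff x₂ (-y₂)).mp (hW.nonsingular_neg h₂)
    exact vieta_same_red v ha hb hV e₁.1 e₂.1 hx₁ hy₁ hx (by rwa [← sub_eq_add_neg]) hns

end Fermat.Agent.S05
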