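/-
S05 helper library, task "LocalGood": the local theorem in the case of good reduction.
An automorphism `σ` acting trivially on the residue field fixes every `p`-torsion point of a
Legendre-type curve with good reduction, when `p` is a unit.
-/
import Mathlib
import Fermat.Agent.S05.Leg
import Fermat.Agent.S05.E1
import Fermat.Agent.S05.SameRed

set_option autoImplicit false

namespace Fermat.Agent.S05

open WeierstrassCurve WeierstrassCurve.Affine

namespace LocalGood

section Val

variable {K : Type*} [Field K] {Γ₀ : Type*} [LinearOrderedCommGroupWithZero Γ₀]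
  (v : Valuation K Γ₀)

theorem mul_lt_one_of_lt_of_le {s t : Γ₀} (hs : s < 1) (ht : t ≤ 1) : s * t < 1 :=
  lt_of_le_of_lt (mul_le_mul' le_rfl ht) (by rwa [mul_one])

theorem v_mul_lt_one {x y : K} (hx : v x < 1) (hy : v y ≤ 1) : v (x * y) < 1 := by
  rw [map_mul]; exact mul_lt_one_of_lt_of_le hx hy

theorem v_mul_le_one {x y : K} (hx : v x ≤ 1) (hy : v y ≤ 1) : v (x * y) ≤ 1 := by
  rw [map_mul]; exact mul_le_one' hx hy

theorem v_pow_le_one {x : K} (hx : v x ≤ 1) (n : ℕ) : v (x ^ n) ≤ 1 := by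
  rw [map_pow]; exact pow_le_one' hx n

theorem v_add_le_one {x y : K} (hx : v x ≤ 1) (hy : v y ≤ 1) : v (x + y) ≤ 1 :=
  (v.map_add x y).trans (max_le hx hy)

theorem v_sub_lt_one {x y : K} (hx : v x < 1) (hy : v y < 1) : v (x - y) < 1 :=
  v.map_sub_lt hx hy

theorem v_three_le_one (h2 : v 2 = 1) : v 3 ≤ 1 := by
  have : (3 : K) = 2 + 1 := by norm_num
  rw [this]
  exact v_add_le_one v h2.le (by rw [map_one])

theorem v_four_le_one (h2 : v 2 = 1) : v 4 ≤ 1 := by
  have : (4 : K) = 2 * 2 := by norm_num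
  rw [this]
  exact v_mul_le_one v h2.le h2.le

/-- On an integral Legendre-type curve, a point with integral `x` has integral `y`. -/
theorem v_y_le_one {a b x y : K} (ha : v a ≤ 1) (hb : v b ≤ 1) (hE : LegEq a b x y)
    (hx : v x ≤ 1) : v y ≤ 1 := by
  by_contra hcon
  have hy : 1 < v y := not_le.mp hcon
  have h1 : v (y ^ 2) ≤ 1 := by
    rw [hE]
    exact v_add_le_one v (v_add_le_one v (v_pow_le_one v hx 3)
      (v_mul_le_one v ha (v_pow_le_one v hx 2))) (v_mul_le_one v hb hx)
  rw [map_pow] at h1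
  exact absurd h1 (not_le.mpr (one_lt_pow₀ hy two_ne_zero))

/-- Nonsingular reduction: if the discriminant `b (a² - 4b)` is a unit, then at every integral
point one of the two partial derivatives is a unit. -/
theorem nonsingular_reduction {a b x y : K} (h2 : v 2 = 1) (ha : v a ≤ 1) (hb : v b ≤ 1)
    (hΔ : v (b * (a ^ 2 - 4 * b)) = 1) (hE : LegEq a b x y) (hx : v x ≤ 1) (hy : v y ≤ 1) :
    v (2 * y) = 1 ∨ v (3 * x ^ 2 + 2 * a * x + b) = 1 := by
  by_contra hcon
  push Not at hcon
  obtain ⟨h2y, hder⟩ := hcon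
  have h3 := v_three_le_one v h2
  have h4 := v_four_le_one v h2
  have hder_le : v (3 * x ^ 2 + 2 * a * x + b) ≤ 1 :=
    v_add_le_one v (v_add_le_one v (v_mul_le_one v h3 (v_pow_le_one v hx 2))
      (v_mul_le_one v (v_mul_le_one v h2.le ha) hx)) hb
  have hder_lt : v (3 * x ^ 2 + 2 * a * x + b) < 1 := lt_of_le_of_ne hder_le hder
  have hy_lt : v y < 1 := by
    rw [map_mul, h2, one_mul] at h2y
    exact lt_of_le_of_ne hy h2y
  have hdisc_le : v (a ^ 2 - 4 * b) ≤ 1 := by
    rw [sub_eq_add_neg]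
    refine v_add_le_one v (v_pow_le_one v ha 2) ?_
    rw [Valuation.map_neg]
    exact v_mul_le_one v h4 hb
  rcases lt_or_eq_of_le hx with hx_lt | hx_eq
  · -- `v x < 1`: then `v b < 1`
    have hb_lt : v b < 1 := by
      have : b = (3 * x ^ 2 + 2 * a * x + b) - x * (3 * x + 2 * a) := by ring
      rw [this]
      refine v_sub_lt_one v hder_lt (v_mul_lt_one v hx_lt ?_)
      exact v_add_le_one v (v_mul_le_one v h3 hx) (v_mul_le_one v h2.le ha)
    have : v (b * (a ^ 2 - 4 * b)) < 1 := v_mul_lt_one v hb_lt hdisc_le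
    exact absurd hΔ this.ne
  · -- `v x = 1`
    have hg : v (x ^ 2 + a * x + b) < 1 := by
      have h1 : x * (x ^ 2 + a * x + b) = y ^ 2 := by rw [hE]; ring
      have h2' : v x * v (x ^ 2 + a * x + b) = v y ^ 2 := by rw [← map_mul, h1, map_pow]
      rw [hx_eq, one_mul] at h2'
      rw [h2']
      exact pow_lt_one' hy_lt two_ne_zero
    have h2xa : v (2 * x + a) < 1 := by
      have h1 : x * (2 * x + a) = (3 * x ^ 2 + 2 * a * x + b) - (x ^ 2 + a * x + b) := by ring
      have h2' : v x * v (2 * x + a) < 1 := by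
        rw [← map_mul, h1]
        exact v_sub_lt_one v hder_lt hg
      rwa [hx_eq, one_mul] at h2'
    have hdisc_lt : v (a ^ 2 - 4 * b) < 1 := by
      have h1 : a ^ 2 - 4 * b = (2 * x + a) * (2 * x + a) - (x ^ 2 + a * x + b) * 4 := by ring
      rw [h1]
      exact v_sub_lt_one v (v_mul_lt_one v h2xa h2xa.le) (v_mul_lt_one v hg h4)
    have : v (b * (a ^ 2 - 4 * b)) < 1 := by
      rw [mul_comm]
      exact v_mul_lt_one v hdisc_lt hb
    exact absurd hΔ this.ne

end Val

end LocalGood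

variable {F K : Type*} [Field F] [Field K] [Algebra F K] [DecidableEq K] {Γ₀ : Type*}
  [LinearOrderedCommGroupWithZero Γ₀] (v : Valuation K Γ₀)

/-- **Local theorem, good reduction.**  If `σ` moves integral elements by elements of the maximal
ideal, the Legendre-type curve `W₀` has integral coefficients and unit discriminant, and `p` is a
unit, then `σ` fixes every `p`-torsion point. -/
theorem fixed_of_good (W₀ : Affine F) (hW : IsLeg W₀) (σ : K ≃ₐ[F] K)
    (hσ : ∀ x : K, v x ≤ 1 → v (σ x - x) < 1)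
    (h2 : v 2 = 1) (ha : v (algebraMap F K W₀.a₂) ≤ 1) (hb : v (algebraMap F K W₀.a₄) ≤ 1)
    (hΔ : v (algebraMap F K (W₀.a₄ * (W₀.a₂ ^ 2 - 4 * W₀.a₄))) = 1)
    {p : ℕ} (hpv : v (p : K) = 1) (P : (W₀⁄K).Point) (hP : p • P = 0) :
    Point.map (W' := W₀) σ.toAlgHom P = P := by
  have hWK : IsLeg (W₀⁄K) := by
    constructor
    · show algebraMap F K W₀.a₁ = 0
      rw [hW.a₁, map_zero]
    · show algebraMap F K W₀.a₃ = 0
      rw [hW.a₃, map_zero]
    · show algebraMap F K W₀.a₆ = 0
      rw [hW.a₆, map_zero]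
  have ha' : v (W₀⁄K).a₂ ≤ 1 := ha
  have hb' : v (W₀⁄K).a₄ ≤ 1 := hb
  have hΔ' : v ((W₀⁄K).a₄ * ((W₀⁄K).a₂ ^ 2 - 4 * (W₀⁄K).a₄)) = 1 := by
    have : (W₀⁄K).a₄ * ((W₀⁄K).a₂ ^ 2 - 4 * (W₀⁄K).a₄) =
        algebraMap F K (W₀.a₄ * (W₀.a₂ ^ 2 - 4 * W₀.a₄)) := by
      show algebraMap F K W₀.a₄ * (algebraMap F K W₀.a₂ ^ 2 - 4 * algebraMap F K W₀.a₄) = _
      simp only [map_mul, map_sub, map_pow, map_ofNat]
    rw [this]
    exact hΔ
  -- the image of `P` is again `p`-torsion
  have hσP : p • Point.map (W' := W₀) σ.toAlgHom P = 0 := by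
    rw [← map_nsmul, hP, map_zero]
  rcases P with _ | ⟨x, y, h⟩
  · rfl
  · by_cases hx : v x ≤ 1
    · -- integral point: same nonsingular reduction
      have hE : LegEq (W₀⁄K).a₂ (W₀⁄K).a₄ x y := (hWK.equation_iff x y).mp h.1
      have hy : v y ≤ 1 := LocalGood.v_y_le_one v ha' hb' hE hx
      have hns := LocalGood.nonsingular_reduction v h2 ha' hb' hΔ' hE hx hy
      rw [Point.map_some] at hσP ⊢
      have hx' : v (x - σ x) < 1 := by rw [Valuation.map_sub_swap]; exact hσ x hx
      have hy' : v (y - σ y) < 1 := by rw [Valuation.map_sub_swap]; exact hσ y hy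
      have hin := sub_inE1_of_same_red v hWK ha' hb' h
        ((W₀.baseChange_nonsingular σ.toAlgHom.injective x y).mpr h) hx hy hx' hy' hns
      have htors : p • (Point.some x y h - Point.some (σ.toAlgHom x) (σ.toAlgHom y)
          ((W₀.baseChange_nonsingular σ.toAlgHom.injective x y).mpr h)) = 0 := by
        rw [smul_sub, hP, hσP, sub_zero]
      have := E1_torsion_free v hWK ha' hb' hpv hin htors
      exact (sub_eq_zero.mp this).symm
    · -- non-integral `x`: the point lies in the kernel of reduction, hence is zero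
      have hin : InE1 v (Point.some x y h) := not_le.mp hx
      have h0 := E1_torsion_free v hWK ha' hb' hpv hin hP
      rw [h0]
      rfl

end Fermat.Agent.S05
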