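/-
S05 helper library: relative closeness of two `S`-type points implies that their difference lies
in the kernel of reduction.
-/
import Fermat.Agent.S05.Leg

set_option autoImplicit false

namespace Fermat.Agent.S05

open WeierstrassCurve WeierstrassCurve.Affine

variable {K : Type*} [Field K] {Γ₀ : Type*} [LinearOrderedCommGroupWithZero Γ₀]
  (v : Valuation K Γ₀)

/-- Vieta-level statement: if `(x₂, -y₂)` is relatively close to `(x₁, y₁)` (a point with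
`v b < v x₁ < 1`), then the sum `(x₁,y₁) + (x₂,y₂)` has non-integral `x`-coordinate. -/
theorem vieta_rigid_S {a b x₁ y₁ x₂ y₂ x₃ y₃ l n : K} (ha : v a = 1) (h2 : v 2 = 1)
    (hb : v b < 1)
    (hV : Vieta a b x₁ y₁ x₂ y₂ x₃ y₃ l n) (h₁ : LegEq a b x₁ y₁) (h₂ : LegEq a b x₂ y₂)
    (hx₁ : v x₁ < 1) (hx₁' : v b < v x₁)
    (hx : v (x₁ - x₂) < v x₁) (hy : v (y₁ + y₂) < v y₁) : 1 < v x₃ := by
  have hx₁pos : 0 < v x₁ := lt_of_le_of_lt zero_le hx₁'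
  have hx₁ne : v x₁ ≠ 0 := hx₁pos.ne'
  -- `v y₁ = v x₁`
  have hy₁sq : v y₁ ^ 2 = v x₁ ^ 2 := by
    have h3 : v (x₁ ^ 3) < v (a * x₁ ^ 2) := by
      rw [map_mul, map_pow, map_pow, ha, one_mul, pow_succ]
      calc v x₁ ^ 2 * v x₁ < v x₁ ^ 2 * 1 := by
            exact mul_lt_mul_of_pos_left hx₁ (pow_pos hx₁pos 2)
        _ = v x₁ ^ 2 := mul_one _
    have h4 : v (b * x₁) < v (a * x₁ ^ 2) := by
      rw [map_mul, map_mul, map_pow, ha, one_mul, pow_two]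
      exact mul_lt_mul_of_pos_right hx₁' hx₁pos
    have h5 : v (x₁ ^ 3 + a * x₁ ^ 2) = v (a * x₁ ^ 2) :=
      Valuation.map_add_eq_of_lt_right v h3
    have h6 : v (x₁ ^ 3 + a * x₁ ^ 2 + b * x₁) = v (a * x₁ ^ 2) := by
      rw [← h5]
      exact Valuation.map_add_eq_of_lt_left v (by rw [h5]; exact h4)
    unfold LegEq at h₁
    rw [← map_pow, h₁, h6, map_mul, map_pow, ha, one_mul]
  have hy₁ : v y₁ = v x₁ := by
    exact (pow_left_inj₀ zero_le zero_le two_ne_zero).mp hy₁sq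
  -- the right-hand side of `n_mul_sub` has valuation `v x₁ ^ 2`
  have hrhs : y₁ * x₂ - y₂ * x₁ = x₁ * (2 * y₁) + (y₁ * (x₂ - x₁) - x₁ * (y₁ + y₂)) := by ring
  have hmain : v (x₁ * (2 * y₁)) = v x₁ ^ 2 := by
    rw [map_mul, map_mul, h2, one_mul, hy₁, pow_two]
  have hsmall1 : v (y₁ * (x₂ - x₁)) < v x₁ ^ 2 := by
    rw [map_mul, hy₁, Valuation.map_sub_swap, pow_two]
    exact mul_lt_mul_of_pos_left hx hx₁pos
  have hsmall2 : v (x₁ * (y₁ + y₂)) < v x₁ ^ 2 := by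
    rw [map_mul, pow_two]
    rw [hy₁] at hy
    exact mul_lt_mul_of_pos_left hy hx₁pos
  have hsmall : v (y₁ * (x₂ - x₁) - x₁ * (y₁ + y₂)) < v (x₁ * (2 * y₁)) := by
    rw [hmain]
    exact lt_of_le_of_lt (Valuation.map_sub v _ _) (max_lt hsmall1 hsmall2)
  have hn : v n * v (x₂ - x₁) = v x₁ ^ 2 := by
    rw [← map_mul, hV.n_mul_sub, hrhs, Valuation.map_add_eq_of_lt_left v hsmall, hmain]
  -- `v x₂ = v x₁`
  have hx₂ : v x₂ = v x₁ := by
    have : x₂ = x₁ - (x₁ - x₂) := by ring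
    rw [this]
    exact Valuation.map_sub_eq_of_lt_left v hx
  -- `v n > v x₁`
  have hnlt : v x₁ < v n := by
    by_contra hcon
    rw [not_lt] at hcon
    have h7 : v n * v (x₂ - x₁) < v x₁ ^ 2 := by
      rw [Valuation.map_sub_swap, pow_two]
      calc v n * v (x₁ - x₂) ≤ v x₁ * v (x₁ - x₂) := mul_le_mul_left hcon _
        _ < v x₁ * v x₁ := mul_lt_mul_of_pos_left hx hx₁pos
    exact absurd hn h7.ne
  -- conclude with `e₃`
  have he₃ : v x₁ ^ 2 * v x₃ = v n ^ 2 := by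
    have hn2 : v (n ^ 2) = v n ^ 2 := map_pow v n 2
    rw [← hn2, ← hV.e₃, map_mul, map_mul, hx₂, pow_two]
  by_contra hcon
  rw [not_lt] at hcon
  have h8 : v n ^ 2 ≤ v x₁ ^ 2 := by
    rw [← he₃]
    calc v x₁ ^ 2 * v x₃ ≤ v x₁ ^ 2 * 1 := mul_le_mul_right hcon _
      _ = v x₁ ^ 2 := mul_one _
  have h9 : v x₁ ^ 2 < v n ^ 2 := pow_lt_pow_left₀ hnlt zero_le two_ne_zero
  exact absurd h8 (not_le.mpr h9)

/-- Point-level statement: two relatively close points of type `S` differ by an element of the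
kernel of reduction. -/
theorem sub_inE1_of_rel_close {W : Affine K} [DecidableEq K] (hW : IsLeg W) (ha : v W.a₂ = 1)
    (h2 : v 2 = 1) (hb : v W.a₄ < 1)
    {x₁ y₁ x₂ y₂ : K} (h₁ : W.Nonsingular x₁ y₁) (h₂ : W.Nonsingular x₂ y₂)
    (hx₁ : v x₁ < 1) (hx₁' : v W.a₄ < v x₁)
    (hx : v (x₁ - x₂) < v x₁) (hy : v (y₁ - y₂) < v y₁) :
    InE1 v (Point.some x₁ y₁ h₁ - Point.some x₂ y₂ h₂) := by
  rw [sub_eq_add_neg, hW.neg_some h₂]
  by_cases hne : x₁ = x₂ ∧ y₁ = y₂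
  · obtain ⟨rfl, rfl⟩ := hne
    rw [hW.add_neg_eq_zero h₁ (hW.nonsingular_neg h₂)]
    trivial
  · have hne' : ¬(x₁ = x₂ ∧ y₁ = -(-y₂)) := by rwa [neg_neg]
    obtain ⟨l, n, x₃, y₃, h₃, hadd, hV⟩ := hW.add_vieta h₁ (hW.nonsingular_neg h₂) hne'
    rw [hadd]
    have hL₁ : LegEq W.a₂ W.a₄ x₁ y₁ := (hW.equation_iff x₁ y₁).mp h₁.1
    have hL₂ : LegEq W.a₂ W.a₄ x₂ (-y₂) := (hW.equation_iff x₂ (-y₂)).mp (hW.nonsingular_neg h₂).1
    have hy' : v (y₁ + -y₂) < v y₁ := by rwa [← sub_eq_add_neg]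
    exact vieta_rigid_S v ha h2 hb hV hL₁ hL₂ hx₁ hx₁' hx hy'

end Fermat.Agent.S05
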