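/-
S05 helper library: the local theorem in the multiplicative-reduction case.
For the curve `y² = x³ + a x² + b x` over `F ⊆ K` with `v a = 1`, `v b < 1`, `b = t ^ p`, an
automorphism `σ` of `K/F` acting trivially on the residue field fixes every `p`-torsion point.
-/
import Fermat.Agent.S05.Leg
import Fermat.Agent.S05.ClsDef
import Fermat.Agent.S05.E1
import Fermat.Agent.S05.SameRed
import Fermat.Agent.S05.Rigid
import Fermat.Agent.S05.ClsHom

set_option autoImplicit false

namespace Fermat.Agent.S05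

open WeierstrassCurve WeierstrassCurve.Affine

namespace LocalMult

section Val

variable {K : Type*} [Field K] {Γ₀ : Type*} [LinearOrderedCommGroupWithZero Γ₀]
  (v : Valuation K Γ₀)

theorem val_three_le (h2 : v 2 = 1) : v 3 ≤ 1 := by
  have e : (3 : K) = 1 + 2 := by norm_num
  rw [e]
  exact Valuation.map_add_le v (le_of_eq (map_one v)) h2.le

/-- Integrality of `y` for an integral point of an integral curve. -/
theorem val_y_le_one {a b x y : K} (ha : v a ≤ 1) (hb : v b ≤ 1) (hx : v x ≤ 1)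
    (hE : LegEq a b x y) : v y ≤ 1 := by
  by_contra hcon
  have hy : 1 < v y := not_le.mp hcon
  have h1 : 1 < v (y ^ 2) := by
    rw [map_pow]; exact one_lt_pow₀ hy two_ne_zero
  have h2 : v (y ^ 2) ≤ 1 := by
    unfold LegEq at hE
    rw [hE]
    refine Valuation.map_add_le v (Valuation.map_add_le v ?_ ?_) ?_
    · rw [map_pow]; exact pow_le_one₀ zero_le hx
    · rw [map_mul, map_pow]; exact mul_le_one' ha (pow_le_one₀ zero_le hx)
    · rw [map_mul]; exact mul_le_one' hb hx
  exact absurd h1 (not_lt.mpr h2)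

/-- Nonsingularity of the reduction at an integral point with unit `x`-coordinate. -/
theorem nonsing_red {a b x y : K} (h2 : v 2 = 1) (ha : v a = 1) (hb : v b < 1) (hx : v x = 1)
    (hE : LegEq a b x y) : v (2 * y) = 1 ∨ v (3 * x ^ 2 + 2 * a * x + b) = 1 := by
  by_contra hcon
  rw [not_or] at hcon
  obtain ⟨h1, h3⟩ := hcon
  have hy1 : v y ≤ 1 := val_y_le_one v ha.le hb.le hx.le hE
  have hy : v y < 1 := by
    refine lt_of_le_of_ne hy1 fun h => h1 ?_
    rw [map_mul, h2, h, one_mul]
  have h3' : v 3 ≤ 1 := val_three_le v h2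
  have hD1 : v (3 * x ^ 2 + 2 * a * x + b) ≤ 1 := by
    refine Valuation.map_add_le v (Valuation.map_add_le v ?_ ?_) hb.le
    · rw [map_mul, map_pow, hx, one_pow, mul_one]; exact h3'
    · rw [map_mul, map_mul, h2, ha, hx, one_mul, one_mul]
  have hD : v (3 * x ^ 2 + 2 * a * x + b) < 1 := lt_of_le_of_ne hD1 h3
  have h4 : v (3 * x + 2 * a) < 1 := by
    have h : v (x * (3 * x + 2 * a)) < 1 := by
      have e : x * (3 * x + 2 * a) = (3 * x ^ 2 + 2 * a * x + b) - b := by ring
      rw [e]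
      exact Valuation.map_sub_lt v hD hb
    rwa [map_mul, hx, one_mul] at h
  have h5 : v (x + a) < 1 := by
    have h : v (x * (x * (x + a))) < 1 := by
      have e : x * (x * (x + a)) = y ^ 2 - b * x := by
        unfold LegEq at hE
        rw [hE]; ring
      rw [e]
      refine Valuation.map_sub_lt v ?_ ?_
      · rw [map_pow]; exact pow_lt_one₀ zero_le hy two_ne_zero
      · rw [map_mul, hx, mul_one]; exact hb
    rwa [map_mul, map_mul, hx, one_mul, one_mul] at h
  have h6 : v a < 1 := by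
    have e : a = 3 * (x + a) - (3 * x + 2 * a) := by ring
    rw [e]
    refine Valuation.map_sub_lt v ?_ h4
    rw [map_mul]
    calc v 3 * v (x + a) ≤ 1 * v (x + a) := mul_le_mul' h3' le_rfl
      _ = v (x + a) := one_mul _
      _ < 1 := h5
  exact absurd ha h6.ne

/-- For a point with `v b < v x < 1` one has `v y = v x`. -/
theorem val_y_eq_val_x {a b x y : K} (ha : v a = 1) (hbx : v b < v x) (hx : v x < 1)
    (hE : LegEq a b x y) : v y = v x := by
  have hx0 : v x ≠ 0 := fun h => by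
    rw [h] at hbx; exact not_lt_zero hbx
  have hx0' : 0 < v x := zero_lt_iff.mpr hx0
  have e : y ^ 2 = a * x ^ 2 + (x ^ 3 + b * x) := by
    unfold LegEq at hE
    rw [hE]; ring
  have h1 : v (a * x ^ 2) = v x ^ 2 := by rw [map_mul, ha, one_mul, map_pow]
  have h2 : v (x ^ 3 + b * x) < v x ^ 2 := by
    refine Valuation.map_add_lt v ?_ ?_
    · rw [map_pow]
      calc v x ^ 3 = v x ^ 2 * v x := pow_succ _ _
        _ < v x ^ 2 * 1 := mul_lt_mul_of_pos_left hx (pow_pos hx0' 2)
        _ = v x ^ 2 := mul_one _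
    · rw [map_mul, pow_two]
      exact mul_lt_mul_of_pos_right hbx hx0'
  have h3 : v (y ^ 2) = v x ^ 2 := by
    rw [e, ← h1]
    exact Valuation.map_add_eq_of_lt_left v (by rw [h1]; exact h2)
  rw [map_pow] at h3
  exact (pow_left_inj₀ zero_le zero_le two_ne_zero).mp h3

end Val

section Galois

variable {F K : Type*} [Field F] [Field K] [Algebra F K] {Γ₀ : Type*}
  [LinearOrderedCommGroupWithZero Γ₀] (v : Valuation K Γ₀)

/-- An element whose valuation is that of a power of a `σ`-fixed element is moved by `σ` by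
something relatively small, as soon as `σ` acts trivially on the residue field. -/
theorem galois_close (σ : K ≃ₐ[F] K) (hσ : ∀ x : K, v x ≤ 1 → v (σ x - x) < 1) {τ : K}
    (hτ : τ ≠ 0) (hστ : σ τ = τ) (m : ℤ) {z : K} (hz : v z = v τ ^ m) :
    v (z - σ z) < v z := by
  have hvτ : v τ ≠ 0 := (Valuation.ne_zero_iff v).mpr hτ
  have hτm : τ ^ m ≠ 0 := zpow_ne_zero m hτ
  have hvτm : v (τ ^ m) = v τ ^ m := map_zpow₀ v τ m
  obtain ⟨w, hw⟩ : ∃ w, w = z / τ ^ m := ⟨_, rfl⟩
  have hvw : v w = 1 := by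
    rw [hw, map_div₀, hvτm, hz, div_self (zpow_ne_zero m hvτ)]
  have hzw : z = w * τ ^ m := by rw [hw, div_mul_cancel₀ _ hτm]
  have hσz : σ z = σ w * τ ^ m := by
    have h : σ (w * τ ^ m) = σ w * τ ^ m := by rw [map_mul, map_zpow₀, hστ]
    rw [← hzw] at h; exact h
  have hdiff : z - σ z = (w - σ w) * τ ^ m := by
    rw [hσz, sub_mul, ← hzw]
  have h1 : v (w - σ w) < 1 := by
    rw [Valuation.map_sub_swap]; exact hσ w hvw.le
  rw [hdiff, map_mul, hvτm, hz]
  calc v (w - σ w) * v τ ^ m < 1 * v τ ^ m :=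
        mul_lt_mul_of_pos_right h1 (zero_lt_iff.mpr (zpow_ne_zero m hvτ))
    _ = v τ ^ m := one_mul _

theorem isLeg_baseChange (W₀ : Affine F) (hW : IsLeg W₀) : IsLeg (W₀⁄K) where
  a₁ := by
    show algebraMap F K W₀.a₁ = 0
    rw [hW.a₁, map_zero]
  a₃ := by
    show algebraMap F K W₀.a₃ = 0
    rw [hW.a₃, map_zero]
  a₆ := by
    show algebraMap F K W₀.a₆ = 0
    rw [hW.a₆, map_zero]

end Galois

end LocalMult

variable {F K : Type*} [Field F] [Field K] [Algebra F K] [DecidableEq K] {Γ₀ : Type*}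
  [LinearOrderedCommGroupWithZero Γ₀] (v : Valuation K Γ₀)

/-- The local theorem, multiplicative reduction: `σ` fixes the `p`-torsion. -/
theorem fixed_of_mult (W₀ : Affine F) (hW : IsLeg W₀) (σ : K ≃ₐ[F] K)
    (hσ : ∀ x : K, v x ≤ 1 → v (σ x - x) < 1)
    (h2 : v 2 = 1) (ha : v (algebraMap F K W₀.a₂) = 1)
    (hb : v (algebraMap F K W₀.a₄) < 1) (hb0 : W₀.a₄ ≠ 0)
    {p : ℕ} (hp : p.Prime) (hp2 : p ≠ 2) (hpv : v (p : K) = 1)
    {t : F} (ht : W₀.a₄ = t ^ p) {β : K} (hβ : β ^ 2 = algebraMap F K W₀.a₂)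
    (P : (W₀⁄K).Point) (hP : p • P = 0) :
    Point.map (W' := W₀) σ.toAlgHom P = P := by
  have hWK : IsLeg (W₀⁄K) := LocalMult.isLeg_baseChange W₀ hW
  have ha' : v (W₀⁄K).a₂ = 1 := ha
  have hb' : v (W₀⁄K).a₄ < 1 := hb
  have hb0' : (W₀⁄K).a₄ ≠ 0 := by
    show algebraMap F K W₀.a₄ ≠ 0
    exact (map_ne_zero _).mpr hb0
  have hβ' : β ^ 2 = (W₀⁄K).a₂ := hβ
  have hσP : p • Point.map (W' := W₀) σ.toAlgHom P = 0 := by
    rw [← map_nsmul, hP, map_zero]
  -- it suffices to show that `P - σ P` lies in the kernel of reduction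
  suffices h : InE1 v (P - Point.map (W' := W₀) σ.toAlgHom P) by
    have h0 : P - Point.map (W' := W₀) σ.toAlgHom P = 0 :=
      E1_torsion_free v hWK ha'.le hb'.le hpv h (by rw [smul_sub, hP, hσP, sub_zero])
    exact (sub_eq_zero.mp h0).symm
  rcases P with _ | ⟨x, y, h⟩
  · exact trivial
  · have hE : LegEq (W₀⁄K).a₂ (W₀⁄K).a₄ x y := ((hWK.nonsingular_iff x y).mp h).1
    have h' : (W₀⁄K).Nonsingular (σ x) (σ y) :=
      (W₀.baseChange_nonsingular σ.toAlgHom.injective ..).mpr h
    show InE1 v (Point.some x y h - Point.some (σ x) (σ y) h')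
    rcases lt_trichotomy (v x) 1 with hx | hx | hx
    · -- `v x < 1`
      have htK : (W₀⁄K).a₄ = (algebraMap F K t) ^ p := by
        show algebraMap F K W₀.a₄ = _
        rw [ht, map_pow]
      obtain ⟨hbx, m, hm⟩ :=
        torsion_val v hWK ha' h2 hb' hb0' hβ' hp hp2 htK h hP hx
      have hτ : algebraMap F K t ≠ 0 := by
        intro h0
        apply hb0'
        rw [htK, h0, zero_pow hp.ne_zero]
      have hστ : σ (algebraMap F K t) = algebraMap F K t := σ.commutes t
      have hyx : v y = v x := LocalMult.val_y_eq_val_x v ha' hbx hx hE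
      have hx' : v (x - σ x) < v x := LocalMult.galois_close v σ hσ hτ hστ m hm
      have hy' : v (y - σ y) < v y := LocalMult.galois_close v σ hσ hτ hστ m (hyx.trans hm)
      exact sub_inE1_of_rel_close v hWK ha' h2 hb' h h' hx hbx hx' hy'
    · -- `v x = 1`
      have hy : v y ≤ 1 := LocalMult.val_y_le_one v ha'.le hb'.le hx.le hE
      have hns := LocalMult.nonsing_red v h2 ha' hb' hx hE
      refine sub_inE1_of_same_red v hWK ha'.le hb'.le h h' hx.le hy ?_ ?_ hns
      · rw [Valuation.map_sub_swap]; exact hσ x hx.le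
      · rw [Valuation.map_sub_swap]; exact hσ y hy
    · -- `1 < v x`: then `P` itself is in the kernel of reduction, hence zero
      have h0 : Point.some x y h = 0 :=
        E1_torsion_free v hWK ha'.le hb'.le hpv (P := Point.some x y h) hx hP
      exact absurd h0 (Point.some_ne_zero h)
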