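import Mathlib
import Fermat.Prelude.Def_FLTPrelim_FreyPackage
import Fermat.Prelude.Def_FLTPrelim_GaloisRep
import Fermat.Prelude.Def_FLTPrelim_Ramification
import Fermat.Agent.S05.Transfer

/-!
# Transfer of the Galois action along a rational change of variables, and the Legendre-type
models of the Frey curve.
-/

namespace Fermat.Agent.S05.Transfer

open WeierstrassCurve WeierstrassCurve.Affine
open scoped WeierstrassCurve.Affine

section Galois

variable {K : Type*} [Field K] [Algebra ℚ K] {W₁ W₂ : WeierstrassCurve ℚ}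

lemma baseChange_eq (C : VariableChange ℚ) (h : C • W₂ = W₁) :
    (C.map (algebraMap ℚ K)) • (W₂.map (algebraMap ℚ K)) = W₁.map (algebraMap ℚ K) := by
  rw [map_variableChange, h]

variable [DecidableEq K] (C : VariableChange ℚ) (h : C • W₂ = W₁)

/-- The isomorphism `W₁(K) ≃+ W₂(K)` induced by a change of variables defined over `ℚ`. -/
noncomputable def ratEquiv : (W₁⁄K).Point ≃+ (W₂⁄K).Point :=
  vcEquiv (C.map (algebraMap ℚ K)) (baseChange_eq C h)

lemma ratEquiv_zero : ratEquiv (K := K) C h 0 = 0 := rfl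

lemma ratEquiv_some {x y : K} (hxy : (W₁⁄K).Nonsingular x y) :
    ratEquiv C h (.some x y hxy) =
      .some (vcX (C.map (algebraMap ℚ K)) x) (vcY (C.map (algebraMap ℚ K)) x y)
        ((nonsingular_iff _ _ x y).mp ((baseChange_eq (K := K) C h) ▸ hxy)) := rfl

/-- The transfer isomorphism commutes with the Galois action. -/
lemma ratEquiv_smul (σ : K ≃ₐ[ℚ] K) (P : (W₁⁄K).Point) :
    ratEquiv C h (σ • P) = σ • ratEquiv C h P := by
  rcases P with _ | ⟨x, y, hxy⟩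
  · rfl
  · rw [Point.algEquiv_smul_def, Point.map_some, ratEquiv_some, ratEquiv_some,
      Point.algEquiv_smul_def, Point.map_some, Point.some.injEq]
    constructor
    · simp only [vcX, VariableChange.map, Units.coe_map, MonoidHom.coe_coe, AlgEquiv.coe_toAlgHom,
        map_add, map_mul, map_pow, AlgEquiv.commutes]
    · simp only [vcY, VariableChange.map, Units.coe_map, MonoidHom.coe_coe, AlgEquiv.coe_toAlgHom,
        map_add, map_mul, map_pow, AlgEquiv.commutes]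

/-- If `σ` fixes the `n`-torsion of `W₁`, it fixes the `n`-torsion of `W₂`. -/
theorem fixes_torsion_of_transfer (C : VariableChange ℚ) (h : C • W₂ = W₁) (n : ℕ)
    (σ : K ≃ₐ[ℚ] K)
    (hfix : ∀ x : Submodule.torsionBy ℤ (W₁⁄K).Point n, σ • x = x) :
    ∀ x : Submodule.torsionBy ℤ (W₂⁄K).Point n, σ • x = x := by
  intro x
  apply Subtype.ext
  change σ • (x : (W₂⁄K).Point) = x
  set e := ratEquiv (K := K) C h with he
  have hy : e.symm (x : (W₂⁄K).Point) ∈ Submodule.torsionBy ℤ (W₁⁄K).Point n := by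
    rw [Submodule.mem_torsionBy_iff]
    have hx := x.2
    rw [Submodule.mem_torsionBy_iff] at hx
    rw [← map_zsmul, hx, map_zero]
  have h1 := congrArg Subtype.val (hfix ⟨e.symm x, hy⟩)
  change σ • e.symm (x : (W₂⁄K).Point) = e.symm x at h1
  have h2 := congrArg e h1
  rw [he, ratEquiv_smul, ← he, AddEquiv.apply_symm_apply] at h2
  exact h2

end Galois

section Frey

/-- The change of variables `x = X/4 + ρ/4`, `y = Y/8 - X/8 - ρ/8`, i.e. `X = 4x - ρ`,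
`Y = 8y + 4x`. -/
noncomputable def vcShift (ρ : ℚ) : VariableChange ℚ :=
  ⟨Units.mk0 (1 / 2) (by norm_num), ρ / 4, -1 / 2, -ρ / 8⟩

/-- General shifted Legendre model of the Frey curve:
`Y² = (X + ρ)(X + ρ - A)(X + ρ + B)` with `A = a^p`, `B = b^p`, `X = 4x - ρ`, `Y = 8y + 4x`. -/
theorem frey_model_shift (P : FreyPackage) (ρ : ℚ) :
    vcShift ρ • P.freyCurve =
      (⟨0, 3 * ρ + ((P.b : ℚ) ^ P.p - (P.a : ℚ) ^ P.p), 0,
        ρ * (ρ - (P.a : ℚ) ^ P.p) + ρ * (ρ + (P.b : ℚ) ^ P.p) +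
          (ρ - (P.a : ℚ) ^ P.p) * (ρ + (P.b : ℚ) ^ P.p),
        ρ * (ρ - (P.a : ℚ) ^ P.p) * (ρ + (P.b : ℚ) ^ P.p)⟩ : WeierstrassCurve ℚ) := by
  ext
  · simp only [variableChange_a₁, vcShift, FreyPackage.freyCurve, Units.val_inv_eq_inv_val,
      Units.val_mk0]
    norm_num
  · simp only [variableChange_a₂, vcShift, FreyPackage.freyCurve, Units.val_inv_eq_inv_val,
      Units.val_mk0]
    ring
  · simp only [variableChange_a₃, vcShift, FreyPackage.freyCurve, Units.val_inv_eq_inv_val,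
      Units.val_mk0]
    ring
  · simp only [variableChange_a₄, vcShift, FreyPackage.freyCurve, Units.val_inv_eq_inv_val,
      Units.val_mk0]
    ring
  · simp only [variableChange_a₆, vcShift, FreyPackage.freyCurve, Units.val_inv_eq_inv_val,
      Units.val_mk0]
    ring

/-- Legendre model `Y² = X (X² + (B - A) X - A B) = X (X - A)(X + B)` of the Frey curve
(`A = a^p`, `B = b^p`, `X = 4x`, `Y = 8y + 4x`). -/
theorem frey_model₀ (P : FreyPackage) :
    vcShift 0 • P.freyCurve =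
      (⟨0, (P.b : ℚ) ^ P.p - (P.a : ℚ) ^ P.p, 0, -((P.a : ℚ) ^ P.p * (P.b : ℚ) ^ P.p), 0⟩ :
        WeierstrassCurve ℚ) := by
  rw [frey_model_shift]
  ext
  all_goals simp

/-- Legendre model `Y² = X (X² + (A + C) X + A C) = X (X + A)(X + C)` of the Frey curve
(`A = a^p`, `C = c^p = A + B`, `X = 4x - A`, `Y = 8y + 4x`). -/
theorem frey_model_c (P : FreyPackage) :
    vcShift ((P.a : ℚ) ^ P.p) • P.freyCurve =
      (⟨0, (P.a : ℚ) ^ P.p + (P.c : ℚ) ^ P.p, 0, (P.a : ℚ) ^ P.p * (P.c : ℚ) ^ P.p, 0⟩ :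
        WeierstrassCurve ℚ) := by
  have hFLT : (P.a : ℚ) ^ P.p + (P.b : ℚ) ^ P.p = (P.c : ℚ) ^ P.p := by
    exact_mod_cast P.hFLT
  rw [frey_model_shift, ← hFLT]
  ext
  · rfl
  · show 3 * (P.a : ℚ) ^ P.p + ((P.b : ℚ) ^ P.p - (P.a : ℚ) ^ P.p) =
      (P.a : ℚ) ^ P.p + ((P.a : ℚ) ^ P.p + (P.b : ℚ) ^ P.p)
    ring
  · rfl
  · show (P.a : ℚ) ^ P.p * ((P.a : ℚ) ^ P.p - (P.a : ℚ) ^ P.p) +
        (P.a : ℚ) ^ P.p * ((P.a : ℚ) ^ P.p + (P.b : ℚ) ^ P.p) +
        ((P.a : ℚ) ^ P.p - (P.a : ℚ) ^ P.p) * ((P.a : ℚ) ^ P.p + (P.b : ℚ) ^ P.p) =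
      (P.a : ℚ) ^ P.p * ((P.a : ℚ) ^ P.p + (P.b : ℚ) ^ P.p)
    ring
  · show (P.a : ℚ) ^ P.p * ((P.a : ℚ) ^ P.p - (P.a : ℚ) ^ P.p) *
        ((P.a : ℚ) ^ P.p + (P.b : ℚ) ^ P.p) = 0
    ring

/-- Final reduction for S05: the Frey representation is unramified at `q` as soon as, for every
inertia element `σ` at a place over `q`, `σ` fixes the `p`-torsion of one of the two Legendre models
`Y² = X (X - A)(X + B)` or `Y² = X (X + A)(X + C)` (`A = a^p`, `B = b^p`, `C = c^p`). -/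
theorem galoisRepUnramifiedAt_of_models (P : FreyPackage) (q : ℕ)
    (H : ∀ A : ValuationSubring (AlgebraicClosure ℚ), A.LiesOverPrime q →
      ∀ σ ∈ A.inertiaSubgroupIn ℚ,
        (∀ x : Submodule.torsionBy ℤ
            (((⟨0, (P.b : ℚ) ^ P.p - (P.a : ℚ) ^ P.p, 0,
              -((P.a : ℚ) ^ P.p * (P.b : ℚ) ^ P.p), 0⟩ : WeierstrassCurve ℚ))⁄(AlgebraicClosure ℚ)).Point
            P.p, σ • x = x) ∨
        (∀ x : Submodule.torsionBy ℤ
            (((⟨0, (P.a : ℚ) ^ P.p + (P.c : ℚ) ^ P.p, 0,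
              (P.a : ℚ) ^ P.p * (P.c : ℚ) ^ P.p, 0⟩ : WeierstrassCurve ℚ))⁄(AlgebraicClosure ℚ)).Point
            P.p, σ • x = x)) :
    P.GaloisRepUnramifiedAt q := by
  intro A hA σ hσ
  rcases H A hA σ hσ with h | h
  · exact fixes_torsion_of_transfer _ (frey_model₀ P) P.p σ h
  · exact fixes_torsion_of_transfer _ (frey_model_c P) P.p σ h

end Frey

section Arithmetic

variable (P : FreyPackage) {q : ℕ} (hq : q.Prime)

include hq

lemma prime_int : Prime (q : ℤ) := Nat.prime_iff_prime_int.mp hq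

/-- A prime dividing `a` does not divide `b`. -/
lemma not_dvd_b_of_dvd_a (h : (q : ℤ) ∣ P.a) : ¬ (q : ℤ) ∣ P.b := by
  intro hb
  have h1 : (q : ℤ) ∣ gcd P.a P.b := dvd_gcd h hb
  rw [P.hgcdab] at h1
  exact (prime_int hq).not_dvd_one h1

lemma not_dvd_a_of_dvd_b (h : (q : ℤ) ∣ P.b) : ¬ (q : ℤ) ∣ P.a :=
  fun ha => not_dvd_b_of_dvd_a P hq ha h

lemma not_dvd_a_of_dvd_c (h : (q : ℤ) ∣ P.c) : ¬ (q : ℤ) ∣ P.a := by
  intro ha
  have h1 : (q : ℤ) ∣ gcd P.a P.c := dvd_gcd ha h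
  rw [P.hgcdac] at h1
  exact (prime_int hq).not_dvd_one h1

lemma not_dvd_b_of_dvd_c (h : (q : ℤ) ∣ P.c) : ¬ (q : ℤ) ∣ P.b := by
  intro hb
  have h1 : (q : ℤ) ∣ gcd P.b P.c := dvd_gcd hb h
  rw [P.hgcdbc] at h1
  exact (prime_int hq).not_dvd_one h1

/-- Good case: if `q ∤ abc` then `q ∤ a^p b^p c^p`. -/
lemma not_dvd_pow_of_not_dvd_abc (h : ¬ (q : ℤ) ∣ P.a * P.b * P.c) :
    ¬ (q : ℤ) ∣ P.a ^ P.p * P.b ^ P.p * (P.c ^ P.p) ^ 2 := by
  intro hd
  have hp := prime_int hq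
  apply h
  rcases hp.dvd_or_dvd hd with h1 | h1
  · rcases hp.dvd_or_dvd h1 with h2 | h2
    · exact dvd_mul_of_dvd_left (dvd_mul_of_dvd_left (hp.dvd_of_dvd_pow h2) _) _
    · exact dvd_mul_of_dvd_left (dvd_mul_of_dvd_right (hp.dvd_of_dvd_pow h2) _) _
  · exact dvd_mul_of_dvd_right (hp.dvd_of_dvd_pow (hp.dvd_of_dvd_pow h1)) _

/-- Multiplicative case `q ∣ ab`: the coefficient `a' = b^p - a^p` of the model is a `q`-unit. -/
lemma not_dvd_sub_of_dvd_ab (h : (q : ℤ) ∣ P.a * P.b) : ¬ (q : ℤ) ∣ P.b ^ P.p - P.a ^ P.p := by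
  have hp := prime_int hq
  intro hd
  rcases hp.dvd_or_dvd h with ha | hb
  · have hb : (q : ℤ) ∣ P.b ^ P.p := by
      have := dvd_add hd (dvd_pow ha P.hp0)
      rwa [sub_add_cancel] at this
    exact not_dvd_b_of_dvd_a P hq ha (hp.dvd_of_dvd_pow hb)
  · have ha : (q : ℤ) ∣ P.a ^ P.p := by
      have := dvd_sub (dvd_pow hb P.hp0) hd
      rwa [sub_sub_cancel] at this
    exact not_dvd_a_of_dvd_b P hq hb (hp.dvd_of_dvd_pow ha)

/-- Multiplicative case `q ∣ c`: the coefficient `a' = a^p + c^p` of the model is a `q`-unit. -/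
lemma not_dvd_add_of_dvd_c (h : (q : ℤ) ∣ P.c) : ¬ (q : ℤ) ∣ P.a ^ P.p + P.c ^ P.p := by
  have hp := prime_int hq
  intro hd
  have ha : (q : ℤ) ∣ P.a ^ P.p := by
    have := dvd_sub hd (dvd_pow h P.hp0)
    rwa [add_sub_cancel_right] at this
  exact not_dvd_a_of_dvd_c P hq h (hp.dvd_of_dvd_pow ha)

omit hq in
/-- The discriminant factor of the model `Y² = X (X² + a' X + b')`, `a' = B - A`, `b' = -AB`:
`b' (a'² - 4 b') = -(A B C²)`. -/
lemma model₀_disc :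
    (-((P.a : ℤ) ^ P.p * P.b ^ P.p)) *
        ((P.b ^ P.p - P.a ^ P.p) ^ 2 - 4 * (-((P.a : ℤ) ^ P.p * P.b ^ P.p))) =
      -(P.a ^ P.p * P.b ^ P.p * (P.c ^ P.p) ^ 2) := by
  rw [← P.hFLT]
  ring

omit hq in
/-- `b' = -(ab)^p` in the model with `q ∣ ab`. -/
lemma model₀_b : -((P.a : ℤ) ^ P.p * P.b ^ P.p) = -(P.a * P.b) ^ P.p := by
  rw [mul_pow]

omit hq in
/-- `b' = (ac)^p = -(-(ac))^p` in the model with `q ∣ c`. -/
lemma model_c_b : (P.a : ℤ) ^ P.p * P.c ^ P.p = -(-(P.a * P.c)) ^ P.p := by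
  rw [P.hp_odd.neg_pow, neg_neg, mul_pow]

end Arithmetic

end Fermat.Agent.S05.Transfer
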