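/-
S05 helper library, layers L2 + L3 (good reduction).

* L2 (`inE1_sub_of_same_red`): two points of `y² = x³ + a x² + b x` with integral coordinates and the
  same reduction, the reduction being a nonsingular point, differ by an element of the kernel of
  reduction `InE1`.
* L3 (`map_eq_self_of_good`): if `b (a² - 4 b)` and `2` are units for the valuation, a field
  automorphism acting trivially on the residue field fixes every `n`-torsion point, as soon as the
  kernel of reduction has no `n`-torsion (which is layer L1).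
-/
import Mathlib
import Fermat.Agent.S05.Leg
import Fermat.Agent.S05.E1

set_option autoImplicit false

namespace Fermat.Agent.S05.GoodRed

open WeierstrassCurve WeierstrassCurve.Affine

section L2

variable {K : Type*} [Field K] {Γ₀ : Type*} [LinearOrderedCommGroupWithZero Γ₀]
  (v : Valuation K Γ₀)

/-- On `y² = x³ + a x² + b x` with integral `a`, `b`: if `x` is integral then so is `y`. -/
theorem val_y_le_one {a b x y : K} (ha : v a ≤ 1) (hb : v b ≤ 1) (hx : v x ≤ 1)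
    (h : LegEq a b x y) : v y ≤ 1 := by
  unfold LegEq at h
  have h1 : v (y ^ 2) ≤ 1 := by
    rw [h]
    refine v.map_add_le (v.map_add_le ?_ ?_) ?_
    · rw [map_pow]; exact pow_le_one₀ zero_le hx
    · rw [map_mul, map_pow]; exact mul_le_one' ha (pow_le_one₀ zero_le hx)
    · rw [map_mul]; exact mul_le_one' hb hx
  rw [map_pow] at h1
  by_contra hy
  exact absurd h1 (not_le.mpr (one_lt_pow₀ (lt_of_not_ge hy) two_ne_zero))

/-- Core of L2 in "Vieta form": the sum of `(x', y')` and `(x, -y)` has non-integral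
`x`-coordinate when `(x', y')` and `(x, y)` have the same nonsingular reduction. -/
theorem one_lt_val_of_vieta {a b x y x' y' x₃ y₃ l n : K} (ha : v a ≤ 1)
    (hV : Vieta a b x' y' x (-y) x₃ y₃ l n)
    (hx : v x ≤ 1) (hxx : v (x' - x) < 1) (hyy : v (y' - y) < 1)
    (hns : v (2 * y) = 1 ∨ v (3 * x ^ 2 + 2 * a * x + b) = 1) : 1 < v x₃ := by
  have hx' : v x' ≤ 1 := by
    have e : x' = (x' - x) + x := by ring
    rw [e]; exact v.map_add_le hxx.le hx
  have h1 : l * (x' - x) = y' + y := by have := hV.l_mul_sub; linear_combination this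
  have h2 : l * (y' - y) = x' ^ 2 + x' * x + x ^ 2 + a * (x' + x) + b := by
    have := hV.l_mul_add; linear_combination this
  have h2le : v (2 : K) ≤ 1 := by
    have e : (2 : K) = 1 + 1 := by norm_num
    rw [e]; exact v.map_add_le (le_of_eq v.map_one) (le_of_eq v.map_one)
  have hl : 1 < v l := by
    by_contra hl
    have hl := le_of_not_gt hl
    rcases hns with hns | hns
    · have h3 : v (y' + y) = 1 := by
        have e : y' + y = 2 * y + (y' - y) := by ring
        rw [e, v.map_add_eq_of_lt_left (by rw [hns]; exact hyy), hns]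
      rw [← h1, map_mul] at h3
      exact absurd h3 (ne_of_lt (lt_of_le_of_lt (mul_le_of_le_one_left' hl) hxx))
    · have hg : v (x' ^ 2 + x' * x + x ^ 2 + a * (x' + x) + b) = 1 := by
        have e : x' ^ 2 + x' * x + x ^ 2 + a * (x' + x) + b
            = (3 * x ^ 2 + 2 * a * x + b) + (x' - x) * (x' + 2 * x + a) := by ring
        have h4 : v (x' + 2 * x + a) ≤ 1 := by
          refine v.map_add_le (v.map_add_le hx' ?_) ha
          rw [map_mul]; exact mul_le_one' h2le hx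
        have h5 : v ((x' - x) * (x' + 2 * x + a)) < 1 := by
          rw [map_mul]; exact lt_of_le_of_lt (mul_le_of_le_one_right' h4) hxx
        rw [e, v.map_add_eq_of_lt_left (by rw [hns]; exact h5), hns]
      rw [← h2, map_mul] at hg
      exact absurd hg (ne_of_lt (lt_of_le_of_lt (mul_le_of_le_one_left' hl) hyy))
  have e₁ := hV.e₁
  have hx₃ : x₃ = l ^ 2 - (a + x' + x) := by linear_combination e₁
  have hl2 : 1 < v (l ^ 2) := by rw [map_pow]; exact one_lt_pow₀ hl two_ne_zero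
  have h6 : v (a + x' + x) < v (l ^ 2) :=
    lt_of_le_of_lt (v.map_add_le (v.map_add_le ha hx') hx) hl2
  rw [hx₃, v.map_sub_eq_of_lt_left h6]
  exact hl2

variable [DecidableEq K] {W : Affine K}

/-- **L2.** Two points with integral coordinates having the same reduction, this reduction being
a nonsingular point of the reduced curve, differ by an element of the kernel of reduction. -/
theorem inE1_sub_of_same_red (hW : IsLeg W) (ha : v W.a₂ ≤ 1) {x y x' y' : K}
    (h : W.Nonsingular x y) (h' : W.Nonsingular x' y')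
    (hx : v x ≤ 1) (hxx : v (x' - x) < 1) (hyy : v (y' - y) < 1)
    (hns : v (2 * y) = 1 ∨ v (3 * x ^ 2 + 2 * W.a₂ * x + W.a₄) = 1) :
    InE1 v (Point.some x' y' h' - Point.some x y h) := by
  rw [sub_eq_add_neg, hW.neg_some h]
  by_cases hne : x' = x ∧ y' = -(-y)
  · obtain ⟨rfl, hy⟩ := hne
    rw [neg_neg] at hy
    subst hy
    rw [hW.add_neg_eq_zero]
    exact (show InE1 v (Point.zero : W.Point) from trivial)
  · obtain ⟨l, n, x₃, y₃, h₃, hadd, hV⟩ := hW.add_vieta h' (hW.nonsingular_neg h) hne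
    rw [hadd]
    exact one_lt_val_of_vieta v ha hV hx hxx hyy hns

end L2

section L3

variable {K : Type*} [Field K] {Γ₀ : Type*} [LinearOrderedCommGroupWithZero Γ₀]
  (v : Valuation K Γ₀)

/-- Explicit Bezout identity: the discriminant `b² (a² - 4 b)` of `f = x³ + a x² + b x` lies in the
ideal `(f, f')`, with integral cofactors. -/
theorem disc_bezout (a b x : K) :
    ((18 * b - 6 * a ^ 2) * x + (15 * a * b - 4 * a ^ 3)) * (x ^ 3 + a * x ^ 2 + b * x)
      + ((2 * a ^ 2 - 6 * b) * x ^ 2 + (2 * a ^ 3 - 7 * a * b) * x + (a ^ 2 * b - 4 * b ^ 2))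
          * (3 * x ^ 2 + 2 * a * x + b) = b ^ 2 * (a ^ 2 - 4 * b) := by
  ring

/-- Good reduction (`2` and `b (a² - 4 b)` units): every integral point of
`y² = x³ + a x² + b x` reduces to a nonsingular point. -/
theorem nonsingular_red_of_good {a b x y : K} (ha : v a ≤ 1) (hb : v b ≤ 1) (h2 : v 2 = 1)
    (hΔ : v (b * (a ^ 2 - 4 * b)) = 1) (hx : v x ≤ 1) (h : LegEq a b x y) :
    v (2 * y) = 1 ∨ v (3 * x ^ 2 + 2 * a * x + b) = 1 := by
  by_contra hcon
  rw [not_or] at hcon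
  obtain ⟨hc1, hc2⟩ := hcon
  have hy := val_y_le_one v ha hb hx h
  -- work in the valuation ring
  obtain ⟨a₀, rfl⟩ : ∃ a₀ : v.integer, (a₀ : K) = a := ⟨⟨a, ha⟩, rfl⟩
  obtain ⟨b₀, rfl⟩ : ∃ b₀ : v.integer, (b₀ : K) = b := ⟨⟨b, hb⟩, rfl⟩
  obtain ⟨x₀, rfl⟩ : ∃ x₀ : v.integer, (x₀ : K) = x := ⟨⟨x, hx⟩, rfl⟩
  have hU : v ((18 * (b₀ : K) - 6 * (a₀ : K) ^ 2) * x₀ + (15 * (a₀ : K) * b₀ - 4 * (a₀ : K) ^ 3))
      ≤ 1 := by
    have := ((18 * b₀ - 6 * a₀ ^ 2) * x₀ + (15 * a₀ * b₀ - 4 * a₀ ^ 3) : v.integer).2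
    rw [Valuation.mem_integer_iff] at this
    push_cast at this
    exact this
  have hV : v ((2 * (a₀ : K) ^ 2 - 6 * b₀) * (x₀ : K) ^ 2 + (2 * (a₀ : K) ^ 3 - 7 * a₀ * b₀) * x₀
      + ((a₀ : K) ^ 2 * b₀ - 4 * (b₀ : K) ^ 2)) ≤ 1 := by
    have := ((2 * a₀ ^ 2 - 6 * b₀) * x₀ ^ 2 + (2 * a₀ ^ 3 - 7 * a₀ * b₀) * x₀
      + (a₀ ^ 2 * b₀ - 4 * b₀ ^ 2) : v.integer).2
    rw [Valuation.mem_integer_iff] at this
    push_cast at this
    exact this
  have hf' : v (3 * (x₀ : K) ^ 2 + 2 * a₀ * x₀ + b₀) ≤ 1 := by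
    have := (3 * x₀ ^ 2 + 2 * a₀ * x₀ + b₀ : v.integer).2
    rw [Valuation.mem_integer_iff] at this
    push_cast at this
    exact this
  have hd : v ((a₀ : K) ^ 2 - 4 * b₀) ≤ 1 := by
    have := (a₀ ^ 2 - 4 * b₀ : v.integer).2
    rw [Valuation.mem_integer_iff] at this
    push_cast at this
    exact this
  have hf'lt : v (3 * (x₀ : K) ^ 2 + 2 * a₀ * x₀ + b₀) < 1 := lt_of_le_of_ne hf' hc2
  have hylt : v y < 1 := by
    rw [map_mul, h2, one_mul] at hc1
    exact lt_of_le_of_ne hy hc1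
  have hf : v ((x₀ : K) ^ 3 + a₀ * (x₀ : K) ^ 2 + b₀ * x₀) < 1 := by
    unfold LegEq at h
    rw [← h, map_pow]
    exact pow_lt_one₀ zero_le hylt two_ne_zero
  have hlt : v ((b₀ : K) ^ 2 * ((a₀ : K) ^ 2 - 4 * b₀)) < 1 := by
    rw [← disc_bezout (a₀ : K) b₀ x₀]
    refine v.map_add_lt ?_ ?_
    · rw [map_mul]; exact lt_of_le_of_lt (mul_le_of_le_one_left' hU) hf
    · rw [map_mul]; exact lt_of_le_of_lt (mul_le_of_le_one_left' hV) hf'lt
  have hb1 : v (b₀ : K) = 1 := by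
    refine le_antisymm hb ?_
    rw [map_mul] at hΔ
    calc (1 : Γ₀) = v (b₀ : K) * v ((a₀ : K) ^ 2 - 4 * b₀) := hΔ.symm
      _ ≤ v (b₀ : K) := mul_le_of_le_one_right' hd
  have : v ((b₀ : K) ^ 2 * ((a₀ : K) ^ 2 - 4 * b₀)) = 1 := by
    have e : (b₀ : K) ^ 2 * ((a₀ : K) ^ 2 - 4 * b₀) = b₀ * (b₀ * ((a₀ : K) ^ 2 - 4 * b₀)) := by
      ring
    rw [e, map_mul, hΔ, hb1, one_mul]
  exact absurd this (ne_of_lt hlt)

end L3

section L3point

variable {R S K : Type*} [CommRing R] [CommRing S] [Field K] [DecidableEq K]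
  {W' : Affine R} [Algebra R S] [Algebra R K] [Algebra S K] [IsScalarTower R S K]
  {Γ₀ : Type*} [LinearOrderedCommGroupWithZero Γ₀] (v : Valuation K Γ₀)

/-- Final step shared by all cases: if `σ P - P` lies in the kernel of reduction, `P` is
`n`-torsion and the kernel of reduction has no `n`-torsion, then `σ P = P`. -/
theorem map_eq_self_of_inE1_sub (σ : K ≃ₐ[S] K) (n : ℕ)
    (hL1 : ∀ Q : (W'⁄K).Point, InE1 v Q → n • Q = 0 → Q = 0)
    (P : (W'⁄K).Point) (hP : n • P = 0) (key : InE1 v (Point.map σ.toAlgHom P - P)) :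
    Point.map σ.toAlgHom P = P := by
  have hn : n • (Point.map σ.toAlgHom P - P) = 0 := by
    rw [nsmul_sub, ← map_nsmul, hP, map_zero, sub_zero]
  exact sub_eq_zero.mp (hL1 _ key hn)

/-- An integral point with nonsingular reduction is moved by `σ` (trivial on the residue field)
inside its residue class: `σ P - P` lies in the kernel of reduction. -/
theorem inE1_map_sub_of_integral (hW : IsLeg (W'⁄K)) (ha : v (W'⁄K).a₂ ≤ 1)
    (σ : K ≃ₐ[S] K) (hσ : ∀ x : K, v x ≤ 1 → v (σ x - x) < 1)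
    {x y : K} (h : (W'⁄K).Nonsingular x y) (hx : v x ≤ 1) (hy : v y ≤ 1)
    (hns : v (2 * y) = 1 ∨ v (3 * x ^ 2 + 2 * (W'⁄K).a₂ * x + (W'⁄K).a₄) = 1) :
    InE1 v (Point.map σ.toAlgHom (Point.some x y h) - Point.some x y h) := by
  rw [Point.map_some]
  exact inE1_sub_of_same_red v hW ha h _ hx (hσ x hx) (hσ y hy) hns

/-- **L3 (good reduction).** Let `W'⁄K` be `y² = x³ + a x² + b x` with `a`, `b` integral and
`2`, `b (a² - 4 b)` units for the valuation `v`. Let `σ` be an automorphism of `K` with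
`v (σ x - x) < 1` for all integral `x` (e.g. an element of an inertia group). If the kernel of
reduction has no `n`-torsion (`hL1`, which is layer L1 when `n` is a unit), then `σ` fixes every
`n`-torsion point. -/
theorem map_eq_self_of_good (hW : IsLeg (W'⁄K)) (ha : v (W'⁄K).a₂ ≤ 1) (hb : v (W'⁄K).a₄ ≤ 1)
    (h2 : v 2 = 1) (hΔ : v ((W'⁄K).a₄ * ((W'⁄K).a₂ ^ 2 - 4 * (W'⁄K).a₄)) = 1)
    (σ : K ≃ₐ[S] K) (hσ : ∀ x : K, v x ≤ 1 → v (σ x - x) < 1)
    (n : ℕ) (hL1 : ∀ Q : (W'⁄K).Point, InE1 v Q → n • Q = 0 → Q = 0)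
    (P : (W'⁄K).Point) (hP : n • P = 0) : Point.map σ.toAlgHom P = P := by
  refine map_eq_self_of_inE1_sub v σ n hL1 P hP ?_
  rcases P with _ | ⟨x, y, h⟩
  · rw [show (Point.zero : (W'⁄K).Point) = 0 from rfl, map_zero, sub_zero]
    exact (show InE1 v (Point.zero : (W'⁄K).Point) from trivial)
  · by_cases hx : v x ≤ 1
    · have hE := (hW.equation_iff x y).mp h.1
      have hy := val_y_le_one v ha hb hx hE
      exact inE1_map_sub_of_integral v hW ha σ hσ h hx hy
        (nonsingular_red_of_good v ha hb h2 hΔ hx hE)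
    · exfalso
      have h0 : (Point.some x y h : (W'⁄K).Point) = 0 := hL1 _ (lt_of_not_ge hx) hP
      exact Point.some_ne_zero h h0

/-- **L3**, for elements of `Submodule.torsionBy ℤ _ n` (the shape used in the statement of
S05). -/
theorem map_eq_self_of_good_torsionBy (hW : IsLeg (W'⁄K)) (ha : v (W'⁄K).a₂ ≤ 1)
    (hb : v (W'⁄K).a₄ ≤ 1) (h2 : v 2 = 1)
    (hΔ : v ((W'⁄K).a₄ * ((W'⁄K).a₂ ^ 2 - 4 * (W'⁄K).a₄)) = 1)
    (σ : K ≃ₐ[S] K) (hσ : ∀ x : K, v x ≤ 1 → v (σ x - x) < 1)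
    (n : ℕ) (hL1 : ∀ Q : (W'⁄K).Point, InE1 v Q → n • Q = 0 → Q = 0)
    (x : Submodule.torsionBy ℤ (W'⁄K).Point n) :
    Point.map σ.toAlgHom (x : (W'⁄K).Point) = x := by
  refine map_eq_self_of_good v hW ha hb h2 hΔ σ hσ n hL1 _ ?_
  have := x.2
  rw [Submodule.mem_torsionBy_iff] at this
  rw [← natCast_zsmul]
  exact this

end L3point

section LocalGood

variable {F K : Type*} [Field F] [Field K] [Algebra F K] [DecidableEq K] {Γ₀ : Type*}
  [LinearOrderedCommGroupWithZero Γ₀] (v : Valuation K Γ₀)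

omit [DecidableEq K] in
/-- Base change of a Legendre-type curve is of Legendre type. -/
theorem isLeg_baseChange {W₀ : Affine F} (hW : IsLeg W₀) : IsLeg (W₀⁄K) :=
  ⟨by simp [hW.a₁], by simp [hW.a₃], by simp [hW.a₆]⟩

/-- **Local theorem, good reduction** (exact statement of task 69 of the S05 plan): for a curve
`y² = x³ + a x² + b x` over `F` with `a`, `b` integral and `2`, `b (a² - 4 b)`, `p` units for the
valuation `v` of `K`, an `F`-automorphism `σ` of `K` that moves integral elements by elements of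
the maximal ideal fixes every `p`-torsion point. -/
theorem fixed_of_good (W₀ : Affine F) (hW : IsLeg W₀) (σ : K ≃ₐ[F] K)
    (hσ : ∀ x : K, v x ≤ 1 → v (σ x - x) < 1)
    (h2 : v 2 = 1) (ha : v (algebraMap F K W₀.a₂) ≤ 1) (hb : v (algebraMap F K W₀.a₄) ≤ 1)
    (hΔ : v (algebraMap F K (W₀.a₄ * (W₀.a₂ ^ 2 - 4 * W₀.a₄))) = 1)
    {p : ℕ} (hpv : v (p : K) = 1) (P : (W₀⁄K).Point) (hP : p • P = 0) :
    Point.map (W' := W₀) σ.toAlgHom P = P := by
  have hW' : IsLeg (W₀⁄K) := isLeg_baseChange hW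
  have ha' : v (W₀⁄K).a₂ ≤ 1 := ha
  have hb' : v (W₀⁄K).a₄ ≤ 1 := hb
  have hΔ' : v ((W₀⁄K).a₄ * ((W₀⁄K).a₂ ^ 2 - 4 * (W₀⁄K).a₄)) = 1 := by
    have e : (W₀⁄K).a₄ * ((W₀⁄K).a₂ ^ 2 - 4 * (W₀⁄K).a₄)
        = algebraMap F K (W₀.a₄ * (W₀.a₂ ^ 2 - 4 * W₀.a₄)) := by
      rw [map_mul, map_sub, map_pow, map_mul, map_ofNat]
      rfl
    rw [e]; exact hΔ
  exact map_eq_self_of_good (W' := W₀) v hW' ha' hb' h2 hΔ' σ hσ p
    (fun Q hQ h => E1_torsion_free v hW' ha' hb' hpv hQ h) P hP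

end LocalGood

end Fermat.Agent.S05.GoodRed
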