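/-
S05 helper library: a ring endomorphism `σ` of a field `K` that fixes the coefficients of a
Weierstrass curve `W` over `K` acts additively on the nonsingular points of `W`
(coordinatewise).  Compatibility with Mathlib's `Point.map` for base-changed curves.
-/
import Mathlib

set_option autoImplicit false

namespace Fermat.Agent.S05.SigmaMap

open WeierstrassCurve WeierstrassCurve.Affine

variable {K : Type*} [Field K]

section formulas

variable {W : Affine K} {σ : K →+* K}

theorem sigma_nonsingular (hσ : W.map σ = W) {x y : K} (h : W.Nonsingular x y) :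
    W.Nonsingular (σ x) (σ y) := by
  have := (W.map_nonsingular σ.injective x y).mpr h
  rwa [hσ] at this

theorem sigma_nonsingular_iff (hσ : W.map σ = W) (x y : K) :
    W.Nonsingular (σ x) (σ y) ↔ W.Nonsingular x y := by
  have := W.map_nonsingular σ.injective x y
  rwa [hσ] at this

theorem sigma_negY (hσ : W.map σ = W) (x y : K) : W.negY (σ x) (σ y) = σ (W.negY x y) := by
  have := map_negY (W' := W) σ x y
  rwa [hσ] at this

theorem sigma_addX (hσ : W.map σ = W) (x₁ x₂ l : K) :
    W.addX (σ x₁) (σ x₂) (σ l) = σ (W.addX x₁ x₂ l) := by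
  have := map_addX (W' := W) σ x₁ x₂ l
  rwa [hσ] at this

theorem sigma_addY (hσ : W.map σ = W) (x₁ x₂ y₁ l : K) :
    W.addY (σ x₁) (σ x₂) (σ y₁) (σ l) = σ (W.addY x₁ x₂ y₁ l) := by
  have := map_addY (W' := W) σ x₁ y₁ x₂ l
  rwa [hσ] at this

theorem sigma_slope [DecidableEq K] (hσ : W.map σ = W) (x₁ x₂ y₁ y₂ : K) :
    W.slope (σ x₁) (σ x₂) (σ y₁) (σ y₂) = σ (W.slope x₁ x₂ y₁ y₂) := by
  have := map_slope (W := W) σ x₁ x₂ y₁ y₂
  rwa [hσ] at this

end formulas

variable [DecidableEq K]

/-- A ring endomorphism `σ` of `K` fixing the coefficients of `W` (i.e. `W.map σ = W`) acts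
additively on the nonsingular points of `W`, coordinatewise. -/
noncomputable def sigmaMap (W : Affine K) (σ : K →+* K) (hσ : W.map σ = W) :
    W.Point →+ W.Point where
  toFun P := match P with
    | 0 => 0
    | .some x y h => .some (σ x) (σ y) (sigma_nonsingular hσ h)
  map_zero' := rfl
  map_add' := by
    rintro (_ | ⟨x₁, y₁, h₁⟩) (_ | ⟨x₂, y₂, h₂⟩)
    any_goals rfl
    by_cases hxy : x₁ = x₂ ∧ y₁ = W.negY x₂ y₂
    · rw [Point.add_of_Y_eq hxy.left hxy.right]
      exact (Point.add_of_Y_eq (congr_arg _ hxy.left) <| by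
        rw [hxy.right, sigma_negY hσ]).symm
    · have hxy' : ¬(σ x₁ = σ x₂ ∧ σ y₁ = W.negY (σ x₂) (σ y₂)) := fun h =>
        hxy ⟨σ.injective h.1, σ.injective (by rw [h.2, sigma_negY hσ])⟩
      rw [Point.add_some hxy]
      refine (Point.add_some hxy').symm ▸ ?_
      simp only [sigma_slope hσ, sigma_addX hσ, sigma_addY hσ]

@[simp] theorem sigmaMap_zero (W : Affine K) (σ : K →+* K) (hσ : W.map σ = W) :
    sigmaMap W σ hσ 0 = 0 := rfl

@[simp] theorem sigmaMap_some (W : Affine K) (σ : K →+* K) (hσ : W.map σ = W) {x y : K}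
    (h : W.Nonsingular x y) :
    sigmaMap W σ hσ (.some x y h) = .some (σ x) (σ y) (sigma_nonsingular hσ h) := rfl

/-- `n`-torsion is preserved by `σ`, in coordinates. -/
theorem sigma_nsmul_eq_zero (W : Affine K) (σ : K →+* K) (hσ : W.map σ = W) {x y : K}
    (h : W.Nonsingular x y) (n : ℕ) (hP : n • Point.some x y h = 0) :
    n • Point.some (σ x) (σ y) (sigma_nonsingular hσ h) = 0 := by
  rw [← sigmaMap_some W σ hσ h, ← map_nsmul, hP, map_zero]

/-- Mathlib's `Point.map` for a base-changed curve is `sigmaMap`. -/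
theorem pointMap_eq_sigmaMap {R : Type*} [CommRing R] [Algebra R K] (W' : Affine R)
    (σ : K →ₐ[R] K) (P : (W'⁄K).Point) :
    Point.map (W' := W') (S := R) σ P =
      sigmaMap (W'⁄K) (σ : K →+* K) (W'.map_baseChange σ) P := by
  cases P <;> rfl

end Fermat.Agent.S05.SigmaMap
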