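/-
S05 helper library, good reduction package (L2 + L3).

`W : y² = x³ + a x² + b x` over a valued field `(K, v)`, `a, b` integral.

* `inE1_sub_of_same_reduction` (L2): two points with the same reduction, nonsingular at one of
  them, differ by an element of the kernel of reduction `E1`.
* `good_nonsingular`: if `2`, `b`, `a² - 4 b` are units, every integral point has nonsingular
  reduction.
* `eq_of_same_reduction_of_torsion`: two `n`-torsion points with the same reduction are equal,
  provided `E1` has no `n`-torsion.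
* `sigma_fixes_torsion_good` (L3): an endomorphism `σ` of `K` acting trivially on the residue
  field and fixing `a`, `b` fixes the coordinates of all `n`-torsion points.

The hypothesis "`E1` has no `n`-torsion" (`hE1`) is kept abstract here; it is L1 (`KerRed.lean`).
-/
import Fermat.Agent.S05.Leg
import Fermat.Agent.S05.SigmaMap

set_option autoImplicit false

namespace Fermat.Agent.S05.GoodRed66

open WeierstrassCurve WeierstrassCurve.Affine Fermat.Agent.S05.SigmaMap

variable {K : Type*} [Field K] {Γ₀ : Type*} [LinearOrderedCommGroupWithZero Γ₀]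
  (v : Valuation K Γ₀)

section val

/-- `v l * v d = 1` and `v d < 1` force `1 < v l`. -/
theorem one_lt_of_mul_eq_one {l d : K} (h : v l * v d = 1) (hd : v d < 1) : 1 < v l := by
  by_contra hle
  rw [not_lt] at hle
  have : v l * v d < 1 := lt_of_le_of_lt (mul_le_of_le_one_left' hle) hd
  exact this.ne h

theorem val_three_le_one (h2 : v (2 : K) ≤ 1) : v (3 : K) ≤ 1 := by
  have : (3 : K) = 2 + 1 := by norm_num
  rw [this]
  exact v.map_add_le h2 v.map_one.le

theorem val_four_le_one (h2 : v (2 : K) ≤ 1) : v (4 : K) ≤ 1 := by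
  have : (4 : K) = 2 * 2 := by norm_num
  rw [this, map_mul]
  exact mul_le_one' h2 h2

theorem val_mul_le_one {x y : K} (hx : v x ≤ 1) (hy : v y ≤ 1) : v (x * y) ≤ 1 := by
  rw [map_mul]; exact mul_le_one' hx hy

theorem val_pow_le_one {x : K} (hx : v x ≤ 1) (n : ℕ) : v (x ^ n) ≤ 1 := by
  rw [map_pow]; exact pow_le_one' hx n

theorem val_mul_lt_one_left {x y : K} (hx : v x < 1) (hy : v y ≤ 1) : v (x * y) < 1 := by
  rw [map_mul]; exact lt_of_le_of_lt (mul_le_of_le_one_right' hy) hx

theorem val_mul_lt_one_right {x y : K} (hx : v x ≤ 1) (hy : v y < 1) : v (x * y) < 1 := by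
  rw [mul_comm]; exact val_mul_lt_one_left v hy hx

/-- Integrally closed: `v (y²) ≤ 1 → v y ≤ 1`. -/
theorem val_le_one_of_sq {y : K} (h : v (y ^ 2) ≤ 1) : v y ≤ 1 := by
  by_contra hy
  rw [not_le] at hy
  have : 1 < v (y ^ 2) := by rw [map_pow]; exact one_lt_pow' hy two_ne_zero
  exact (not_le.mpr this) h

theorem val_lt_one_of_sq {y : K} (h : v (y ^ 2) < 1) : v y < 1 := by
  by_contra hy
  rw [not_lt] at hy
  have : 1 ≤ v (y ^ 2) := by rw [map_pow]; exact one_le_pow_of_one_le' hy 2
  exact (not_lt.mpr this) h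

end val

section curve

variable {W : Affine K}

/-- On an integral Legendre curve, an affine point with integral `x` has integral `y`. -/
theorem val_y_le_one_of_isLeg (hW : IsLeg W) (ha : v W.a₂ ≤ 1) (hb : v W.a₄ ≤ 1) {x y : K}
    (h : W.Equation x y) (hx : v x ≤ 1) : v y ≤ 1 := by
  have hE : y ^ 2 = x ^ 3 + W.a₂ * x ^ 2 + W.a₄ * x := (hW.equation_iff x y).mp h
  apply val_le_one_of_sq v
  rw [hE]
  exact v.map_add_le (v.map_add_le (val_pow_le_one v hx 3)
    (val_mul_le_one v ha (val_pow_le_one v hx 2))) (val_mul_le_one v hb hx)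

/-- Good reduction: if `2`, `b` and `a² - 4b` are units then every integral point of
`y² = x³ + a x² + b x` has nonsingular reduction. -/
theorem good_nonsingular (hW : IsLeg W) (ha : v W.a₂ ≤ 1) (hb : v W.a₄ = 1)
    (hd : v (W.a₂ ^ 2 - 4 * W.a₄) = 1) (h2 : v (2 : K) = 1) {x y : K} (h : W.Equation x y)
    (hx : v x ≤ 1) :
    v (2 * y) = 1 ∨ v (3 * x ^ 2 + 2 * W.a₂ * x + W.a₄) = 1 := by
  have hE : y ^ 2 = x ^ 3 + W.a₂ * x ^ 2 + W.a₄ * x := (hW.equation_iff x y).mp h
  have hy : v y ≤ 1 := val_y_le_one_of_isLeg v hW ha hb.le h hx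
  generalize W.a₂ = a at *
  generalize W.a₄ = b at *
  by_contra hcon
  rw [not_or] at hcon
  obtain ⟨h1, h2'⟩ := hcon
  have h3 : v (3 : K) ≤ 1 := val_three_le_one v h2.le
  have h4 : v (4 : K) ≤ 1 := val_four_le_one v h2.le
  have hf' : v (3 * x ^ 2 + 2 * a * x + b) ≤ 1 :=
    v.map_add_le (v.map_add_le (val_mul_le_one v h3 (val_pow_le_one v hx 2))
      (val_mul_le_one v (val_mul_le_one v h2.le ha) hx)) hb.le
  have hf'lt : v (3 * x ^ 2 + 2 * a * x + b) < 1 := lt_of_le_of_ne hf' h2'
  have hylt : v y < 1 := by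
    have h2y : v (2 * y) ≤ 1 := val_mul_le_one v h2.le hy
    have := lt_of_le_of_ne h2y h1
    rwa [map_mul, h2, one_mul] at this
  rcases lt_or_eq_of_le hx with hxlt | hxeq
  · -- `v x < 1`: then `b` is a nonunit
    have e : b = (3 * x ^ 2 + 2 * a * x + b) - x * (3 * x + 2 * a) := by ring
    have hb' : v b < 1 := by
      rw [e]
      refine v.map_sub_lt hf'lt (val_mul_lt_one_left v hxlt ?_)
      exact v.map_add_le (val_mul_le_one v h3 hx) (val_mul_le_one v h2.le ha)
    exact hb'.ne hb
  · -- `v x = 1`: then `x² + a x + b` and `2 x + a` are nonunits, so is `a² - 4 b`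
    have hg : v (x ^ 2 + a * x + b) < 1 := by
      have e : y ^ 2 = x * (x ^ 2 + a * x + b) := by rw [hE]; ring
      have hv : v (y ^ 2) = v (x ^ 2 + a * x + b) := by rw [e, map_mul, hxeq, one_mul]
      rw [← hv, map_pow]
      exact pow_lt_one' hylt two_ne_zero
    have h2xa : v (2 * x + a) < 1 := by
      have e : x * (2 * x + a) = (3 * x ^ 2 + 2 * a * x + b) - (x ^ 2 + a * x + b) := by ring
      have : v (x * (2 * x + a)) < 1 := by rw [e]; exact v.map_sub_lt hf'lt hg
      rwa [map_mul, hxeq, one_mul] at this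
    have e : a ^ 2 - 4 * b = (2 * x + a) ^ 2 - 4 * (x ^ 2 + a * x + b) := by ring
    have hd' : v (a ^ 2 - 4 * b) < 1 := by
      rw [e]
      refine v.map_sub_lt ?_ (val_mul_lt_one_right v h4 hg)
      rw [map_pow]
      exact pow_lt_one' h2xa two_ne_zero
    exact hd'.ne hd

variable [DecidableEq K]

/-- **L2** (same reduction).  Two affine points of an integral Legendre curve which are congruent
modulo the maximal ideal, the reduction being nonsingular at the first one, differ by an element
of the kernel of reduction. -/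
theorem inE1_sub_of_same_reduction (hW : IsLeg W) (ha : v W.a₂ ≤ 1) {x y x' y' : K}
    (h : W.Nonsingular x y) (h' : W.Nonsingular x' y') (hx : v x ≤ 1) (hxx : v (x - x') < 1)
    (hyy : v (y - y') < 1)
    (hns : v (2 * y) = 1 ∨ v (3 * x ^ 2 + 2 * W.a₂ * x + W.a₄) = 1) :
    InE1 v (Point.some x y h - Point.some x' y' h') := by
  by_cases heq : x = x' ∧ y = y'
  · obtain ⟨rfl, rfl⟩ := heq
    rw [sub_self]
    trivial
  · rw [sub_eq_add_neg, hW.neg_some h']
    obtain ⟨l, n, x₃, y₃, h₃, hadd, hV⟩ :=
      hW.add_vieta h (hW.nonsingular_neg h') (by simpa using heq)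
    rw [hadd]
    show 1 < v x₃
    have hx' : v x' ≤ 1 := by
      have e : x' = x - (x - x') := by ring
      rw [e]
      exact v.map_sub_le hx hxx.le
    have hl : 1 < v l := by
      rcases hns with h2y | hder
      · have e := hV.l_mul_sub
        have hyy' : v (y - -y') = 1 := by
          have e' : y - -y' = 2 * y - (y - y') := by ring
          rw [e', Valuation.map_sub_eq_of_lt_left _ (by rw [h2y]; exact hyy), h2y]
        exact one_lt_of_mul_eq_one v (by rw [← map_mul, e, hyy']) hxx
      · have e := hV.l_mul_add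
        have e' : x ^ 2 + x * x' + x' ^ 2 + W.a₂ * (x + x') + W.a₄ =
            (3 * x ^ 2 + 2 * W.a₂ * x + W.a₄) - (x - x') * (2 * x + x' + W.a₂) := by ring
        have h2 : v (2 : K) ≤ 1 := by
          have : (2 : K) = 1 + 1 := by norm_num
          rw [this]; exact v.map_add_le v.map_one.le v.map_one.le
        have hs : v ((x - x') * (2 * x + x' + W.a₂)) < 1 :=
          val_mul_lt_one_left v hxx
            (v.map_add_le (v.map_add_le (val_mul_le_one v h2 hx) hx') ha)
        have hval : v (l * (y + -y')) = 1 := by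
          rw [e, e', Valuation.map_sub_eq_of_lt_left _ (by rw [hder]; exact hs), hder]
        have e'' : y + -y' = y - y' := by ring
        rw [e'', map_mul] at hval
        exact one_lt_of_mul_eq_one v hval hyy
    have e1 := hV.e₁
    have e : x₃ = l ^ 2 - (W.a₂ + x + x') := by linear_combination e1
    have hl2 : 1 < v (l ^ 2) := by rw [map_pow]; exact one_lt_pow' hl two_ne_zero
    have hs : v (W.a₂ + x + x') ≤ 1 := v.map_add_le (v.map_add_le ha hx) hx'
    rw [e, Valuation.map_sub_eq_of_lt_left _ (lt_of_le_of_lt hs hl2)]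
    exact hl2

/-- Torsion points of order prime to the residue characteristic are integral (given that the
kernel of reduction has no `n`-torsion). -/
theorem val_x_le_one_of_torsion {n : ℕ}
    (hE1 : ∀ D : W.Point, InE1 v D → n • D = 0 → D = 0) {x y : K} (h : W.Nonsingular x y)
    (hP : n • Point.some x y h = 0) : v x ≤ 1 := by
  by_contra hx
  rw [not_le] at hx
  have h0 := hE1 (Point.some x y h) hx hP
  exact Point.some_ne_zero h h0

/-- Two `n`-torsion points with the same reduction coincide (good reduction, `E1` without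
`n`-torsion). -/
theorem eq_of_same_reduction_of_torsion (hW : IsLeg W) (ha : v W.a₂ ≤ 1) (hb : v W.a₄ = 1)
    (hd : v (W.a₂ ^ 2 - 4 * W.a₄) = 1) (h2 : v (2 : K) = 1) {n : ℕ}
    (hE1 : ∀ D : W.Point, InE1 v D → n • D = 0 → D = 0) {x y x' y' : K}
    (h : W.Nonsingular x y) (h' : W.Nonsingular x' y') (hxx : v (x - x') < 1)
    (hyy : v (y - y') < 1) (hP : n • Point.some x y h = 0)
    (hP' : n • Point.some x' y' h' = 0) : x = x' ∧ y = y' := by
  have hx := val_x_le_one_of_torsion v hE1 h hP
  have hD := inE1_sub_of_same_reduction v hW ha h h' hx hxx hyy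
    (good_nonsingular v hW ha hb hd h2 h.1 hx)
  have h0 := hE1 _ hD (by rw [nsmul_sub, hP, hP', sub_zero])
  have h1 := sub_eq_zero.mp h0
  simpa using h1

/-- **L3** (good reduction), valuation form: an endomorphism `σ` of `K` fixing the coefficients
of `W` and acting trivially modulo the maximal ideal fixes the coordinates of every `n`-torsion
point, provided the kernel of reduction has no `n`-torsion. -/
theorem sigma_fixes_torsion_good (hW : IsLeg W) (ha : v W.a₂ ≤ 1) (hb : v W.a₄ = 1)
    (hd : v (W.a₂ ^ 2 - 4 * W.a₄) = 1) (h2 : v (2 : K) = 1) {n : ℕ}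
    (hE1 : ∀ D : W.Point, InE1 v D → n • D = 0 → D = 0) (σ : K →+* K) (hσW : W.map σ = W)
    (hσ : ∀ x, v x ≤ 1 → v (σ x - x) < 1) {x y : K} (h : W.Nonsingular x y)
    (hP : n • Point.some x y h = 0) : σ x = x ∧ σ y = y := by
  have hx := val_x_le_one_of_torsion v hE1 h hP
  have hy : v y ≤ 1 := val_y_le_one_of_isLeg v hW ha hb.le h.1 hx
  exact eq_of_same_reduction_of_torsion v hW ha hb hd h2 hE1 (sigma_nonsingular hσW h) h
    (hσ x hx) (hσ y hy) (sigma_nsmul_eq_zero W σ hσW h n hP) hP

end curve

section subring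

variable [DecidableEq K] (A : ValuationSubring K)

omit [DecidableEq K] in
theorem valuation_eq_one_of_mem_of_notMem_nonunits {x : K} (hx : x ∈ A)
    (hx' : x ∉ A.nonunits) : A.valuation x = 1 :=
  le_antisymm ((A.valuation_le_one_iff x).mpr hx)
    (not_lt.mp fun h => hx' (A.mem_nonunits_iff.mpr h))

omit [DecidableEq K] in
/-- The literal Legendre curve `y² = x³ + a x² + b x` is fixed by `σ` if `a` and `b` are. -/
theorem legendre_map_eq {a b : K} (σ : K →+* K) (hσa : σ a = a) (hσb : σ b = b) :
    (⟨0, a, 0, b, 0⟩ : WeierstrassCurve K).toAffine.map σ = ⟨0, a, 0, b, 0⟩ := by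
  simp [WeierstrassCurve.map, hσa, hσb]

omit [DecidableEq K] in
theorem isLeg_legendre (a b : K) : IsLeg (⟨0, a, 0, b, 0⟩ : WeierstrassCurve K).toAffine :=
  ⟨rfl, rfl, rfl⟩

/-- **L3** (good reduction), valuation-subring form for the literal curve
`y² = x³ + a x² + b x`: if `a, b ∈ A`, and `2`, `b (a² - 4 b)` are units of `A`, a ring
endomorphism `σ` of `K` fixing `a`, `b` and acting trivially on `A` modulo its maximal ideal
fixes the coordinates of every `n`-torsion point, provided the kernel of reduction has no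
`n`-torsion (`hE1`, which is L1 for `n` a unit of `A`). -/
theorem fixes_torsion_good_of_E1 {a b : K} (ha : a ∈ A) (hb : b ∈ A)
    (h2 : (2 : K) ∉ A.nonunits) (hdisc : b * (a ^ 2 - 4 * b) ∉ A.nonunits)
    (σ : K →+* K) (hσ : ∀ x ∈ A, σ x - x ∈ A.nonunits) (hσa : σ a = a) (hσb : σ b = b)
    (n : ℕ)
    (hE1 : ∀ D : (⟨0, a, 0, b, 0⟩ : WeierstrassCurve K).toAffine.Point,
      InE1 A.valuation D → n • D = 0 → D = 0)
    {x y : K} (h : (⟨0, a, 0, b, 0⟩ : WeierstrassCurve K).toAffine.Nonsingular x y)
    (hP : n • Point.some x y h = 0) : σ x = x ∧ σ y = y := by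
  have hva : A.valuation a ≤ 1 := (A.valuation_le_one_iff a).mpr ha
  have hvb : A.valuation b ≤ 1 := (A.valuation_le_one_iff b).mpr hb
  have h2A : (2 : K) ∈ A := by
    have : (2 : K) = 1 + 1 := by norm_num
    rw [this]; exact A.add_mem _ _ A.one_mem A.one_mem
  have hv2 : A.valuation (2 : K) = 1 := valuation_eq_one_of_mem_of_notMem_nonunits A h2A h2
  have hvd : A.valuation (a ^ 2 - 4 * b) ≤ 1 :=
    A.valuation.map_sub_le (val_pow_le_one _ hva 2)
      (val_mul_le_one _ (val_four_le_one _ hv2.le) hvb)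
  have hprod : ¬ A.valuation (b * (a ^ 2 - 4 * b)) < 1 := fun h =>
    hdisc (A.mem_nonunits_iff.mpr h)
  have hvb1 : A.valuation b = 1 :=
    le_antisymm hvb (not_lt.mp fun h => hprod (val_mul_lt_one_left _ h hvd))
  have hvd1 : A.valuation (a ^ 2 - 4 * b) = 1 :=
    le_antisymm hvd (not_lt.mp fun h => hprod (val_mul_lt_one_right _ hvb h))
  exact sigma_fixes_torsion_good A.valuation (isLeg_legendre a b) hva hvb1 hvd1 hv2 hE1 σ
    (legendre_map_eq σ hσa hσb)
    (fun x hx => A.mem_nonunits_iff.mp (hσ x ((A.valuation_le_one_iff x).mp hx))) h hP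

end subring

end Fermat.Agent.S05.GoodRed66
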