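/-
S05 helper library: a field automorphism `σ` fixing the coefficients of a Weierstrass curve `W`
over a field `K` acts on the points of `W` by a group homomorphism (coordinatewise).
-/
import Mathlib

set_option autoImplicit false

namespace Fermat.Agent.S05.SigmaHom

open WeierstrassCurve WeierstrassCurve.Affine

variable {K : Type*} [Field K] [DecidableEq K]

/-- A ring automorphism fixing the five coefficients of a Weierstrass curve induces an additive
endomorphism of its group of points, acting on coordinates. -/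
theorem exists_pointHom (σ : K ≃+* K) (W : WeierstrassCurve K)
    (h₁ : σ W.a₁ = W.a₁) (h₂ : σ W.a₂ = W.a₂) (h₃ : σ W.a₃ = W.a₃) (h₄ : σ W.a₄ = W.a₄)
    (h₆ : σ W.a₆ = W.a₆) :
    ∃ φ : W.toAffine.Point →+ W.toAffine.Point, ∀ (x y : K) (h : W.toAffine.Nonsingular x y),
      ∃ h' : W.toAffine.Nonsingular (σ x) (σ y), φ (Point.some x y h) = Point.some (σ x) (σ y) h' := by
  let F₀ : Subfield K := RingHom.eqLocusField (σ : K →+* K) (RingHom.id K)
  let W₀ : WeierstrassCurve F₀ := ⟨⟨W.a₁, h₁⟩, ⟨W.a₂, h₂⟩, ⟨W.a₃, h₃⟩, ⟨W.a₄, h₄⟩, ⟨W.a₆, h₆⟩⟩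
  have hW : W = W₀⁄K := by
    ext <;> rfl
  let f : K →ₐ[F₀] K := { (σ : K →+* K) with commutes' := fun r => r.2 }
  clear_value W₀
  subst hW
  exact ⟨Point.map f, fun x y h => ⟨_, Point.map_some f h⟩⟩

/-- Literal form for the curve `y² = x³ + a x² + b x`. -/
theorem exists_pointHom_leg (σ : K ≃+* K) {a b : K} (hσa : σ a = a) (hσb : σ b = b) :
    ∃ φ : (⟨0, a, 0, b, 0⟩ : WeierstrassCurve K).toAffine.Point →+
        (⟨0, a, 0, b, 0⟩ : WeierstrassCurve K).toAffine.Point,
      ∀ (x y : K) (h : (⟨0, a, 0, b, 0⟩ : WeierstrassCurve K).toAffine.Nonsingular x y),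
      ∃ h' : (⟨0, a, 0, b, 0⟩ : WeierstrassCurve K).toAffine.Nonsingular (σ x) (σ y),
        φ (Point.some x y h) = Point.some (σ x) (σ y) h' :=
  exists_pointHom σ ⟨0, a, 0, b, 0⟩ (map_zero σ) hσa (map_zero σ) hσb (map_zero σ)

end Fermat.Agent.S05.SigmaHom
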