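/-
S05 helper library, layer V: valuation estimates for the "Vieta form" of the group law on
`y² = x³ + a x² + b x` with `a`, `b` integral.  If the two summands have non-integral
`x`-coordinates then so does the sum, and the parameter `z = x / y` is additive up to second
order terms.
-/
import Fermat.Agent.S05.Leg

set_option autoImplicit false

namespace Fermat.Agent.S05

namespace VE1

variable {K : Type*} [Field K] {Γ₀ : Type*} [LinearOrderedCommGroupWithZero Γ₀]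
  (v : Valuation K Γ₀)
variable {a b x y x₁ y₁ x₂ y₂ x₃ y₃ l n : K}

theorem ne_zero_of_one_lt (hx : 1 < v x) : x ≠ 0 := by
  rintro rfl
  simp at hx

theorem v_inv_lt_one (hx : 1 < v x) : v x⁻¹ < 1 := by
  rw [map_inv₀]
  exact inv_lt_one_of_one_lt₀ hx

theorem v_two_le_one : v (2 : K) ≤ 1 := by
  have h2 : (2 : K) = 1 + 1 := by norm_num
  rw [h2]
  exact v.map_add_le v.map_one.le v.map_one.le

theorem v_unit (ha : v a ≤ 1) (hb : v b ≤ 1) (hx : 1 < v x) :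
    v (1 + (a * x⁻¹ + b * x⁻¹ * x⁻¹)) = 1 := by
  have hi := v_inv_lt_one v hx
  apply Valuation.map_one_add_of_lt
  apply Valuation.map_add_lt
  · rw [map_mul]
    exact mul_lt_one_of_nonneg_of_lt_one_right ha zero_le hi
  · rw [map_mul, map_mul]
    exact mul_lt_one_of_nonneg_of_lt_one_right (mul_le_one' hb hi.le) zero_le hi

/-- Basic facts about a point of `y² = x³ + a x² + b x` with non-integral `x`. -/
theorem pt (ha : v a ≤ 1) (hb : v b ≤ 1) (h : LegEq a b x y) (hx : 1 < v x) :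
    x ≠ 0 ∧ y ≠ 0 ∧ v (y ^ 2 / x ^ 3) = 1 ∧ v (x / y) ^ 2 * v x = 1 ∧ v (x / y) < 1 := by
  have hx0 := ne_zero_of_one_lt v hx
  have hu : y ^ 2 / x ^ 3 = 1 + (a * x⁻¹ + b * x⁻¹ * x⁻¹) := by
    unfold LegEq at h
    field_simp
    linear_combination h
  have hvu : v (y ^ 2 / x ^ 3) = 1 := by rw [hu]; exact v_unit v ha hb hx
  have hy0 : y ≠ 0 := by
    rintro rfl
    simp at hvu
  have hid : (x / y) ^ 2 * x * (y ^ 2 / x ^ 3) = 1 := by
    field_simp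
  have hvid : v (x / y) ^ 2 * v x = 1 := by
    have := congrArg v hid
    rwa [map_mul, map_mul, map_pow, hvu, mul_one, map_one] at this
  refine ⟨hx0, hy0, hvu, hvid, ?_⟩
  by_contra hcon
  have hcon' : 1 ≤ v (x / y) := not_lt.mp hcon
  have h1 : 1 ≤ v (x / y) ^ 2 := Left.one_le_pow_of_le hcon' 2
  have h2 : 1 < v (x / y) ^ 2 * v x := by
    calc 1 < v x := hx
      _ = 1 * v x := (one_mul _).symm
      _ ≤ v (x / y) ^ 2 * v x := mul_le_mul_left h1 _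
  rw [hvid] at h2
  exact lt_irrefl _ h2

/-- The core computation: `n⁻¹ = (t₁ + t₂) t₁ t₂ ε` with `ε` a unit, and
`x₃ (t₁ + t₂)² = unit`, where `tᵢ = xᵢ / yᵢ`. -/
theorem core (ha : v a ≤ 1) (hb : v b ≤ 1)
    (hV : Vieta a b x₁ y₁ x₂ y₂ x₃ y₃ l n) (h₁ : LegEq a b x₁ y₁) (h₂ : LegEq a b x₂ y₂)
    (hx₁ : 1 < v x₁) (hx₂ : 1 < v x₂) :
    n ≠ 0 ∧ v n⁻¹ = v (x₁ / y₁ + x₂ / y₂) * v (x₁ / y₁) * v (x₂ / y₂) ∧
      v x₃ * v (x₁ / y₁ + x₂ / y₂) ^ 2 = 1 ∧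
      ∃ ε : K, v ε = 1 ∧ l * n⁻¹ = (x₁ / y₁ + x₂ / y₂) * (x₁ / y₁) * ε - x₂⁻¹ := by
  obtain ⟨hx₁0, hy₁0, hu₁, hid₁, -⟩ := pt v ha hb h₁ hx₁
  obtain ⟨hx₂0, hy₂0, hu₂, hid₂, -⟩ := pt v ha hb h₂ hx₂
  have hx12 : 1 < v (x₁ * x₂) := by
    rw [map_mul]
    calc (1 : Γ₀) < v x₁ := hx₁
      _ = v x₁ * 1 := (mul_one _).symm
      _ ≤ v x₁ * v x₂ := mul_le_mul_right hx₂.le _
  have hw : v (b - x₁ * x₂) = v (x₁ * x₂) :=
    Valuation.map_sub_eq_of_lt_right v (lt_of_le_of_lt hb hx12)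
  have hw0 : b - x₁ * x₂ ≠ 0 := by
    intro h0
    rw [h0, map_zero] at hw
    rw [← hw] at hx12
    simp at hx12
  set ε : K := (y₁ ^ 2 / x₁ ^ 3) * (y₂ ^ 2 / x₂ ^ 3) * (x₁ * x₂ / (b - x₁ * x₂)) with hε
  have hvε : v ε = 1 := by
    rw [hε, map_mul, map_mul, hu₁, hu₂, one_mul, one_mul, map_div₀, hw]
    exact div_self (ne_of_gt (lt_trans zero_lt_one hx12))
  set q : K := (x₁ / y₁ + x₂ / y₂) * (x₁ / y₁) * (x₂ / y₂) * ε with hq
  have hnq : n * q = 1 := by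
    have hnm := hV.n_mul_add
    rw [hq, hε]
    field_simp
    linear_combination hnm
  have hn0 : n ≠ 0 := by
    rintro rfl
    simp at hnq
  have hqinv : n⁻¹ = q := by
    rw [eq_comm, ← mul_right_inj' hn0, hnq, mul_inv_cancel₀ hn0]
  have hvq : v q = v (x₁ / y₁ + x₂ / y₂) * v (x₁ / y₁) * v (x₂ / y₂) := by
    rw [hq, map_mul, map_mul, map_mul, hvε, mul_one]
  have hx3 : x₃ * ((x₁ / y₁ + x₂ / y₂) ^ 2 * ε ^ 2 * ((x₁ / y₁) ^ 2 * x₁) *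
      ((x₂ / y₂) ^ 2 * x₂)) = 1 := by
    have he3 := hV.e₃
    have hq2 : (x₁ / y₁ + x₂ / y₂) ^ 2 * ε ^ 2 * ((x₁ / y₁) ^ 2 * x₁) * ((x₂ / y₂) ^ 2 * x₂)
        = q ^ 2 * (x₁ * x₂) := by
      rw [hq]; ring
    rw [hq2]
    linear_combination q ^ 2 * he3 + (n * q + 1) * hnq
  have hvx3 : v x₃ * v (x₁ / y₁ + x₂ / y₂) ^ 2 = 1 := by
    have := congrArg v hx3
    rwa [map_mul, map_mul, map_mul, map_mul, map_mul, map_mul, map_pow, map_pow, map_pow,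
      map_pow, hvε, hid₁, hid₂, one_pow, mul_one, mul_one, mul_one, map_one] at this
  refine ⟨hn0, by rw [hqinv, hvq], hvx3, ε, hvε, ?_⟩
  rw [hqinv]
  have hl2 := hV.line₂
  have hy2 : y₂ * q = (x₁ / y₁ + x₂ / y₂) * (x₁ / y₁) * ε * x₂ := by
    rw [hq]
    field_simp
  rw [eq_sub_iff_add_eq, ← mul_right_inj' hx₂0]
  rw [mul_add, mul_inv_cancel₀ hx₂0]
  linear_combination (-q) * hl2 + hy2 - hnq

end VE1

variable {K : Type*} [Field K] {Γ₀ : Type*} [LinearOrderedCommGroupWithZero Γ₀]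
  (v : Valuation K Γ₀)
variable {a b x₁ y₁ x₂ y₂ x₃ y₃ l n : K}

/-- The kernel of reduction is closed under addition (Vieta form): if `x₁`, `x₂` are
non-integral then so is `x₃`. -/
theorem vieta_E1_add (ha : v a ≤ 1) (hb : v b ≤ 1)
    (hV : Vieta a b x₁ y₁ x₂ y₂ x₃ y₃ l n) (h₁ : LegEq a b x₁ y₁) (h₂ : LegEq a b x₂ y₂)
    (hx₁ : 1 < v x₁) (hx₂ : 1 < v x₂) : 1 < v x₃ := by
  obtain ⟨-, -, -, -, ht₁⟩ := VE1.pt v ha hb h₁ hx₁
  obtain ⟨-, -, -, -, ht₂⟩ := VE1.pt v ha hb h₂ hx₂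
  obtain ⟨-, -, hvx3, -⟩ := VE1.core v ha hb hV h₁ h₂ hx₁ hx₂
  have hs : v (x₁ / y₁ + x₂ / y₂) < 1 := v.map_add_lt ht₁ ht₂
  have hs2 : v (x₁ / y₁ + x₂ / y₂) ^ 2 < 1 := pow_lt_one₀ zero_le hs two_ne_zero
  by_contra hcon
  have hcon' : v x₃ ≤ 1 := not_lt.mp hcon
  have : v x₃ * v (x₁ / y₁ + x₂ / y₂) ^ 2 < 1 :=
    mul_lt_one_of_nonneg_of_lt_one_right hcon' zero_le hs2
  rw [hvx3] at this
  exact lt_irrefl _ this

/-- The parameter `z = x / y` is additive on the kernel of reduction up to second order. -/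
theorem vieta_E1_z (ha : v a ≤ 1) (hb : v b ≤ 1)
    (hV : Vieta a b x₁ y₁ x₂ y₂ x₃ y₃ l n) (h₁ : LegEq a b x₁ y₁) (h₂ : LegEq a b x₂ y₂)
    (hx₁ : 1 < v x₁) (hx₂ : 1 < v x₂) :
    v (x₃ / y₃ - x₁ / y₁ - x₂ / y₂) ≤ max (v (x₁ / y₁)) (v (x₂ / y₂)) ^ 2 := by
  have hx₃ := vieta_E1_add v ha hb hV h₁ h₂ hx₁ hx₂
  obtain ⟨hx₁0, hy₁0, -, hid₁, ht₁⟩ := VE1.pt v ha hb h₁ hx₁
  obtain ⟨hx₂0, hy₂0, -, hid₂, ht₂⟩ := VE1.pt v ha hb h₂ hx₂
  obtain ⟨hx₃0, hy₃0, -, -, -⟩ := VE1.pt v ha hb hV.legEq₃ hx₃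
  obtain ⟨hn0, hvn, -, ε, hvε, hL⟩ := VE1.core v ha hb hV h₁ h₂ hx₁ hx₂
  set t₁ : K := x₁ / y₁ with ht₁def
  set t₂ : K := x₂ / y₂ with ht₂def
  set m : Γ₀ := max (v t₁) (v t₂) with hm
  have hm1 : v t₁ ≤ m := le_max_left _ _
  have hm2 : v t₂ ≤ m := le_max_right _ _
  have hs : v (t₁ + t₂) ≤ m := v.map_add _ _
  have hmlt : m < 1 := max_lt ht₁ ht₂
  -- the slope-to-intercept ratio is small
  have hvx2inv : v x₂⁻¹ = v t₂ ^ 2 := by
    rw [map_inv₀]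
    exact (eq_inv_of_mul_eq_one_left hid₂).symm
  have hvL : v (l * n⁻¹) < 1 := by
    rw [hL]
    apply v.map_sub_lt
    · rw [map_mul, map_mul, hvε, mul_one]
      exact mul_lt_one_of_nonneg_of_lt_one_right (hs.trans hmlt.le) zero_le ht₁
    · rw [hvx2inv]
      exact pow_lt_one₀ zero_le ht₂ two_ne_zero
  set L : K := l * n⁻¹ with hLdef
  have hden : v (1 - a * L + b * L ^ 2) = 1 := by
    have : 1 - a * L + b * L ^ 2 = 1 + (-(a * L) + b * L ^ 2) := by ring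
    rw [this]
    apply Valuation.map_one_add_of_lt
    apply v.map_add_lt
    · rw [Valuation.map_neg, map_mul]
      exact mul_lt_one_of_nonneg_of_lt_one_right ha zero_le hvL
    · rw [map_mul, map_pow]
      exact mul_lt_one_of_nonneg_of_lt_one_right hb zero_le
        (pow_lt_one₀ zero_le hvL two_ne_zero)
  have hnum : v (2 * b * L - a) ≤ 1 := by
    apply v.map_sub_le _ ha
    rw [map_mul, map_mul]
    exact mul_le_one' (mul_le_one' (VE1.v_two_le_one v) hb) hvL.le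
  -- the key identity
  obtain ⟨hz1, hz2⟩ := hV.z_sum
  set Z : K := x₃ / y₃ - t₁ - t₂ with hZdef
  have hZ : Z * (y₁ * y₂ * y₃) = x₃ * y₁ * y₂ - x₁ * y₂ * y₃ - x₂ * y₁ * y₃ := by
    rw [hZdef, ht₁def, ht₂def]
    field_simp
  have hA : Z * (n ^ 2 - a * l * n + b * l ^ 2) = -(2 * b * l - a * n) := by
    apply mul_left_cancel₀ hn0
    linear_combination (-1) * hZ - Z * hz2 - hz1
  have hB : Z * (1 - a * L + b * L ^ 2) = -(n⁻¹ * (2 * b * L - a)) := by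
    rw [hLdef]
    field_simp
    linear_combination hA
  have hvZ : v Z = v n⁻¹ * v (2 * b * L - a) := by
    have := congrArg v hB
    rwa [map_mul, hden, mul_one, Valuation.map_neg, map_mul] at this
  rw [hvZ, hvn]
  calc v (t₁ + t₂) * v t₁ * v t₂ * v (2 * b * L - a)
      ≤ m * m * 1 * 1 := mul_le_mul' (mul_le_mul' (mul_le_mul' hs hm1) ht₂.le) hnum
    _ = m ^ 2 := by rw [mul_one, mul_one, sq]

end Fermat.Agent.S05
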